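import Mathlib

set_option autoImplicit false

/-!
# S24, layer (F): the projective line over a commutative ring and the action of `SL(2, ℤ)`

`P1 R` is the set of primitive pairs `(c, d)` of a commutative ring `R` modulo the relation
`c * d' = c' * d` (equivalently, modulo units).  `SL(2, ℤ)` acts on the right on row vectors.
-/

namespace Fermat.Agent.S24

open Matrix

section General

variable (R : Type*) [CommRing R]

/-- Primitive pairs. -/
def PrimPair : Type _ := {v : R × R // IsCoprime v.1 v.2}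

variable {R}

/-- The cross-product relation on primitive pairs. -/
def PrimPair.Rel (v w : PrimPair R) : Prop := v.1.1 * w.1.2 = w.1.1 * v.1.2

theorem PrimPair.Rel.refl (v : PrimPair R) : v.Rel v := rfl

theorem PrimPair.Rel.symm {v w : PrimPair R} (h : v.Rel w) : w.Rel v := Eq.symm h

theorem PrimPair.Rel.trans {v w z : PrimPair R} (h1 : v.Rel w) (h2 : w.Rel z) : v.Rel z := by
  obtain ⟨a, b, hab⟩ := w.2
  unfold PrimPair.Rel at *
  calc v.1.1 * z.1.2 = v.1.1 * z.1.2 * (a * w.1.1 + b * w.1.2) := by rw [hab, mul_one]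
    _ = a * z.1.2 * (v.1.1 * w.1.2) * 0 + (a * v.1.1 * (w.1.1 * z.1.2)
          + b * z.1.2 * (v.1.1 * w.1.2)) := by ring
    _ = a * v.1.1 * (z.1.1 * w.1.2) + b * z.1.2 * (w.1.1 * v.1.2) := by rw [h2, h1]; ring
    _ = a * z.1.1 * (v.1.1 * w.1.2) + b * v.1.2 * (w.1.1 * z.1.2) := by ring
    _ = a * z.1.1 * (w.1.1 * v.1.2) + b * v.1.2 * (z.1.1 * w.1.2) := by rw [h1, h2]
    _ = z.1.1 * v.1.2 * (a * w.1.1 + b * w.1.2) := by ring
    _ = z.1.1 * v.1.2 := by rw [hab, mul_one]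

variable (R)

/-- The setoid defining the projective line. -/
def p1Setoid : Setoid (PrimPair R) where
  r := PrimPair.Rel
  iseqv := ⟨PrimPair.Rel.refl, PrimPair.Rel.symm, PrimPair.Rel.trans⟩

/-- The projective line over `R`. -/
def P1 : Type _ := Quotient (p1Setoid R)

variable {R}

/-- The class of a primitive pair. -/
def P1.mk (c d : R) (h : IsCoprime c d) : P1 R := Quotient.mk (p1Setoid R) ⟨(c, d), h⟩

theorem P1.mk_eq_mk {c d c' d' : R} (h : IsCoprime c d) (h' : IsCoprime c' d') :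
    P1.mk c d h = P1.mk c' d' h' ↔ c * d' = c' * d :=
  Quotient.eq (r := p1Setoid R)

theorem P1.ind {motive : P1 R → Prop} (h : ∀ c d (hcd : IsCoprime c d), motive (P1.mk c d hcd))
    (x : P1 R) : motive x := by
  induction x using Quotient.ind with
  | _ v => exact h v.1.1 v.1.2 v.2

/-- Two primitive pairs are related iff they differ by a unit. -/
theorem PrimPair.rel_iff_exists_unit (v w : PrimPair R) :
    v.Rel w ↔ ∃ u : Rˣ, w.1.1 = u * v.1.1 ∧ w.1.2 = u * v.1.2 := by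
  constructor
  · intro h
    obtain ⟨a, b, hab⟩ := v.2
    obtain ⟨a', b', hab'⟩ := w.2
    unfold PrimPair.Rel at h
    have h1 : (a * w.1.1 + b * w.1.2) * v.1.1 = w.1.1 := by
      calc (a * w.1.1 + b * w.1.2) * v.1.1 = a * w.1.1 * v.1.1 + b * (v.1.1 * w.1.2) := by ring
        _ = a * w.1.1 * v.1.1 + b * (w.1.1 * v.1.2) := by rw [h]
        _ = w.1.1 * (a * v.1.1 + b * v.1.2) := by ring
        _ = w.1.1 := by rw [hab, mul_one]
    have h2 : (a * w.1.1 + b * w.1.2) * v.1.2 = w.1.2 := by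
      calc (a * w.1.1 + b * w.1.2) * v.1.2 = a * (w.1.1 * v.1.2) + b * w.1.2 * v.1.2 := by ring
        _ = a * (v.1.1 * w.1.2) + b * w.1.2 * v.1.2 := by rw [h]
        _ = w.1.2 * (a * v.1.1 + b * v.1.2) := by ring
        _ = w.1.2 := by rw [hab, mul_one]
    have h3 : (a' * v.1.1 + b' * v.1.2) * w.1.1 = v.1.1 := by
      calc (a' * v.1.1 + b' * v.1.2) * w.1.1 = a' * v.1.1 * w.1.1 + b' * (w.1.1 * v.1.2) := by ring
        _ = a' * v.1.1 * w.1.1 + b' * (v.1.1 * w.1.2) := by rw [h]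
        _ = v.1.1 * (a' * w.1.1 + b' * w.1.2) := by ring
        _ = v.1.1 := by rw [hab', mul_one]
    have h4 : (a' * v.1.1 + b' * v.1.2) * w.1.2 = v.1.2 := by
      calc (a' * v.1.1 + b' * v.1.2) * w.1.2 = a' * (v.1.1 * w.1.2) + b' * v.1.2 * w.1.2 := by ring
        _ = a' * (w.1.1 * v.1.2) + b' * v.1.2 * w.1.2 := by rw [h]
        _ = v.1.2 * (a' * w.1.1 + b' * w.1.2) := by ring
        _ = v.1.2 := by rw [hab', mul_one]
    have hu : (a * w.1.1 + b * w.1.2) * (a' * v.1.1 + b' * v.1.2) = 1 := by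
      calc (a * w.1.1 + b * w.1.2) * (a' * v.1.1 + b' * v.1.2)
          = (a * w.1.1 + b * w.1.2) * (a' * v.1.1 + b' * v.1.2) * (a' * w.1.1 + b' * w.1.2) := by
            rw [hab', mul_one]
        _ = (a * w.1.1 + b * w.1.2) * (a' * ((a' * v.1.1 + b' * v.1.2) * w.1.1)
              + b' * ((a' * v.1.1 + b' * v.1.2) * w.1.2)) := by ring
        _ = (a * w.1.1 + b * w.1.2) * (a' * v.1.1 + b' * v.1.2) := by rw [h3, h4]
        _ = a' * ((a * w.1.1 + b * w.1.2) * v.1.1) + b' * ((a * w.1.1 + b * w.1.2) * v.1.2) := by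
            ring
        _ = a' * w.1.1 + b' * w.1.2 := by rw [h1, h2]
        _ = 1 := hab'
    refine ⟨⟨a * w.1.1 + b * w.1.2, a' * v.1.1 + b' * v.1.2, hu, by rw [mul_comm]; exact hu⟩,
      h1.symm, h2.symm⟩
  · rintro ⟨u, h1, h2⟩
    unfold PrimPair.Rel
    rw [h1, h2]
    ring

/-! ### The action of `SL(2, R)` on column vectors -/

open MatrixGroups

theorem sl2_det_eq (g : SL(2, R)) : g 0 0 * g 1 1 - g 0 1 * g 1 0 = 1 := by
  have h := g.det_coe
  rw [Matrix.det_fin_two] at h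
  exact h

/-- The column-vector action of `SL(2, R)` on primitive pairs. -/
def PrimPair.smul (g : SL(2, R)) (v : PrimPair R) : PrimPair R :=
  ⟨(g 0 0 * v.1.1 + g 0 1 * v.1.2, g 1 0 * v.1.1 + g 1 1 * v.1.2), by
    obtain ⟨a, b, hab⟩ := v.2
    refine ⟨a * g 1 1 - b * g 1 0, -a * g 0 1 + b * g 0 0, ?_⟩
    have hdet := sl2_det_eq g
    linear_combination (a * v.1.1 + b * v.1.2) * hdet + hab⟩

theorem PrimPair.smul_rel (g : SL(2, R)) {v w : PrimPair R} (h : v.Rel w) :
    (PrimPair.smul g v).Rel (PrimPair.smul g w) := by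
  unfold PrimPair.Rel at *
  have hdet := sl2_det_eq g
  simp only [PrimPair.smul]
  linear_combination (g 0 0 * g 1 1 - g 0 1 * g 1 0) * h

/-- The action of `SL(2, R)` on `P1 R`, as a function. -/
def P1.smul (g : SL(2, R)) : P1 R → P1 R :=
  Quotient.map (sa := p1Setoid R) (sb := p1Setoid R) (PrimPair.smul g)
    (fun _ _ h => PrimPair.smul_rel g h)

theorem P1.smul_mk (g : SL(2, R)) (c d : R) (h : IsCoprime c d) :
    P1.smul g (P1.mk c d h) =
      P1.mk (g 0 0 * c + g 0 1 * d) (g 1 0 * c + g 1 1 * d) (PrimPair.smul g ⟨(c, d), h⟩).2 :=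
  rfl

instance : MulAction SL(2, R) (P1 R) where
  smul := P1.smul
  one_smul x := by
    induction x using P1.ind with
    | _ c d h =>
      refine (P1.mk_eq_mk _ _).2 ?_
      simp
  mul_smul g g' x := by
    induction x using P1.ind with
    | _ c d h =>
      refine (P1.mk_eq_mk _ _).2 ?_
      simp only [PrimPair.smul, Matrix.SpecialLinearGroup.coe_mul, Matrix.mul_apply,
        Fin.sum_univ_two]
      ring

theorem P1.smul_def (g : SL(2, R)) (c d : R) (h : IsCoprime c d) :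
    g • (P1.mk c d h) =
      P1.mk (g 0 0 * c + g 0 1 * d) (g 1 0 * c + g 1 1 * d) (PrimPair.smul g ⟨(c, d), h⟩).2 :=
  rfl

/-- `SL(2, ℤ)` acts on `P1 R` through `SL(2, ℤ) → SL(2, R)`. -/
instance P1.intMulAction : MulAction SL(2, ℤ) (P1 R) :=
  MulAction.compHom (P1 R) (Matrix.SpecialLinearGroup.map (Int.castRingHom R))

theorem P1.int_smul_eq (g : SL(2, ℤ)) (x : P1 R) :
    g • x = (Matrix.SpecialLinearGroup.map (Int.castRingHom R) g) • x :=
  rfl

theorem P1.int_smul_def (g : SL(2, ℤ)) (c d : R) (h : IsCoprime c d) :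
    ∃ h', g • (P1.mk c d h) =
      P1.mk ((g 0 0 : ℤ) * c + (g 0 1 : ℤ) * d) ((g 1 0 : ℤ) * c + (g 1 1 : ℤ) * d) h' :=
  ⟨(PrimPair.smul (Matrix.SpecialLinearGroup.map (Int.castRingHom R) g) ⟨(c, d), h⟩).2, rfl⟩

/-- The matrix `S = !![0, -1; 1, 0]`. -/
def matS : SL(2, ℤ) := ⟨!![0, -1; 1, 0], by simp [Matrix.det_fin_two]⟩

/-- The matrix `T = !![1, 1; 0, 1]`. -/
def matT : SL(2, ℤ) := ⟨!![1, 1; 0, 1], by simp [Matrix.det_fin_two]⟩

/-- The matrix `S * T = !![0, -1; 1, 1]`. -/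
def matST : SL(2, ℤ) := ⟨!![0, -1; 1, 1], by simp [Matrix.det_fin_two]⟩

theorem matST_eq : matST = matS * matT := by
  apply Subtype.ext
  show matST.1 = matS.1 * matT.1
  simp [matST, matS, matT]

theorem matS_eq : matS = ModularGroup.S := by
  ext i j
  fin_cases i <;> fin_cases j <;> simp [matS, ModularGroup.S]

theorem matT_eq : matT = ModularGroup.T := by
  ext i j
  fin_cases i <;> fin_cases j <;> simp [matT, ModularGroup.T]

theorem P1.matS_smul (c d : R) (h : IsCoprime c d) (h' : IsCoprime (-d) c) :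
    matS • (P1.mk c d h) = P1.mk (-d) c h' := by
  obtain ⟨h'', e⟩ := P1.int_smul_def matS c d h
  rw [e]
  refine (P1.mk_eq_mk _ _).2 ?_
  simp [matS]

theorem P1.matT_smul (c d : R) (h : IsCoprime c d) (h' : IsCoprime (c + d) d) :
    matT • (P1.mk c d h) = P1.mk (c + d) d h' := by
  obtain ⟨h'', e⟩ := P1.int_smul_def matT c d h
  rw [e]
  refine (P1.mk_eq_mk _ _).2 ?_
  simp [matT]

theorem P1.matST_smul (c d : R) (h : IsCoprime c d) (h' : IsCoprime (-d) (c + d)) :
    matST • (P1.mk c d h) = P1.mk (-d) (c + d) h' := by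
  obtain ⟨h'', e⟩ := P1.int_smul_def matST c d h
  rw [e]
  refine (P1.mk_eq_mk _ _).2 ?_
  simp [matST]

end General

end Fermat.Agent.S24
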