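import Mathlib
import Fermat.Prelude.Def_ModularCurve_X0

/-! # S24 chunk (F1), number-theory half: `dedekindPsi` is multiplicative,
`dedekindPsi (p ^ k) = p ^ k + p ^ (k - 1)`. -/

set_option autoImplicit false

namespace Fermat.Agent.S24

open ModularCurve ArithmeticFunction

/-- indicator of squarefree numbers as an arithmetic function -/
noncomputable def sqfInd : ArithmeticFunction ℕ :=
  ⟨fun n => if n ≠ 0 ∧ Squarefree n then 1 else 0, by simp⟩

theorem sqfInd_apply (n : ℕ) : sqfInd n = if n ≠ 0 ∧ Squarefree n then 1 else 0 := rfl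

theorem sqfInd_isMultiplicative : sqfInd.IsMultiplicative := by
  refine ⟨by simp [sqfInd_apply], ?_⟩
  intro m n hmn
  simp only [sqfInd_apply]
  have h := Nat.squarefree_mul hmn
  by_cases hm0 : m = 0
  · simp [hm0]
  by_cases hn0 : n = 0
  · simp [hn0]
  by_cases hm : Squarefree m <;> by_cases hn : Squarefree n <;> simp [hm, hn, hm0, hn0, h]

theorem dedekindPsi_eq_mul_id (N : ℕ) :
    dedekindPsi N = (sqfInd * (ArithmeticFunction.id : ArithmeticFunction ℕ)) N := by
  rw [ArithmeticFunction.mul_apply, Nat.sum_divisorsAntidiagonal (fun i j => sqfInd i * ArithmeticFunction.id j),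
    dedekindPsi, Finset.sum_filter]
  refine Finset.sum_congr rfl ?_
  intro d hd
  have hd0 : d ≠ 0 := by
    intro h
    rw [h] at hd
    simp at hd
  simp only [sqfInd_apply, ArithmeticFunction.id_apply, hd0, ne_eq, not_false_eq_true, true_and]
  split_ifs <;> simp

theorem dedekindPsi_mul_of_coprime {m n : ℕ} (h : m.Coprime n) :
    dedekindPsi (m * n) = dedekindPsi m * dedekindPsi n := by
  simp only [dedekindPsi_eq_mul_id]
  exact (sqfInd_isMultiplicative.mul isMultiplicative_id).map_mul_of_coprime h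

theorem dedekindPsi_prime_pow {p k : ℕ} (hp : p.Prime) (hk : 0 < k) :
    dedekindPsi (p ^ k) = p ^ k + p ^ (k - 1) := by
  obtain ⟨k, rfl⟩ : ∃ j, k = j + 1 := ⟨k - 1, by omega⟩
  rw [dedekindPsi, Nat.divisors_prime_pow hp, Finset.sum_filter, Finset.sum_map]
  simp only [Function.Embedding.coeFn_mk]
  rw [Finset.sum_range_succ' , Finset.sum_range_succ']
  have : ∀ i ∈ Finset.range k, (if Squarefree (p ^ (i + 1 + 1)) then p ^ (k + 1) / p ^ (i + 1 + 1) else 0) = 0 := by
    intro i _
    rw [if_neg]
    rw [Nat.squarefree_pow_iff hp.ne_one (by omega)]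
    omega
  rw [Finset.sum_eq_zero this]
  simp only [zero_add, pow_zero, squarefree_one, if_true, Nat.div_one, pow_one, hp.squarefree]
  rw [add_comm, Nat.add_sub_cancel, Nat.pow_succ, Nat.mul_div_cancel _ hp.pos]

end Fermat.Agent.S24
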