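import Mathlib
import Fermat.Prelude.Def_ModularCurve_X0
import Fermat.Agent.S24.CombP1
import Fermat.Agent.S24.PsiMult

/-! # S24 chunk (F1): `Nat.card (P1 (ZMod N)) = dedekindPsi N` -/

set_option autoImplicit false

namespace Fermat.Agent.S24

open ModularCurve

section functorial

variable {R S T : Type*} [CommRing R] [CommRing S] [CommRing T]

/-- functoriality of `P1` in the ring -/
def P1.map (f : R →+* S) : P1 R → P1 S :=
  Quotient.map (sa := p1Setoid R) (sb := p1Setoid S)
    (fun v => ⟨(f v.1.1, f v.1.2), v.2.map f⟩)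
    (by
      intro v w h
      show f v.1.1 * f w.1.2 = f w.1.1 * f v.1.2
      rw [← map_mul, ← map_mul]
      exact congrArg f h)

theorem P1.map_mk (f : R →+* S) (c d : R) (h : IsCoprime c d) :
    P1.map f (P1.mk c d h) = P1.mk (f c) (f d) (h.map f) := rfl

theorem P1.map_id (x : P1 R) : P1.map (RingHom.id R) x = x := by
  induction x using P1.ind with
  | _ c d h => rfl

theorem P1.map_map (f : R →+* S) (g : S →+* T) (x : P1 R) :
    P1.map g (P1.map f x) = P1.map (g.comp f) x := by
  induction x using P1.ind with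
  | _ c d h => rfl

/-- a ring isomorphism induces a bijection of projective lines -/
def P1.congr (e : R ≃+* S) : P1 R ≃ P1 S where
  toFun := P1.map e.toRingHom
  invFun := P1.map e.symm.toRingHom
  left_inv x := by
    rw [P1.map_map]
    have : e.symm.toRingHom.comp e.toRingHom = RingHom.id R := by
      ext r; simp
    rw [this, P1.map_id]
  right_inv x := by
    rw [P1.map_map]
    have : e.toRingHom.comp e.symm.toRingHom = RingHom.id S := by
      ext r; simp
    rw [this, P1.map_id]

/-- the projective line of a product ring -/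
def P1.prodMap (x : P1 (R × S)) : P1 R × P1 S :=
  (P1.map (RingHom.fst R S) x, P1.map (RingHom.snd R S) x)

theorem P1.prodMap_bijective : Function.Bijective (P1.prodMap (R := R) (S := S)) := by
  constructor
  · intro x y hxy
    induction x using P1.ind with
    | _ c d h =>
    induction y using P1.ind with
    | _ c' d' h' =>
    simp only [P1.prodMap, P1.map_mk, Prod.mk.injEq, P1.mk_eq_mk] at hxy
    refine (P1.mk_eq_mk _ _).2 ?_
    exact Prod.ext hxy.1 hxy.2
  · rintro ⟨x, y⟩
    induction x using P1.ind with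
    | _ c d h =>
    induction y using P1.ind with
    | _ c' d' h' =>
    obtain ⟨a, b, hab⟩ := h
    obtain ⟨a', b', hab'⟩ := h'
    refine ⟨P1.mk (c, c') (d, d') ⟨(a, a'), (b, b'), Prod.ext hab hab'⟩, ?_⟩
    rfl

theorem P1.card_prod : Nat.card (P1 (R × S)) = Nat.card (P1 R) * Nat.card (P1 S) := by
  rw [Nat.card_congr (Equiv.ofBijective _ (P1.prodMap_bijective (R := R) (S := S))), Nat.card_prod]

end functorial

section local_count

variable {R : Type*} [CommRing R]

/-- the affine chart map: `R ⊕ nonunits → P1 R` -/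
def P1.chart : R ⊕ {c : R // ¬ IsUnit c} → P1 R
  | Sum.inl d => P1.mk 1 d isCoprime_one_left
  | Sum.inr c => P1.mk c.1 1 isCoprime_one_right

theorem P1.chart_injective [Nontrivial R] : Function.Injective (P1.chart (R := R)) := by
  rintro (d | c) (d' | c') h
  · simp only [P1.chart, P1.mk_eq_mk] at h
    simp only [one_mul] at h
    rw [h]
  · exfalso
    simp only [P1.chart, P1.mk_eq_mk, mul_one] at h
    exact c'.2 (IsUnit.of_mul_eq_one d h.symm)
  · exfalso
    simp only [P1.chart, P1.mk_eq_mk, mul_one] at h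
    exact c.2 (IsUnit.of_mul_eq_one d' h)
  · simp only [P1.chart, P1.mk_eq_mk] at h
    simp only [mul_one] at h
    congr 1
    exact Subtype.ext h

theorem P1.chart_surjective (hloc : ∀ c d : R, IsCoprime c d → IsUnit c ∨ IsUnit d) :
    Function.Surjective (P1.chart (R := R)) := by
  intro x
  induction x using P1.ind with
  | _ c d h =>
  by_cases hc : IsUnit c
  · obtain ⟨u, rfl⟩ := hc
    refine ⟨Sum.inl (↑u⁻¹ * d), ?_⟩
    simp only [P1.chart]
    refine (P1.mk_eq_mk _ _).2 ?_
    rw [one_mul, ← mul_assoc, Units.mul_inv, one_mul]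
  · have hd : IsUnit d := (hloc c d h).resolve_left hc
    obtain ⟨u, rfl⟩ := hd
    refine ⟨Sum.inr ⟨↑u⁻¹ * c, ?_⟩, ?_⟩
    · intro hu
      apply hc
      have := (u.isUnit).mul hu
      rwa [← mul_assoc, Units.mul_inv, one_mul] at this
    · simp only [P1.chart]
      refine (P1.mk_eq_mk _ _).2 ?_
      rw [mul_one, mul_comm, ← mul_assoc, Units.mul_inv, one_mul]

end local_count

section zmod

theorem zmod_prime_pow_isUnit_iff {p k : ℕ} (hp : p.Prime) (hk : 0 < k) (x : ZMod (p ^ k)) :
    IsUnit x ↔ ¬ p ∣ x.val := by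
  have : NeZero (p ^ k) := ⟨pow_ne_zero _ hp.ne_zero⟩
  rw [← ZMod.natCast_zmod_val x, ZMod.isUnit_iff_coprime, ZMod.natCast_zmod_val x,
    Nat.coprime_pow_right_iff hk, Nat.coprime_comm, hp.coprime_iff_not_dvd]

theorem zmod_prime_pow_local {p k : ℕ} (hp : p.Prime) (hk : 0 < k) (c d : ZMod (p ^ k))
    (h : IsCoprime c d) : IsUnit c ∨ IsUnit d := by
  have : NeZero (p ^ k) := ⟨pow_ne_zero _ hp.ne_zero⟩
  by_contra hcon
  push Not at hcon
  obtain ⟨hc, hd⟩ := hcon
  rw [zmod_prime_pow_isUnit_iff hp hk, not_not] at hc hd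
  obtain ⟨c', hc'⟩ := hc
  obtain ⟨d', hd'⟩ := hd
  obtain ⟨a, b, hab⟩ := h
  have hcc : c = (p : ZMod (p ^ k)) * (c' : ZMod (p ^ k)) := by
    rw [← ZMod.natCast_zmod_val c, hc', Nat.cast_mul]
  have hdd : d = (p : ZMod (p ^ k)) * (d' : ZMod (p ^ k)) := by
    rw [← ZMod.natCast_zmod_val d, hd', Nat.cast_mul]
  have hpu : IsUnit (p : ZMod (p ^ k)) := by
    refine IsUnit.of_mul_eq_one (a * c' + b * d') ?_
    rw [← hab, hcc, hdd]
    ring
  rw [ZMod.isUnit_prime_iff_not_dvd hp] at hpu
  exact hpu (dvd_pow_self p hk.ne')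

theorem card_nonunits_zmod_prime_pow {p k : ℕ} (hp : p.Prime) (hk : 0 < k) :
    Nat.card {c : ZMod (p ^ k) // ¬ IsUnit c} = p ^ (k - 1) := by
  classical
  have : NeZero (p ^ k) := ⟨pow_ne_zero _ hp.ne_zero⟩
  have e : {c : ZMod (p ^ k) // IsUnit c} ≃ (ZMod (p ^ k))ˣ :=
    { toFun := fun c => c.2.unit
      invFun := fun u => ⟨u.1, u.isUnit⟩
      left_inv := fun c => Subtype.ext (IsUnit.unit_spec c.2)
      right_inv := fun u => Units.ext rfl }
  rw [Nat.card_eq_fintype_card, Fintype.card_subtype_compl, Fintype.card_congr e,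
    ZMod.card_units_eq_totient, ZMod.card, Nat.totient_prime_pow hp hk]
  obtain ⟨j, rfl⟩ : ∃ j, k = j + 1 := ⟨k - 1, by omega⟩
  simp only [Nat.add_sub_cancel]
  have hp1 : 1 ≤ p := hp.one_lt.le
  rw [pow_succ]
  have : p ^ j * p = p ^ j * (p - 1) + p ^ j := by
    rw [← Nat.mul_succ]
    congr 1
    omega
  omega

theorem card_P1_zmod_prime_pow {p k : ℕ} (hp : p.Prime) (hk : 0 < k) :
    Nat.card (P1 (ZMod (p ^ k))) = p ^ k + p ^ (k - 1) := by
  have : NeZero (p ^ k) := ⟨pow_ne_zero _ hp.ne_zero⟩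
  have : Fact (1 < p ^ k) := ⟨Nat.one_lt_pow hk.ne' hp.one_lt⟩
  have hbij : Function.Bijective (P1.chart (R := ZMod (p ^ k))) :=
    ⟨P1.chart_injective, P1.chart_surjective (zmod_prime_pow_local hp hk)⟩
  rw [← Nat.card_congr (Equiv.ofBijective _ hbij), Nat.card_sum,
    card_nonunits_zmod_prime_pow hp hk, Nat.card_eq_fintype_card, ZMod.card]

theorem card_P1_zmod_mul {m n : ℕ} (h : m.Coprime n) :
    Nat.card (P1 (ZMod (m * n))) = Nat.card (P1 (ZMod m)) * Nat.card (P1 (ZMod n)) := by
  rw [Nat.card_congr (P1.congr (ZMod.chineseRemainder h)), P1.card_prod]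

theorem card_P1_zmod_one : Nat.card (P1 (ZMod 1)) = 1 := by
  have : Subsingleton (P1 (ZMod 1)) := by
    constructor
    intro x y
    induction x using P1.ind with
    | _ c d h =>
    induction y using P1.ind with
    | _ c' d' h' =>
    exact (P1.mk_eq_mk _ _).2 (Subsingleton.elim _ _)
  have : Nonempty (P1 (ZMod 1)) := ⟨P1.mk 1 0 isCoprime_one_left⟩
  exact Nat.card_unique

/-- **(F1)** the projective line over `ZMod N` has `dedekindPsi N` points. -/
theorem card_P1_zmod (N : ℕ) [NeZero N] : Nat.card (P1 (ZMod N)) = dedekindPsi N := by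
  have key : ∀ N : ℕ, N ≠ 0 → Nat.card (P1 (ZMod N)) = dedekindPsi N := by
    intro N
    induction N using Nat.recOnPosPrimePosCoprime with
    | prime_pow p k hp hk =>
      intro _
      rw [card_P1_zmod_prime_pow hp hk, dedekindPsi_prime_pow hp hk]
    | zero => intro h; exact absurd rfl h
    | one =>
      intro _
      rw [card_P1_zmod_one, dedekindPsi_one]
    | coprime a b ha hb hab iha ihb =>
      intro _
      rw [card_P1_zmod_mul hab, dedekindPsi_mul_of_coprime hab, iha (by omega), ihb (by omega)]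
  exact key N (NeZero.ne N)

end zmod

end Fermat.Agent.S24
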