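import Fermat.Agent.S24.CombP1
import Fermat.Prelude.Def_ModularCurve_GenusNumerics

set_option autoImplicit false

/-!
# S24, layer (F2): fixed points of `S` and `S * T` on `P1 R`

Over any commutative ring the fixed points of `S = !![0, -1; 1, 0]` on `P1 R` (column vectors)
are the points `(u : 1)` with `u ^ 2 + 1 = 0`, and the fixed points of `S * T = !![0, -1; 1, 1]`
are the points `(u : 1)` with `u ^ 2 + u + 1 = 0`.
-/

namespace Fermat.Agent.S24

open Matrix MatrixGroups

section General

variable {R : Type*} [CommRing R]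

instance [Finite R] : Finite (PrimPair R) := Subtype.finite

instance [Finite R] : Finite (P1 R) := Quotient.finite _

/-- The point `(u : 1)`. -/
def P1.affine (u : R) : P1 R := P1.mk u 1 isCoprime_one_right

theorem P1.affine_injective : Function.Injective (P1.affine : R → P1 R) := by
  intro u u' h
  have := (P1.mk_eq_mk _ _).1 h
  simpa using this

theorem P1.matS_smul_affine_eq_iff (u : R) : matS • P1.affine u = P1.affine u ↔ u ^ 2 + 1 = 0 := by
  unfold P1.affine
  rw [P1.matS_smul u 1 _ (IsCoprime.neg_left isCoprime_one_left), P1.mk_eq_mk]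
  constructor
  · intro h
    linear_combination -h
  · intro h
    linear_combination -h

theorem P1.matST_smul_affine_eq_iff (u : R) :
    matST • P1.affine u = P1.affine u ↔ u ^ 2 + u + 1 = 0 := by
  unfold P1.affine
  rw [P1.matST_smul u 1 _ (IsCoprime.neg_left isCoprime_one_left), P1.mk_eq_mk]
  constructor
  · intro h
    linear_combination -h
  · intro h
    linear_combination -h

/-- A fixed point of `S` is affine. -/
theorem P1.exists_affine_of_matS_smul_eq {x : P1 R} (hx : matS • x = x) :
    ∃ u : R, x = P1.affine u := by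
  induction x using P1.ind with
  | _ c d h =>
    rw [P1.matS_smul c d h (IsCoprime.neg_left h.symm), P1.mk_eq_mk] at hx
    obtain ⟨a, b, hab⟩ := id h
    have hw : d * (-a ^ 2 * d + 2 * a * b * c + b ^ 2 * d) = 1 := by
      linear_combination (a ^ 2) * hx + (a * c + b * d + 1) * hab
    refine ⟨c * (-a ^ 2 * d + 2 * a * b * c + b ^ 2 * d), ?_⟩
    unfold P1.affine
    rw [P1.mk_eq_mk]
    linear_combination (-c) * hw

/-- A fixed point of `S * T` is affine. -/
theorem P1.exists_affine_of_matST_smul_eq {x : P1 R} (hx : matST • x = x) :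
    ∃ u : R, x = P1.affine u := by
  induction x using P1.ind with
  | _ c d h =>
    rw [P1.matST_smul c d h
      (IsCoprime.neg_left (by simpa [add_comm] using (IsCoprime.add_mul_left_right h.symm 1))),
      P1.mk_eq_mk] at hx
    obtain ⟨a, b, hab⟩ := id h
    have hw : d * (-a ^ 2 * c - a ^ 2 * d + 2 * a * b * c + b ^ 2 * d) = 1 := by
      linear_combination (a ^ 2) * hx + (a * c + b * d + 1) * hab
    refine ⟨c * (-a ^ 2 * c - a ^ 2 * d + 2 * a * b * c + b ^ 2 * d), ?_⟩
    unfold P1.affine
    rw [P1.mk_eq_mk]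
    linear_combination (-c) * hw

/-- Fixed points of `S` on `P1 R` correspond to square roots of `-1`. -/
noncomputable def fixedByMatSEquiv :
    {u : R // u ^ 2 + 1 = 0} ≃ MulAction.fixedBy (P1 R) matS :=
  Equiv.ofBijective
    (fun u => ⟨P1.affine u.1, (P1.matS_smul_affine_eq_iff u.1).2 u.2⟩)
    ⟨fun u u' h => Subtype.ext (P1.affine_injective (congrArg Subtype.val h)),
     fun x => by
      obtain ⟨u, hu⟩ := P1.exists_affine_of_matS_smul_eq x.2
      have h2 : matS • P1.affine u = P1.affine u := by rw [← hu]; exact x.2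
      exact ⟨⟨u, (P1.matS_smul_affine_eq_iff u).1 h2⟩, Subtype.ext hu.symm⟩⟩

/-- Fixed points of `S * T` on `P1 R` correspond to roots of `x ^ 2 + x + 1`. -/
noncomputable def fixedByMatSTEquiv :
    {u : R // u ^ 2 + u + 1 = 0} ≃ MulAction.fixedBy (P1 R) matST :=
  Equiv.ofBijective
    (fun u => ⟨P1.affine u.1, (P1.matST_smul_affine_eq_iff u.1).2 u.2⟩)
    ⟨fun u u' h => Subtype.ext (P1.affine_injective (congrArg Subtype.val h)),
     fun x => by
      obtain ⟨u, hu⟩ := P1.exists_affine_of_matST_smul_eq x.2
      have h2 : matST • P1.affine u = P1.affine u := by rw [← hu]; exact x.2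
      exact ⟨⟨u, (P1.matST_smul_affine_eq_iff u).1 h2⟩, Subtype.ext hu.symm⟩⟩

theorem P1.matS_smul_matS_smul (x : P1 R) : matS • matS • x = x := by
  induction x using P1.ind with
  | _ c d h =>
    rw [P1.matS_smul c d h (IsCoprime.neg_left h.symm),
      P1.matS_smul (-d) c _ (IsCoprime.neg_left (IsCoprime.neg_right h)), P1.mk_eq_mk]
    ring

theorem P1.matST_smul_matST_smul_matST_smul (x : P1 R) : matST • matST • matST • x = x := by
  induction x using P1.ind with
  | _ c d h =>
    have h1 : IsCoprime (-d) (c + d) :=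
      IsCoprime.neg_left (by simpa [add_comm] using (IsCoprime.add_mul_left_right h.symm 1))
    have h2 : IsCoprime (-(c + d)) (-d + (c + d)) :=
      IsCoprime.neg_left (by simpa [add_comm] using (IsCoprime.add_mul_left_right h1.symm 1))
    have h3 : IsCoprime (-(-d + (c + d))) (-(c + d) + (-d + (c + d))) :=
      IsCoprime.neg_left (by simpa [add_comm] using (IsCoprime.add_mul_left_right h2.symm 1))
    rw [P1.matST_smul c d h h1, P1.matST_smul _ _ h1 h2, P1.matST_smul _ _ h2 h3, P1.mk_eq_mk]
    ring

theorem toPerm_matS_sq : (MulAction.toPerm matS : Equiv.Perm (P1 R)) ^ 2 = 1 := by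
  ext x
  simp [pow_two, P1.matS_smul_matS_smul]

theorem toPerm_matST_cube : (MulAction.toPerm matST : Equiv.Perm (P1 R)) ^ 3 = 1 := by
  ext x
  simp [pow_succ, P1.matST_smul_matST_smul_matST_smul]

theorem fixedPoints_toPerm_eq (g : SL(2, ℤ)) :
    Function.fixedPoints (MulAction.toPerm g : Equiv.Perm (P1 R)) = MulAction.fixedBy (P1 R) g :=
  rfl

end General

theorem card_fixedBy_matS (N : ℕ) :
    Nat.card (MulAction.fixedBy (P1 (ZMod N)) matS) = ModularCurve.nuTwo N :=
  (Nat.card_congr fixedByMatSEquiv).symm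

theorem card_fixedBy_matST (N : ℕ) :
    Nat.card (MulAction.fixedBy (P1 (ZMod N)) matST) = ModularCurve.nuThree N :=
  (Nat.card_congr fixedByMatSTEquiv).symm

end Fermat.Agent.S24
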