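import Mathlib

set_option autoImplicit false

/-!
# Orbits of a permutation: counting, parity, involutions and elements of order three
-/

namespace Fermat.Agent.S24

open Equiv Equiv.Perm

noncomputable section

variable {I : Type*} [Fintype I] [DecidableEq I]

/-- number of orbits (cycles, including fixed points) of a permutation. -/
def orb (g : Perm I) : ℕ := Nat.card (Quotient (SameCycle.setoid g))

/-- auxiliary map from orbits to fixed points ⊕ nontrivial cycles. -/
def orbToSum (g : Perm I) :
    Quotient (SameCycle.setoid g) → (Function.fixedPoints g) ⊕ {c // c ∈ g.cycleFactorsFinset} :=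
  Quotient.lift (s := SameCycle.setoid g)
    (fun x => if h : g x = x then Sum.inl ⟨x, h⟩
      else Sum.inr ⟨g.cycleOf x, by
        rw [cycleOf_mem_cycleFactorsFinset_iff, mem_support]; exact h⟩)
    (by
      intro x y hxy
      have hxy' : SameCycle g x y := hxy
      by_cases hx : g x = x
      · have : x = y := hxy'.eq_of_left hx
        subst this
        rfl
      · have hy : ¬ g y = y := fun hy => hx (hxy'.apply_eq_self_iff.mpr hy)
        simp only [dif_neg hx, dif_neg hy]
        congr 2
        exact hxy'.cycleOf_eq)

lemma orbToSum_mk (g : Perm I) (x : I) :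
    orbToSum g (Quotient.mk (SameCycle.setoid g) x) =
      if h : g x = x then Sum.inl ⟨x, h⟩
      else Sum.inr ⟨g.cycleOf x, by
        rw [cycleOf_mem_cycleFactorsFinset_iff, mem_support]; exact h⟩ := rfl

lemma orbToSum_bijective (g : Perm I) : Function.Bijective (orbToSum g) := by
  constructor
  · intro a b
    induction a using Quotient.inductionOn with | _ x => ?_
    induction b using Quotient.inductionOn with | _ y => ?_
    rw [orbToSum_mk, orbToSum_mk]
    by_cases hx : g x = x <;> by_cases hy : g y = y
    · simp only [dif_pos hx, dif_pos hy, Sum.inl.injEq]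
      intro h
      have : x = y := congrArg Subtype.val h
      rw [this]
    · simp [dif_pos hx, dif_neg hy]
    · simp [dif_neg hx, dif_pos hy]
    · simp only [dif_neg hx, dif_neg hy, Sum.inr.injEq, Subtype.mk.injEq]
      intro h
      apply Quotient.sound
      exact (sameCycle_iff_cycleOf_eq_of_mem_support (mem_support.mpr hx)
        (mem_support.mpr hy)).mpr h
  · rintro (⟨x, hx⟩ | ⟨c, hc⟩)
    · refine ⟨Quotient.mk _ x, ?_⟩
      have hx' : g x = x := hx
      rw [orbToSum_mk, dif_pos hx']
    · have hcyc := (mem_cycleFactorsFinset_iff.mp hc).1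
      obtain ⟨x, hx⟩ := hcyc.nonempty_support
      have hxg : x ∈ g.support := mem_cycleFactorsFinset_support_le hc hx
      refine ⟨Quotient.mk _ x, ?_⟩
      rw [orbToSum_mk, dif_neg (mem_support.mp hxg)]
      congr 2
      exact (cycle_is_cycleOf hx hc).symm

/-- number of orbits = number of nontrivial cycles + number of fixed points. -/
lemma orb_eq (g : Perm I) :
    orb g = Multiset.card g.cycleType + Fintype.card (Function.fixedPoints g) := by
  rw [orb, Nat.card_congr (Equiv.ofBijective _ (orbToSum_bijective g)), Nat.card_eq_fintype_card,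
    Fintype.card_sum, cycleType_def, Multiset.card_map, Fintype.card_coe, add_comm]
  rfl

/-- `orb g + (sum of cycle lengths - number of cycles) = |I|`. -/
lemma orb_add (g : Perm I) :
    orb g + g.cycleType.sum = Fintype.card I + Multiset.card g.cycleType := by
  rw [orb_eq, card_fixedPoints]
  have := sum_cycleType_le g
  omega

lemma card_cycleType_le_sum (g : Perm I) : Multiset.card g.cycleType ≤ g.cycleType.sum := by
  have h : ∀ n ∈ g.cycleType, 1 ≤ n := fun n hn => (one_lt_of_mem_cycleType hn).le
  calc Multiset.card g.cycleType = (g.cycleType.map fun _ => 1).sum := by simp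
    _ ≤ (g.cycleType.map id).sum := Multiset.sum_map_le_sum_map _ _ h
    _ = g.cycleType.sum := by simp

lemma orb_le (g : Perm I) : orb g ≤ Fintype.card I := by
  have := orb_add g
  have := card_cycleType_le_sum g
  omega

lemma neg_one_pow_congr {A B x y : ℕ} (h : A + 2 * x = B + 2 * y) :
    (-1 : ℤˣ) ^ A = (-1 : ℤˣ) ^ B := by
  have h1 : (-1 : ℤˣ) ^ A = (-1 : ℤˣ) ^ (A + 2 * x) := by
    rw [pow_add _ _ (2 * _), pow_mul]; simp
  have h2 : (-1 : ℤˣ) ^ B = (-1 : ℤˣ) ^ (B + 2 * y) := by
    rw [pow_add _ _ (2 * _), pow_mul]; simp
  rw [h1, h2, h]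

/-- the sign of a permutation in terms of the number of orbits. -/
lemma sign_eq_neg_one_pow (g : Perm I) : sign g = (-1 : ℤˣ) ^ (Fintype.card I + orb g) := by
  rw [sign_of_cycleType]
  have h := orb_add g
  apply neg_one_pow_congr (x := Fintype.card I) (y := g.cycleType.sum)
  omega

/-- **Parity**: if `s * t = r` then `|I| - orb s - orb r - orb t` is even (stated additively). -/
theorem even_card_add_orb {s t r : Perm I} (h : s * t = r) :
    Even (Fintype.card I + orb s + orb r + orb t) := by
  have hs := sign_eq_neg_one_pow s
  have ht := sign_eq_neg_one_pow t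
  have hr := sign_eq_neg_one_pow r
  have hmul : sign s * sign t = sign r := by rw [← Perm.sign_mul, h]
  rw [hs, ht, hr, ← pow_add] at hmul
  by_contra hodd
  rw [Nat.not_even_iff_odd] at hodd
  have hE : Odd ((Fintype.card I + orb s + (Fintype.card I + orb t)) + (Fintype.card I + orb r)) := by
    have : (Fintype.card I + orb s + (Fintype.card I + orb t)) + (Fintype.card I + orb r) =
        (Fintype.card I + orb s + orb r + orb t) + 2 * Fintype.card I := by ring
    rw [this]
    exact hodd.add_even (even_two_mul _)
  have h1 : (-1 : ℤˣ) ^ ((Fintype.card I + orb s + (Fintype.card I + orb t))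
      + (Fintype.card I + orb r)) = 1 := by
    rw [pow_add, hmul, ← pow_add, ← two_mul, pow_mul]
    simp
  rw [hE.neg_one_pow] at h1
  exact absurd h1 (by decide)

/-- orbits of an element with `g ^ p = 1`, `p` prime: `p * orb g = |I| + (p - 1) * #Fix`. -/
theorem prime_mul_orb {g : Perm I} {p : ℕ} (hp : p.Prime) (hg : g ^ p = 1) :
    p * orb g = Fintype.card I + (p - 1) * Fintype.card (Function.fixedPoints g) := by
  have hfix := card_fixedPoints g
  have hle := sum_cycleType_le g
  rw [orb_eq]
  by_cases h1 : g = 1
  · subst h1
    simp only [cycleType_one, Multiset.card_zero, zero_add, Multiset.sum_zero, Nat.sub_zero] at *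
    rw [hfix]
    have : 1 ≤ p := hp.one_le
    calc p * Fintype.card I = (1 + (p - 1)) * Fintype.card I := by congr 1; omega
      _ = Fintype.card I + (p - 1) * Fintype.card I := by ring
  · have hord : orderOf g = p := by
      have hdvd := orderOf_dvd_of_pow_eq_one hg
      rcases (Nat.dvd_prime hp).mp hdvd with h | h
      · exact absurd (orderOf_eq_one_iff.mp h) h1
      · exact h
    obtain ⟨n, hn⟩ := cycleType_prime_order (σ := g) (by rw [hord]; exact hp)
    rw [hord] at hn
    rw [hn, Multiset.card_replicate]
    rw [hn, Multiset.sum_replicate, smul_eq_mul] at hfix hle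
    have : 1 ≤ p := hp.one_le
    have e : p * (n + 1 + Fintype.card (Function.fixedPoints g)) =
        (n + 1) * p + (1 + (p - 1)) * Fintype.card (Function.fixedPoints g) := by
      have : 1 + (p - 1) = p := by omega
      rw [this]; ring
    rw [e]
    have : Fintype.card I = (n + 1) * p + Fintype.card (Function.fixedPoints g) := by omega
    rw [this]
    ring

end

end Fermat.Agent.S24
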