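import Fermat.Agent.S24.PermOrbits

set_option autoImplicit false
set_option linter.unusedSectionVars false

/-!
# Scott's lemma for permutation triples

If `a * b * c = 1` in `Perm I` and `⟨a, b⟩` acts transitively on `I`, then
`(|I| - orb a) + (|I| - orb b) + (|I| - orb c) ≥ 2 (|I| - 1)`.
-/

namespace Fermat.Agent.S24

open Equiv Equiv.Perm Module

noncomputable section

variable {I : Type*} [Fintype I] [DecidableEq I]

/-- the permutation operator on functions: `(permOp g f) x = f (g⁻¹ x)`. -/
def permOp (g : Perm I) : (I → ℚ) →ₗ[ℚ] (I → ℚ) := LinearMap.funLeft ℚ ℚ g.symm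

@[simp] lemma permOp_apply (g : Perm I) (f : I → ℚ) (x : I) : permOp g f x = f (g.symm x) := rfl

lemma permOp_mul (g h : Perm I) : permOp (g * h) = permOp g ∘ₗ permOp h := by
  refine LinearMap.ext fun f => funext fun x => ?_
  simp only [permOp_apply, LinearMap.comp_apply]
  rfl

lemma permOp_one : permOp (1 : Perm I) = LinearMap.id := by
  refine LinearMap.ext fun f => funext fun x => ?_
  simp only [permOp_apply, LinearMap.id_apply]
  rfl

lemma permOp_single (g : Perm I) (x : I) :
    permOp g (Pi.single x 1) = Pi.single (g x) 1 := by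
  ext y
  simp only [permOp_apply, Pi.single_apply]
  by_cases h : y = g x
  · subst h
    simp
  · rw [if_neg h, if_neg]
    intro h'
    exact h (by rw [← h']; simp)

/-- `1 - permOp g`. -/
def dOp (g : Perm I) : (I → ℚ) →ₗ[ℚ] (I → ℚ) := LinearMap.id - permOp g

lemma mem_ker_dOp {g : Perm I} {f : I → ℚ} :
    f ∈ LinearMap.ker (dOp g) ↔ ∀ x, f (g x) = f x := by
  rw [LinearMap.mem_ker, dOp, LinearMap.sub_apply, sub_eq_zero, LinearMap.id_apply]
  constructor
  · intro h x
    have := congrFun h (g x)
    simp only [permOp_apply, symm_apply_apply] at this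
    exact this
  · intro h
    ext x
    have := h (g.symm x)
    simp only [apply_symm_apply] at this
    simp only [permOp_apply]
    exact this

lemma sameCycle_of_mem_ker {g : Perm I} {f : I → ℚ} (hf : ∀ x, f (g x) = f x) {x y : I}
    (h : SameCycle g x y) : f x = f y := by
  obtain ⟨i, rfl⟩ := h
  induction i with
  | zero => simp
  | succ n ih =>
    rw [add_comm, zpow_add, zpow_one, Perm.mul_apply, hf]
    exact ih
  | pred n ih =>
    have e : (g ^ (-(n : ℤ))) x = g ((g ^ (-(n : ℤ) - 1)) x) := by
      rw [← Perm.mul_apply, ← zpow_one_add]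
      congr 2
      ring
    rw [ih, e, hf]

/-- the invariant functions of `g` are the functions on the orbit space. -/
def kerEquiv (g : Perm I) :
    LinearMap.ker (dOp g) ≃ₗ[ℚ] (Quotient (SameCycle.setoid g) → ℚ) where
  toFun f := Quotient.lift (s := SameCycle.setoid g) (f : I → ℚ)
    (fun _ _ h => sameCycle_of_mem_ker (mem_ker_dOp.mp f.2) h)
  invFun h := ⟨fun x => h (Quotient.mk _ x), by
    rw [mem_ker_dOp]
    intro x
    congr 1
    apply Quotient.sound
    exact (SameCycle.refl g x).apply_left⟩
  map_add' f₁ f₂ := by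
    ext q
    induction q using Quotient.inductionOn with | _ x => rfl
  map_smul' c f := by
    ext q
    induction q using Quotient.inductionOn with | _ x => rfl
  left_inv f := by
    ext x
    rfl
  right_inv h := by
    ext q
    induction q using Quotient.inductionOn with | _ x => rfl

lemma finrank_ker_dOp (g : Perm I) : finrank ℚ (LinearMap.ker (dOp g)) = orb g := by
  classical
  let _ : Fintype (Quotient (SameCycle.setoid g)) := Fintype.ofFinite _
  rw [(kerEquiv g).finrank_eq, Module.finrank_fintype_fun_eq_card, orb, Nat.card_eq_fintype_card]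

lemma finrank_range_dOp (g : Perm I) :
    finrank ℚ (LinearMap.range (dOp g)) + orb g = Fintype.card I := by
  have := LinearMap.finrank_range_add_finrank_ker (dOp g)
  rw [finrank_ker_dOp, Module.finrank_fintype_fun_eq_card] at this
  exact this

section ScottLemma

variable {a b c : Perm I}

/-- the single basis vector. -/
abbrev eVec (x : I) : I → ℚ := Pi.single x 1

lemma dOp_eVec (g : Perm I) (x : I) : dOp g (eVec x) = eVec x - eVec (g x) := by
  rw [dOp, LinearMap.sub_apply, LinearMap.id_apply, permOp_single]

/-- the map `δ`. -/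
def scottDelta (a b c : Perm I) : (I → ℚ) →ₗ[ℚ]
    (LinearMap.range (dOp a) × LinearMap.range (dOp b) × LinearMap.range (dOp c)) :=
  (dOp a).rangeRestrict.prod ((dOp b).rangeRestrict.prod (dOp c).rangeRestrict)

lemma scottDelta_apply (f : I → ℚ) :
    scottDelta a b c f = (⟨dOp a f, LinearMap.mem_range_self _ _⟩,
      ⟨dOp b f, LinearMap.mem_range_self _ _⟩, ⟨dOp c f, LinearMap.mem_range_self _ _⟩) := rfl

lemma scottDelta_eq_zero_iff (f : I → ℚ) :
    scottDelta a b c f = 0 ↔ dOp a f = 0 ∧ dOp b f = 0 ∧ dOp c f = 0 := by
  rw [scottDelta_apply, Prod.ext_iff, Prod.ext_iff]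
  simp only [Prod.fst_zero, Prod.snd_zero, Subtype.ext_iff, ZeroMemClass.coe_zero]

/-- the map `β`. -/
def scottBeta (a b c : Perm I) :
    (LinearMap.range (dOp a) × LinearMap.range (dOp b) × LinearMap.range (dOp c)) →ₗ[ℚ] (I → ℚ) :=
  (LinearMap.range (dOp a)).subtype.coprod
    ((permOp a ∘ₗ (LinearMap.range (dOp b)).subtype).coprod
      (permOp a ∘ₗ permOp b ∘ₗ (LinearMap.range (dOp c)).subtype))

lemma scottBeta_apply (u : LinearMap.range (dOp a) × LinearMap.range (dOp b) ×
    LinearMap.range (dOp c)) :
    scottBeta a b c u = (u.1 : I → ℚ) + (permOp a (u.2.1 : I → ℚ)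
      + permOp a (permOp b (u.2.2 : I → ℚ))) := by
  simp [scottBeta, LinearMap.coprod_apply]

lemma scottBeta_comp_delta (habc : a * b * c = 1) :
    scottBeta a b c ∘ₗ scottDelta a b c = 0 := by
  refine LinearMap.ext fun f => ?_
  rw [LinearMap.comp_apply, scottBeta_apply, scottDelta_apply]
  simp only [LinearMap.zero_apply]
  have h1 : permOp a (permOp b (permOp c f)) = f := by
    have := permOp_mul (a * b) c
    rw [permOp_mul a b, habc, permOp_one] at this
    have h := congrArg (fun L => L f) this
    simp only [LinearMap.id_apply, LinearMap.comp_apply] at h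
    exact h.symm
  simp only [dOp, LinearMap.sub_apply, LinearMap.id_apply, map_sub, h1]
  abel

variable (htrans : ∀ x y : I, ∃ g ∈ Subgroup.closure ({a, b} : Set (Perm I)), g x = y)

include htrans in
lemma finrank_ker_scottDelta_le : finrank ℚ (LinearMap.ker (scottDelta a b c)) ≤ 1 := by
  have hconst : ∀ f ∈ LinearMap.ker (scottDelta a b c), ∀ x y : I, f x = f y := by
    intro f hf x y
    rw [LinearMap.mem_ker, scottDelta_eq_zero_iff] at hf
    have ha : ∀ z, f (a z) = f z := by
      rw [← mem_ker_dOp, LinearMap.mem_ker]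
      exact hf.1
    have hb : ∀ z, f (b z) = f z := by
      rw [← mem_ker_dOp, LinearMap.mem_ker]
      exact hf.2.1
    have hcl : ∀ g ∈ Subgroup.closure ({a, b} : Set (Perm I)), ∀ z, f (g z) = f z := by
      intro g hg
      induction hg using Subgroup.closure_induction with
      | mem g hg =>
        rcases hg with rfl | rfl
        · exact ha
        · exact hb
      | one => intro z; rfl
      | mul g h _ _ ihg ihh => intro z; rw [Perm.mul_apply, ihg, ihh]
      | inv g _ ih => intro z; rw [← ih (g⁻¹ z)]; simp
    obtain ⟨g, hg, rfl⟩ := htrans x y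
    exact (hcl g hg x).symm
  have hone : (fun _ : I => (1 : ℚ)) ∈ LinearMap.ker (scottDelta a b c) := by
    rw [LinearMap.mem_ker, scottDelta_eq_zero_iff]
    refine ⟨?_, ?_, ?_⟩ <;>
    · rw [← LinearMap.mem_ker, mem_ker_dOp]
      intro x
      rfl
  apply finrank_le_one (⟨_, hone⟩ : LinearMap.ker (scottDelta a b c))
  intro w
  rcases isEmpty_or_nonempty I with hI | ⟨⟨x0⟩⟩
  · refine ⟨0, ?_⟩
    apply Subtype.ext
    funext x
    exact (hI.false x).elim
  · refine ⟨(w : I → ℚ) x0, ?_⟩
    apply Subtype.ext
    funext x
    simp only [SetLike.val_smul, Pi.smul_apply, smul_eq_mul, mul_one]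
    exact hconst w w.2 x0 x

include htrans in
lemma finrank_range_scottBeta_ge :
    Fintype.card I ≤ finrank ℚ (LinearMap.range (scottBeta a b c)) + 1 := by
  set W := LinearMap.range (scottBeta a b c) with hW
  have hda : ∀ x, eVec x - eVec (a x) ∈ W := by
    intro x
    refine ⟨(⟨dOp a (eVec x), LinearMap.mem_range_self _ _⟩, 0, 0), ?_⟩
    rw [scottBeta_apply]
    simp [dOp_eVec]
  have hdb : ∀ x, eVec (a x) - eVec (a (b x)) ∈ W := by
    intro x
    refine ⟨(0, ⟨dOp b (eVec x), LinearMap.mem_range_self _ _⟩, 0), ?_⟩
    rw [scottBeta_apply]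
    simp [dOp_eVec, permOp_single]
  have hgen : ∀ g ∈ Subgroup.closure ({a, b} : Set (Perm I)), ∀ x, eVec (g x) - eVec x ∈ W := by
    intro g hg
    induction hg using Subgroup.closure_induction with
    | mem g hg =>
      rcases hg with rfl | rfl
      · intro x
        have := W.neg_mem (hda x)
        rwa [neg_sub] at this
      · intro x
        have h1 := hda (g x)
        have h2 := W.neg_mem (hdb x)
        have h3 := W.neg_mem (hda x)
        have := W.add_mem (W.add_mem h1 h2) h3
        convert this using 1
        abel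
    | one => intro x; simp
    | mul g h _ _ ihg ihh =>
      intro x
      have := W.add_mem (ihg (h x)) (ihh x)
      convert this using 1
      rw [Perm.mul_apply]
      abel
    | inv g _ ih =>
      intro x
      have := W.neg_mem (ih (g⁻¹ x))
      convert this using 1
      simp
  have hquot : finrank ℚ ((I → ℚ) ⧸ W) ≤ 1 := by
    rcases isEmpty_or_nonempty I with hI | ⟨⟨x0⟩⟩
    · apply finrank_le_one (0 : (I → ℚ) ⧸ W)
      intro w
      obtain ⟨f, rfl⟩ := Submodule.Quotient.mk_surjective W w
      refine ⟨0, ?_⟩
      have : f = 0 := funext fun x => (hI.false x).elim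
      rw [this]
      simp
    · apply finrank_le_one (Submodule.Quotient.mk (eVec x0) : (I → ℚ) ⧸ W)
      intro w
      obtain ⟨f, rfl⟩ := Submodule.Quotient.mk_surjective W w
      refine ⟨∑ x, f x, ?_⟩
      rw [← Submodule.Quotient.mk_smul, Submodule.Quotient.eq]
      have hx : ∀ x, eVec x - eVec x0 ∈ W := by
        intro x
        obtain ⟨g, hg, rfl⟩ := htrans x0 x
        exact hgen g hg x0
      have hf : f = ∑ x, f x • eVec x := by
        conv_lhs => rw [← Finset.univ_sum_single f]
        refine Finset.sum_congr rfl fun x _ => ?_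
        ext y
        simp [Pi.single_apply]
      have h2 : ∑ x, f x • (eVec x - eVec x0) = f - (∑ x, f x) • eVec x0 := by
        simp only [smul_sub, Finset.sum_sub_distrib, Finset.sum_smul]
        rw [← hf]
      have : (∑ x, f x) • eVec x0 - f = - ∑ x, f x • (eVec x - eVec x0) := by
        rw [h2]; abel
      rw [this]
      exact W.neg_mem (W.sum_mem fun x _ => W.smul_mem _ (hx x))
  have hsum := Submodule.finrank_quotient_add_finrank W
  rw [Module.finrank_fintype_fun_eq_card] at hsum
  omega

include htrans in
/-- **Scott's lemma** for a transitive permutation triple with product one. -/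
theorem scott (habc : a * b * c = 1) : orb a + orb b + orb c ≤ Fintype.card I + 2 := by
  have ha := finrank_range_dOp a
  have hb := finrank_range_dOp b
  have hc := finrank_range_dOp c
  have hU : finrank ℚ (LinearMap.range (dOp a) × LinearMap.range (dOp b) ×
      LinearMap.range (dOp c)) = finrank ℚ (LinearMap.range (dOp a)) +
      (finrank ℚ (LinearMap.range (dOp b)) + finrank ℚ (LinearMap.range (dOp c))) := by
    rw [Module.finrank_prod, Module.finrank_prod]
  have hβ := LinearMap.finrank_range_add_finrank_ker (scottBeta a b c)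
  have hδ := LinearMap.finrank_range_add_finrank_ker (scottDelta a b c)
  rw [Module.finrank_fintype_fun_eq_card] at hδ
  have hle : LinearMap.range (scottDelta a b c) ≤ LinearMap.ker (scottBeta a b c) := by
    rintro _ ⟨f, rfl⟩
    rw [LinearMap.mem_ker, ← LinearMap.comp_apply, scottBeta_comp_delta habc,
      LinearMap.zero_apply]
  have hmono := Submodule.finrank_mono hle
  have h1 := finrank_ker_scottDelta_le (c := c) htrans
  have h2 := finrank_range_scottBeta_ge (c := c) htrans
  omega

end ScottLemma

end

end Fermat.Agent.S24
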