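import Mathlib
import Fermat.Agent.S24.PermOrbits
import Fermat.Agent.S24.Scott

set_option autoImplicit false

/-!
# Bridges for the orbit count `orb` and the final numeric identity of Riemann--Hurwitz

* `natCard_eq_orb_of_surjective`: a surjection whose fibres are exactly the cycles of `g`
  counts the orbits of `g` (used to count the places over a point by the cycles of the local
  monodromy permutation).
* `toNat_div_two_eq`: for a transitive permutation triple with product one, the integer
  `d = n - r_a - r_b - r_c` satisfies `0 ≤ d + 2`, `Even (d + 2)`, so the truncated division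
  in the definition of the genus is exact.
* `genus_numeric`: the resulting value in the shape of the classical genus formula.
-/

namespace Fermat.Agent.S24

open Equiv Equiv.Perm

section Bridge

variable {I : Type*} [Fintype I] [DecidableEq I]

omit [Fintype I] [DecidableEq I] in
/-- Any surjection whose fibres are exactly the cycles of `g` counts the orbits of `g`. -/
theorem natCard_eq_orb_of_surjective {X : Type*} (g : Perm I) (f : I → X)
    (hf : Function.Surjective f) (h : ∀ x y, f x = f y ↔ g.SameCycle x y) :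
    Nat.card X = orb g := by
  unfold orb
  symm
  refine Nat.card_congr (Equiv.ofBijective
    (Quotient.lift f (fun x y hxy => (h x y).mpr hxy)) ⟨?_, ?_⟩)
  · intro a b
    induction a using Quotient.inductionOn with | _ x => ?_
    induction b using Quotient.inductionOn with | _ y => ?_
    intro hxy
    exact Quotient.sound ((h x y).mp hxy)
  · intro y
    obtain ⟨x, rfl⟩ := hf y
    exact ⟨Quotient.mk _ x, rfl⟩

omit [Fintype I] [DecidableEq I] in
/-- `SameCycle` is the orbit relation of the cyclic group generated by `g`. -/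
theorem sameCycle_iff_mem_orbit_zpowers (g : Perm I) (x y : I) :
    g.SameCycle x y ↔ y ∈ MulAction.orbit (Subgroup.zpowers g) x := by
  constructor
  · rintro ⟨k, rfl⟩
    exact ⟨⟨g ^ k, k, rfl⟩, rfl⟩
  · rintro ⟨⟨_, k, rfl⟩, rfl⟩
    exact ⟨k, rfl⟩

omit [Fintype I] [DecidableEq I] in
/-- The orbit count is the number of orbits of the cyclic group generated by `g`. -/
theorem orb_eq_natCard_orbitRel_quotient (g : Perm I) :
    orb g = Nat.card (MulAction.orbitRel.Quotient (Subgroup.zpowers g) I) := by
  symm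
  refine natCard_eq_orb_of_surjective g
    (fun x => (Quotient.mk'' x : MulAction.orbitRel.Quotient (Subgroup.zpowers g) I))
    Quotient.mk''_surjective ?_
  intro x y
  rw [Quotient.eq'', MulAction.orbitRel_apply, sameCycle_iff_mem_orbit_zpowers]
  exact ⟨fun hxy => MulAction.mem_orbit_symm.mp hxy, fun hxy => MulAction.mem_orbit_symm.mp hxy⟩

omit [Fintype I] [DecidableEq I] in
/-- A group element acting on a finite set: orbits of its powers are counted by `orb` of the
induced permutation. -/
theorem orb_toPerm_eq_natCard {G : Type*} [Group G] [MulAction G I] (γ : G) :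
    orb (MulAction.toPerm γ : Perm I)
      = Nat.card (MulAction.orbitRel.Quotient (Subgroup.zpowers γ) I) := by
  symm
  refine natCard_eq_orb_of_surjective (MulAction.toPerm γ : Perm I)
    (fun x => (Quotient.mk'' x : MulAction.orbitRel.Quotient (Subgroup.zpowers γ) I))
    Quotient.mk''_surjective ?_
  intro x y
  rw [Quotient.eq'', MulAction.orbitRel_apply]
  have key : ∀ (k : ℤ) (z : I), ((MulAction.toPerm γ : Perm I) ^ k) z = (γ ^ k) • z := by
    intro k z
    have h1 : (MulAction.toPerm γ : Perm I) ^ k = MulAction.toPerm (γ ^ k) :=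
      (map_zpow (MulAction.toPermHom G I) γ k).symm
    rw [h1]
    rfl
  constructor
  · rintro ⟨⟨_, k, rfl⟩, hk⟩
    refine ⟨-k, ?_⟩
    rw [key]
    rw [← hk]
    show (γ ^ (-k)) • ((γ ^ k) • y) = y
    rw [smul_smul, ← zpow_add]
    simp
  · rintro ⟨k, hk⟩
    refine ⟨⟨γ ^ (-k), -k, rfl⟩, ?_⟩
    rw [← hk, key]
    show (γ ^ (-k)) • ((γ ^ k) • x) = x
    rw [smul_smul, ← zpow_add]
    simp

end Bridge

section Numeric

variable {I : Type*} [Fintype I] [DecidableEq I]

/-- Pure arithmetic: if `0 ≤ d + 2` and `d + 2` is even, the truncated division is exact. -/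
theorem toNat_div_two_cast (d : ℤ) (h0 : 0 ≤ d + 2) (hev : Even (d + 2)) :
    (((d + 2).toNat / 2 : ℕ) : ℚ) = ((d : ℚ) + 2) / 2 := by
  obtain ⟨m, hm⟩ := hev
  have hm0 : 0 ≤ m := by omega
  have h3 : (d + 2).toNat = 2 * m.toNat := by
    have : ((d + 2).toNat : ℤ) = ((2 * m.toNat : ℕ) : ℤ) := by
      rw [Int.toNat_of_nonneg h0]
      push_cast
      rw [Int.toNat_of_nonneg hm0]
      omega
    exact_mod_cast this
  rw [h3, Nat.mul_div_cancel_left _ (by norm_num : 0 < 2)]
  have h4 : ((m.toNat : ℕ) : ℚ) = (m : ℚ) := by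
    have : ((m.toNat : ℕ) : ℤ) = m := Int.toNat_of_nonneg hm0
    exact_mod_cast this
  rw [h4]
  have h5 : (d : ℚ) + 2 = (m : ℚ) + m := by exact_mod_cast hm
  rw [h5]
  ring

/-- The shape used in the final assembly: with `d = n - r_a - r_b - r_c` (the degree of a
canonical divisor by Riemann--Hurwitz), `d + 2` is a non-negative even integer, so the truncated
natural-number division in the definition of the genus is exact. -/
theorem toNat_div_two_eq (a b c : Perm I) (h : a * b * c = 1)
    (htrans : ∀ i j : I, ∃ g ∈ Subgroup.closure ({a, b} : Set (Perm I)), g i = j)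
    (d : ℤ) (hd : d = (Fintype.card I : ℤ) - orb a - orb b - orb c) :
    0 ≤ d + 2 ∧ Even (d + 2) ∧ (((d + 2).toNat / 2 : ℕ) : ℚ) = ((d : ℚ) + 2) / 2 := by
  have h1 : orb a + orb b + orb c ≤ Fintype.card I + 2 := scott htrans h
  have h2 : Even (Fintype.card I + orb a + orb (c⁻¹) + orb b) :=
    even_card_add_orb (s := a) (t := b) (r := c⁻¹) (by rw [eq_inv_iff_mul_eq_one]; exact h)
  have hcinv : orb (c⁻¹) = orb c := by
    have e1 := orb_add c
    have e2 := orb_add (c⁻¹)
    rw [cycleType_inv] at e2
    omega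
  rw [hcinv] at h2
  have hnonneg : 0 ≤ d + 2 := by rw [hd]; omega
  have heven : Even (d + 2) := by
    obtain ⟨m, hm⟩ := h2
    refine ⟨(Fintype.card I : ℤ) + 1 - m, ?_⟩
    rw [hd]
    have : ((Fintype.card I + orb a + orb c + orb b : ℕ) : ℤ) = (m + m : ℕ) := by
      rw [hm]
    push_cast at this
    linarith
  exact ⟨hnonneg, heven, toNat_div_two_cast d hnonneg heven⟩

/-- FINAL NUMERIC IDENTITY: the genus in the classical shape
`1 + n/12 - ν₂/4 - ν₃/3 - c∞/2`. -/
theorem genus_numeric (n nu2 nu3 cinf rS rST rT : ℕ)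
    (h2 : 2 * rS = n + nu2) (h3 : 3 * rST = n + 2 * nu3) (hT : rT = cinf)
    (hle : rS + rST + rT ≤ n + 2) (hev : Even (n + rS + rST + rT))
    (d : ℤ) (hd : d = (n : ℤ) - rS - rST - rT) :
    (((d + 2).toNat / 2 : ℕ) : ℚ)
      = 1 + (n : ℚ) / 12 - (nu2 : ℚ) / 4 - (nu3 : ℚ) / 3 - (cinf : ℚ) / 2 := by
  have hnonneg : 0 ≤ d + 2 := by rw [hd]; omega
  have heven : Even (d + 2) := by
    obtain ⟨m, hm⟩ := hev
    refine ⟨(n : ℤ) + 1 - m, ?_⟩
    rw [hd]
    have : ((n + rS + rST + rT : ℕ) : ℤ) = (m + m : ℕ) := by rw [hm]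
    push_cast at this
    linarith
  rw [toNat_div_two_cast d hnonneg heven, hd]
  have h2' : (rS : ℚ) = ((n : ℚ) + nu2) / 2 := by
    have : (2 : ℚ) * rS = n + nu2 := by exact_mod_cast h2
    linarith
  have h3' : (rST : ℚ) = ((n : ℚ) + 2 * nu3) / 3 := by
    have : (3 : ℚ) * rST = n + 2 * nu3 := by exact_mod_cast h3
    linarith
  push_cast
  rw [h2', h3', hT]
  ring

/-- The same, directly for a transitive triple `(σS, σT, σST⁻¹)`-style input: permutations
`a b c` with `a * b * c = 1`, `a ^ 2 = 1` (fixed point count `nu2`), `c ^ 3 = 1` (fixed point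
count `nu3`) and `orb b = cinf`. -/
theorem genus_numeric_of_perm (a b c : Perm I) (h : a * b * c = 1)
    (htrans : ∀ i j : I, ∃ g ∈ Subgroup.closure ({a, b} : Set (Perm I)), g i = j)
    (ha : a ^ 2 = 1) (hc : c ^ 3 = 1) (nu2 nu3 cinf : ℕ)
    (hnu2 : Fintype.card (Function.fixedPoints a) = nu2)
    (hnu3 : Fintype.card (Function.fixedPoints c) = nu3)
    (hb : orb b = cinf)
    (d : ℤ) (hd : d = (Fintype.card I : ℤ) - orb a - orb b - orb c) :
    (((d + 2).toNat / 2 : ℕ) : ℚ)
      = 1 + (Fintype.card I : ℚ) / 12 - (nu2 : ℚ) / 4 - (nu3 : ℚ) / 3 - (cinf : ℚ) / 2 := by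
  have h1 : orb a + orb b + orb c ≤ Fintype.card I + 2 := scott htrans h
  have h2 : Even (Fintype.card I + orb a + orb (c⁻¹) + orb b) :=
    even_card_add_orb (s := a) (t := b) (r := c⁻¹) (by rw [eq_inv_iff_mul_eq_one]; exact h)
  have hcinv : orb (c⁻¹) = orb c := by
    have e1 := orb_add c
    have e2 := orb_add (c⁻¹)
    rw [cycleType_inv] at e2
    omega
  rw [hcinv] at h2
  have pa := prime_mul_orb Nat.prime_two ha
  have pc := prime_mul_orb Nat.prime_three hc
  rw [hnu2] at pa
  rw [hnu3] at pc
  refine genus_numeric (Fintype.card I) nu2 nu3 cinf (orb a) (orb c) (orb b) (by simpa using pa)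
    (by simpa using pc) hb (by omega) ?_ d (by rw [hd]; ring)
  have : Fintype.card I + orb a + orb c + orb b = Fintype.card I + orb a + orb c + orb b := rfl
  exact h2

end Numeric

end Fermat.Agent.S24
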