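import Fermat.Agent.S24.CombCoset
import Fermat.Agent.S24.CombFix
import Fermat.Agent.S24.CombCard
import Fermat.Agent.S24.OrbitBridge

set_option autoImplicit false

/-!
# S24, layer (F): transfer of the counts from `P1 (ZMod N)` to `SL(2, ℤ) ⧸ Γ₀(N)`
-/

namespace Fermat.Agent.S24

open Matrix MatrixGroups

/-- The orbit count is invariant under conjugation by an equivalence. -/
theorem orb_congr {X Y : Type*} (e : X ≃ Y) (a : Equiv.Perm X) (b : Equiv.Perm Y)
    (h : ∀ x, e (a x) = b (e x)) : orb a = orb b := by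
  have hpow : ∀ (k : ℤ) (x : X), e ((a ^ k) x) = (b ^ k) (e x) := by
    have hnat : ∀ (k : ℕ) (x : X), e ((a ^ k) x) = (b ^ k) (e x) := by
      intro k
      induction k with
      | zero => intro x; simp
      | succ k ih =>
        intro x
        rw [pow_succ', pow_succ', Equiv.Perm.mul_apply, Equiv.Perm.mul_apply, h, ih]
    intro k x
    cases k with
    | ofNat k => simpa using hnat k x
    | negSucc k =>
      rw [zpow_negSucc, zpow_negSucc]
      have h1 := hnat (k + 1) ((a ^ (k + 1))⁻¹ x)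
      have h2 : (a ^ (k + 1)) ((a ^ (k + 1))⁻¹ x) = x := by
        rw [← Equiv.Perm.mul_apply, mul_inv_cancel, Equiv.Perm.one_apply]
      rw [h2] at h1
      rw [h1, ← Equiv.Perm.mul_apply, inv_mul_cancel, Equiv.Perm.one_apply]
  symm
  refine natCard_eq_orb_of_surjective a (fun x => (Quotient.mk (Equiv.Perm.SameCycle.setoid b) (e x)))
    ?_ ?_
  · intro q
    induction q using Quotient.inductionOn with
    | _ y => exact ⟨e.symm y, by simp⟩
  · intro x y
    rw [Quotient.eq]
    constructor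
    · rintro ⟨k, hk⟩
      refine ⟨k, e.injective ?_⟩
      rw [hpow, hk]
    · rintro ⟨k, hk⟩
      exact ⟨k, by rw [← hpow, hk]⟩

section Coset

variable (N : ℕ)

theorem finite_quotient_gamma0 [NeZero N] : Finite (SL(2, ℤ) ⧸ CongruenceSubgroup.Gamma0 N) :=
  Finite.of_equiv _ (cosetEquiv N).symm

/-- `[SL(2, ℤ) : Γ₀(N)] = ψ(N)`. -/
theorem card_quotient_gamma0 [NeZero N] :
    Nat.card (SL(2, ℤ) ⧸ CongruenceSubgroup.Gamma0 N) = ModularCurve.dedekindPsi N := by
  rw [Nat.card_congr (cosetEquiv N), card_P1_zmod]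

/-- Fixed points on the coset space and on `P1 (ZMod N)` correspond. -/
noncomputable def fixedByCosetEquiv (g : SL(2, ℤ)) :
    MulAction.fixedBy (SL(2, ℤ) ⧸ CongruenceSubgroup.Gamma0 N) g ≃
      MulAction.fixedBy (P1 (ZMod N)) g where
  toFun q := ⟨cosetEquiv N q.1, by
    have := q.2
    rw [MulAction.mem_fixedBy] at this ⊢
    rw [← cosetEquiv_smul, this]⟩
  invFun x := ⟨(cosetEquiv N).symm x.1, by
    have := x.2
    rw [MulAction.mem_fixedBy] at this ⊢
    apply (cosetEquiv N).injective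
    rw [cosetEquiv_smul, Equiv.apply_symm_apply, this]⟩
  left_inv q := Subtype.ext (by simp)
  right_inv x := Subtype.ext (by simp)

theorem card_fixedBy_quotient_matS :
    Nat.card (MulAction.fixedBy (SL(2, ℤ) ⧸ CongruenceSubgroup.Gamma0 N) matS) =
      ModularCurve.nuTwo N := by
  rw [Nat.card_congr (fixedByCosetEquiv N matS), card_fixedBy_matS]

theorem card_fixedBy_quotient_matST :
    Nat.card (MulAction.fixedBy (SL(2, ℤ) ⧸ CongruenceSubgroup.Gamma0 N) matST) =
      ModularCurve.nuThree N := by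
  rw [Nat.card_congr (fixedByCosetEquiv N matST), card_fixedBy_matST]

theorem card_fixedBy_quotient_S :
    Nat.card (MulAction.fixedBy (SL(2, ℤ) ⧸ CongruenceSubgroup.Gamma0 N) ModularGroup.S) =
      ModularCurve.nuTwo N := by
  rw [← matS_eq, card_fixedBy_quotient_matS]

theorem card_fixedBy_quotient_S_mul_T :
    Nat.card (MulAction.fixedBy (SL(2, ℤ) ⧸ CongruenceSubgroup.Gamma0 N)
      (ModularGroup.S * ModularGroup.T)) = ModularCurve.nuThree N := by
  rw [← matS_eq, ← matT_eq, ← matST_eq, card_fixedBy_quotient_matST]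

/-- Orbit counts on the coset space and on `P1 (ZMod N)` agree. -/
theorem orb_toPerm_quotient (g : SL(2, ℤ)) :
    orb (MulAction.toPerm g : Equiv.Perm (SL(2, ℤ) ⧸ CongruenceSubgroup.Gamma0 N)) =
      orb (MulAction.toPerm g : Equiv.Perm (P1 (ZMod N))) :=
  orb_congr (cosetEquiv N) _ _ (fun q => cosetEquiv_smul N g q)

/-- `-1` acts trivially on `P1 R`. -/
theorem P1.neg_one_smul {R : Type*} [CommRing R] (x : P1 R) : (-1 : SL(2, ℤ)) • x = x := by
  induction x using P1.ind with
  | _ c d h =>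
    obtain ⟨h', e⟩ := P1.int_smul_def (-1 : SL(2, ℤ)) c d h
    rw [e]
    refine (P1.mk_eq_mk _ _).2 ?_
    simp

end Coset

end Fermat.Agent.S24
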