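/-
S24 layer (C3b): pure algebra. If `E = K(s_i)` is generated by finitely many elements, `x` is a
transcendental element of the `K`-algebra `A` generated by the `s_i`, and every element of `A`
satisfies a nonzero bivariate relation `R(x, y) = 0` of `Y`-degree `≤ n`, then `[E : K(x)] ≤ n`.
-/
import Mathlib

namespace Fermat.Agent.S24

open Polynomial IntermediateField
open scoped Polynomial.Bivariate

section

variable {K E : Type*} [Field K] [Field E] [Algebra K E]

lemma aevalAeval_eq_eval₂ (x y : E) (R : K[X][Y]) :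
    aevalAeval x y R = eval₂ ((aeval x : K[X] →ₐ[K] E) : K[X] →+* E) y R := by
  induction R using Polynomial.induction_on' with
  | add p q hp hq => rw [map_add, eval₂_add, hp, hq]
  | monomial n a =>
    rw [← C_mul_X_pow_eq_monomial, map_mul, map_pow, aevalAeval_C, aevalAeval_Y, eval₂_mul,
      eval₂_C, eval₂_pow, eval₂_X]
    rfl

/-- A bivariate relation `R(x,y) = 0` with `x` transcendental gives a polynomial over `K⟮x⟯`. -/
lemma exists_poly_adjoin_of_relation {x y : E} (hxt : Transcendental K x) {n : ℕ} {R : K[X][Y]}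
    (hR : R ≠ 0) (hdeg : R.natDegree ≤ n) (hroot : aevalAeval x y R = 0) :
    ∃ p : K⟮x⟯[X], p ≠ 0 ∧ p.natDegree ≤ n ∧ aeval y p = 0 := by
  let φ : K[X] →+* K⟮x⟯ := ((aeval (AdjoinSimple.gen K x) : K[X] →ₐ[K] K⟮x⟯) : K[X] →+* K⟮x⟯)
  have hφ : ∀ p : K[X], algebraMap K⟮x⟯ E (φ p) = aeval x p := by
    intro p
    change algebraMap K⟮x⟯ E (aeval (AdjoinSimple.gen K x) p) = aeval x p
    rw [← aeval_algebraMap_apply, AdjoinSimple.algebraMap_gen]
  have hφ' : (algebraMap K⟮x⟯ E).comp φ = ((aeval x : K[X] →ₐ[K] E) : K[X] →+* E) :=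
    RingHom.ext hφ
  have hinj : Function.Injective φ := by
    intro p q hpq
    have h2 : aeval x p = aeval x q := by rw [← hφ, ← hφ, hpq]
    exact (transcendental_iff_injective.mp hxt) h2
  refine ⟨R.map φ, (Polynomial.map_ne_zero_iff hinj).mpr hR, natDegree_map_le.trans hdeg, ?_⟩
  rw [aeval_def, eval₂_map, hφ', ← aevalAeval_eq_eval₂, hroot]


/-- Clearing denominators: an element of the `K⟮x⟯`-algebra generated by `S` becomes an element of
the `K`-algebra generated by `S` after multiplication by a nonzero polynomial in `x`. -/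
lemma exists_mul_mem_adjoin {x : E} {S : Set E} (hx : x ∈ Algebra.adjoin K S) {z : E}
    (hz : z ∈ Algebra.adjoin K⟮x⟯ S) :
    ∃ c : K[X], aeval x c ≠ 0 ∧ aeval x c * z ∈ Algebra.adjoin K S := by
  have hA : ∀ c : K[X], aeval x c ∈ Algebra.adjoin K S := by
    intro c
    rw [aeval_eq_sum_range]
    refine Subalgebra.sum_mem _ fun i _ => ?_
    exact Subalgebra.smul_mem _ (Subalgebra.pow_mem _ hx i) _
  induction hz using Algebra.adjoin_induction with
  | mem z hz =>
    exact ⟨1, by simp, by simpa using Algebra.subset_adjoin hz⟩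
  | algebraMap r =>
    obtain ⟨p, q, hpq⟩ := (mem_adjoin_simple_iff K (r : E)).mp r.2
    change ∃ c : K[X], aeval x c ≠ 0 ∧ aeval x c * (r : E) ∈ Algebra.adjoin K S
    by_cases hq : aeval x q = 0
    · refine ⟨1, by simp, ?_⟩
      rw [hpq, hq, div_zero, mul_zero]
      exact Subalgebra.zero_mem _
    · refine ⟨q, hq, ?_⟩
      rw [hpq, mul_div_cancel₀ _ hq]
      exact hA p
  | add z₁ z₂ _ _ h₁ h₂ =>
    obtain ⟨c₁, hc₁, hm₁⟩ := h₁
    obtain ⟨c₂, hc₂, hm₂⟩ := h₂
    refine ⟨c₁ * c₂, by rw [map_mul]; exact mul_ne_zero hc₁ hc₂, ?_⟩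
    have : aeval x (c₁ * c₂) * (z₁ + z₂) =
        aeval x c₂ * (aeval x c₁ * z₁) + aeval x c₁ * (aeval x c₂ * z₂) := by
      rw [map_mul]; ring
    rw [this]
    exact Subalgebra.add_mem _ (Subalgebra.mul_mem _ (hA c₂) hm₁) (Subalgebra.mul_mem _ (hA c₁) hm₂)
  | mul z₁ z₂ _ _ h₁ h₂ =>
    obtain ⟨c₁, hc₁, hm₁⟩ := h₁
    obtain ⟨c₂, hc₂, hm₂⟩ := h₂
    refine ⟨c₁ * c₂, by rw [map_mul]; exact mul_ne_zero hc₁ hc₂, ?_⟩
    have : aeval x (c₁ * c₂) * (z₁ * z₂) = (aeval x c₁ * z₁) * (aeval x c₂ * z₂) := by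
      rw [map_mul]; ring
    rw [this]
    exact Subalgebra.mul_mem _ hm₁ hm₂


/-- **Degree bound**: if every element of the `K`-algebra generated by the (finitely many) field
generators `s i` of `E` satisfies a nonzero relation `R(x,y) = 0` of `Y`-degree `≤ n` with the
transcendental element `x`, then `E` is finite over `K⟮x⟯` of degree `≤ n`. -/
theorem finrank_le_of_forall_exists_relation [CharZero K] {σ : Type*} [Finite σ] (s : σ → E)
    (hs : IntermediateField.adjoin K (Set.range s) = ⊤) (x : E)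
    (hx : x ∈ Algebra.adjoin K (Set.range s)) (hxt : Transcendental K x) (n : ℕ)
    (hdeg : ∀ y ∈ Algebra.adjoin K (Set.range s),
      ∃ R : K[X][Y], R ≠ 0 ∧ R.natDegree ≤ n ∧ aevalAeval x y R = 0) :
    Algebra.IsAlgebraic K⟮x⟯ E ∧ FiniteDimensional K⟮x⟯ E ∧ Module.finrank K⟮x⟯ E ≤ n := by
  set S : Set E := Set.range s with hS
  have hSalg : ∀ y ∈ S, IsAlgebraic K⟮x⟯ y := by
    intro y hy
    obtain ⟨R, hR, hRn, hroot⟩ := hdeg y (Algebra.subset_adjoin hy)
    obtain ⟨p, hp0, -, hp⟩ := exists_poly_adjoin_of_relation hxt hR hRn hroot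
    exact ⟨p, hp0, hp⟩
  have htop : IntermediateField.adjoin K⟮x⟯ S = ⊤ := by
    rw [← restrictScalars_eq_top_iff (K := K), restrictScalars_adjoin, ← top_le_iff, ← hs]
    exact adjoin.mono K _ _ Set.subset_union_right
  have halgtop : Algebra.adjoin K⟮x⟯ S = ⊤ :=
    (adjoin_eq_top_iff_of_isAlgebraic hSalg).mp htop
  have halg : Algebra.IsAlgebraic K⟮x⟯ E := by
    have h1 : Algebra.IsAlgebraic K⟮x⟯ (IntermediateField.adjoin K⟮x⟯ S) :=
      isAlgebraic_adjoin fun y hy => (hSalg y hy).isIntegral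
    refine ⟨fun z => ?_⟩
    have hz : z ∈ IntermediateField.adjoin K⟮x⟯ S := htop ▸ IntermediateField.mem_top
    have := h1.isAlgebraic ⟨z, hz⟩
    exact (IntermediateField.isAlgebraic_iff (S := IntermediateField.adjoin K⟮x⟯ S)).mp this
  have hfin : FiniteDimensional K⟮x⟯ E := by
    have : Finite S := (Set.finite_range s).to_subtype
    have h1 : FiniteDimensional K⟮x⟯ (IntermediateField.adjoin K⟮x⟯ S) :=
      finiteDimensional_adjoin fun y hy => (hSalg y hy).isIntegral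
    rw [htop] at h1
    exact (IntermediateField.topEquiv (F := K⟮x⟯) (E := E)).toLinearEquiv.finiteDimensional
  refine ⟨halg, hfin, ?_⟩
  have : CharZero K⟮x⟯ := charZero_of_injective_algebraMap (algebraMap K K⟮x⟯).injective
  have hsep : Algebra.IsSeparable K⟮x⟯ E := Algebra.IsAlgebraic.isSeparable_of_perfectField
  obtain ⟨α, hα⟩ := Field.exists_primitive_element K⟮x⟯ E
  have hαmem : α ∈ Algebra.adjoin K⟮x⟯ S := halgtop ▸ Algebra.mem_top
  obtain ⟨c, hc0, hcA⟩ := exists_mul_mem_adjoin hx hαmem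
  set β : E := aeval x c * α with hβ
  have hcx : aeval x c ∈ K⟮x⟯ := by
    rw [aeval_eq_sum_range]
    refine sum_mem fun i _ => ?_
    exact IntermediateField.smul_mem _ (pow_mem (mem_adjoin_simple_self K x) i)
  have hβtop : K⟮x⟯⟮β⟯ = ⊤ := by
    rw [← top_le_iff, ← hα, adjoin_simple_le_iff]
    have h1 : (aeval x c)⁻¹ ∈ K⟮x⟯⟮β⟯ :=
      inv_mem (IntermediateField.algebraMap_mem K⟮x⟯⟮β⟯ (⟨aeval x c, hcx⟩ : K⟮x⟯))
    have h2 : α = (aeval x c)⁻¹ * β := by
      rw [hβ, ← mul_assoc, inv_mul_cancel₀ hc0, one_mul]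
    rw [h2]
    exact mul_mem h1 (mem_adjoin_simple_self _ β)
  have hfr := (Field.primitive_element_iff_minpoly_natDegree_eq K⟮x⟯ β).mp hβtop
  rw [← hfr]
  obtain ⟨R, hR, hRn, hroot⟩ := hdeg β hcA
  obtain ⟨p, hp0, hpn, hp⟩ := exists_poly_adjoin_of_relation hxt hR hRn hroot
  exact (Polynomial.natDegree_le_of_dvd (minpoly.dvd K⟮x⟯ β hp) hp0).trans hpn

end

end Fermat.Agent.S24
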