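/-
S24 layer (C3a): descent of bivariate polynomial relations between Laurent series along an extension
of the coefficient field (`L ⊆ M`): if `ι x, ι y ∈ M((q))` satisfy a nonzero relation of `Y`-degree
`≤ n` over `M`, then `x, y ∈ L((q))` satisfy such a relation over `L`.
-/
import Mathlib
import Fermat.Prelude.Def_ModularCurve_LaurentCoeff

namespace Fermat.Agent.S24

open Polynomial ModularCurve
open scoped Polynomial.Bivariate

section Sum

variable {K A : Type*} [CommRing K] [CommRing A] [Algebra K A]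

lemma aevalAeval_monomial_monomial (x y : A) (a b : ℕ) (c : K) :
    aevalAeval x y (monomial b (monomial a c)) = algebraMap K A c * x ^ a * y ^ b := by
  rw [← C_mul_X_pow_eq_monomial, map_mul, map_pow, aevalAeval_C, aevalAeval_Y,
    ← C_mul_X_pow_eq_monomial, map_mul, map_pow, aeval_C, aeval_X]

/-- `R(x,y)` as an explicit double sum. -/
lemma aevalAeval_eq_sum (x y : A) (R : K[X][Y]) (n d : ℕ) (hn : R.natDegree ≤ n)
    (hd : ∀ b, (R.coeff b).natDegree ≤ d) :
    aevalAeval x y R = ∑ b ∈ Finset.range (n + 1), ∑ a ∈ Finset.range (d + 1),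
      algebraMap K A ((R.coeff b).coeff a) * x ^ a * y ^ b := by
  conv_lhs => rw [as_sum_range_C_mul_X_pow' R (Nat.lt_succ_of_le hn)]
  rw [map_sum]
  refine Finset.sum_congr rfl fun b _ => ?_
  rw [map_mul, map_pow, aevalAeval_C, aevalAeval_Y,
    aeval_eq_sum_range' (Nat.lt_succ_of_le (hd b)), Finset.sum_mul]
  refine Finset.sum_congr rfl fun a _ => ?_
  rw [Algebra.smul_def]

end Sum


section Descent

variable {L M : Type*} [Field L] [Field M] (ι : L →+* M)

/-- Over a field, every nonzero vector is sent to `1` by some linear functional (here for `M` as an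
`L`-vector space through `ι`). We package the functional as an additive map. -/
lemma exists_functional (r₀ : M) (h0 : r₀ ≠ 0) :
    ∃ φ : M →+ L, φ r₀ = 1 ∧ ∀ (l : L) (r : M), φ (r * ι l) = l * φ r := by
  let _ : Module L M := Module.compHom M ι
  have hsmul : ∀ (l : L) (r : M), l • r = ι l * r := fun _ _ => rfl
  let f : L →ₗ[L] M := LinearMap.toSpanSingleton L M r₀
  have hf : LinearMap.ker f = ⊥ := by
    rw [LinearMap.ker_eq_bot']
    intro l hl
    have : ι l * r₀ = 0 := hl
    rcases mul_eq_zero.mp this with h | h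
    · exact (map_eq_zero ι).mp h
    · exact absurd h h0
  obtain ⟨g, hg⟩ := LinearMap.exists_leftInverse_of_injective f hf
  refine ⟨g.toAddMonoidHom, ?_, fun l r => ?_⟩
  · have := LinearMap.congr_fun hg 1
    simpa [f] using this
  · have : r * ι l = l • r := by rw [hsmul, mul_comm]
    change g (r * ι l) = l * g r
    rw [this, map_smul, smul_eq_mul]

lemma coeff_algebraMap_mul (c : L) (v : LaurentSeries L) (z : ℤ) :
    (algebraMap L (LaurentSeries L) c * v).coeff z = c * v.coeff z := by
  have : algebraMap L (LaurentSeries L) c = HahnSeries.C c := by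
    rw [HahnSeries.algebraMap_apply']
    simp
  rw [this, HahnSeries.C_mul_eq_smul]
  rfl

/-- **Descent of a bivariate relation** from `M((q))` to `L((q))`. -/
theorem exists_poly_descent (x y : LaurentSeries L) (n : ℕ) (Rc : M[X][Y]) (hRc : Rc ≠ 0)
    (hdeg : Rc.natDegree ≤ n) (hroot : aevalAeval (coeffMap ι x) (coeffMap ι y) Rc = 0) :
    ∃ R : L[X][Y], R ≠ 0 ∧ R.natDegree ≤ n ∧ aevalAeval x y R = 0 := by
  classical
  -- a uniform bound for the `X`-degrees
  set d : ℕ := (Finset.range (n + 1)).sup fun b => (Rc.coeff b).natDegree with hd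
  have hdb : ∀ b, (Rc.coeff b).natDegree ≤ d := by
    intro b
    by_cases hb : b ≤ n
    · exact Finset.le_sup (f := fun b => (Rc.coeff b).natDegree)
        (Finset.mem_range.mpr (Nat.lt_succ_of_le hb))
    · rw [coeff_eq_zero_of_natDegree_lt (lt_of_le_of_lt hdeg (not_le.mp hb))]
      simp
  -- a nonzero coefficient
  obtain ⟨b₀, hb₀⟩ : ∃ b₀, Rc.coeff b₀ ≠ 0 := by
    by_contra hcon
    push Not at hcon
    exact hRc (Polynomial.ext fun b => by simpa using hcon b)
  obtain ⟨a₀, ha₀⟩ : ∃ a₀, (Rc.coeff b₀).coeff a₀ ≠ 0 := by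
    by_contra hcon
    push Not at hcon
    exact hb₀ (Polynomial.ext fun a => by simpa using hcon a)
  obtain ⟨φ, hφ1, hφ⟩ := exists_functional ι _ ha₀
  have hb₀n : b₀ ≤ n := by
    by_contra hb
    exact hb₀ (coeff_eq_zero_of_natDegree_lt (lt_of_le_of_lt hdeg (not_le.mp hb)))
  have ha₀d : a₀ ≤ d := by
    by_contra ha
    exact ha₀ (coeff_eq_zero_of_natDegree_lt (lt_of_le_of_lt (hdb b₀) (not_le.mp ha)))
  -- the descended polynomial
  set R : L[X][Y] := ∑ b ∈ Finset.range (n + 1), ∑ a ∈ Finset.range (d + 1),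
    monomial b (monomial a (φ ((Rc.coeff b).coeff a))) with hR
  have hRcoeff : ∀ b a, b ≤ n → a ≤ d → (R.coeff b).coeff a = φ ((Rc.coeff b).coeff a) := by
    intro b a hb ha
    rw [hR, finsetSum_coeff, finsetSum_coeff]
    rw [Finset.sum_eq_single b]
    · rw [finsetSum_coeff, finsetSum_coeff, Finset.sum_eq_single a]
      · rw [coeff_monomial, if_pos rfl, coeff_monomial, if_pos rfl]
      · intro a' _ ha'
        rw [coeff_monomial, if_pos rfl, coeff_monomial, if_neg ha']
      · intro ha'
        exact absurd (Finset.mem_range.mpr (Nat.lt_succ_of_le ha)) ha'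
    · intro b' _ hb'
      rw [finsetSum_coeff, finsetSum_coeff]
      refine Finset.sum_eq_zero fun a' _ => ?_
      rw [coeff_monomial, if_neg hb', coeff_zero]
    · intro hb'
      exact absurd (Finset.mem_range.mpr (Nat.lt_succ_of_le hb)) hb'
  refine ⟨R, ?_, ?_, ?_⟩
  · intro h0
    have := hRcoeff b₀ a₀ hb₀n ha₀d
    rw [h0, hφ1] at this
    simp at this
  · rw [hR]
    refine natDegree_sum_le_of_forall_le _ _ fun b hb => ?_
    refine natDegree_sum_le_of_forall_le _ _ fun a _ => ?_
    exact (natDegree_monomial_le _).trans (Nat.le_of_lt_succ (Finset.mem_range.mp hb))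
  · -- evaluate
    have hL : aevalAeval x y R = ∑ b ∈ Finset.range (n + 1), ∑ a ∈ Finset.range (d + 1),
        algebraMap L (LaurentSeries L) (φ ((Rc.coeff b).coeff a)) * (x ^ a * y ^ b) := by
      rw [hR, map_sum]
      refine Finset.sum_congr rfl fun b _ => ?_
      rw [map_sum]
      refine Finset.sum_congr rfl fun a _ => ?_
      rw [aevalAeval_monomial_monomial, mul_assoc]
    have hM := aevalAeval_eq_sum (coeffMap ι x) (coeffMap ι y) Rc n d hdeg hdb
    rw [hroot] at hM
    ext z
    rw [hL, HahnSeries.coeff_zero]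
    have hMz := congrArg (fun v : LaurentSeries M => v.coeff z) hM
    simp only [HahnSeries.coeff_zero] at hMz
    -- coefficientwise
    have e1 : (∑ b ∈ Finset.range (n + 1), ∑ a ∈ Finset.range (d + 1),
        algebraMap L (LaurentSeries L) (φ ((Rc.coeff b).coeff a)) * (x ^ a * y ^ b)).coeff z =
        ∑ b ∈ Finset.range (n + 1), ∑ a ∈ Finset.range (d + 1),
          φ ((Rc.coeff b).coeff a) * (x ^ a * y ^ b).coeff z := by
      rw [HahnSeries.coeff_sum]
      refine Finset.sum_congr rfl fun b _ => ?_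
      rw [HahnSeries.coeff_sum]
      refine Finset.sum_congr rfl fun a _ => ?_
      rw [coeff_algebraMap_mul]
    have e2 : (∑ b ∈ Finset.range (n + 1), ∑ a ∈ Finset.range (d + 1),
        algebraMap M (LaurentSeries M) ((Rc.coeff b).coeff a) * coeffMap ι x ^ a *
          coeffMap ι y ^ b).coeff z =
        ∑ b ∈ Finset.range (n + 1), ∑ a ∈ Finset.range (d + 1),
          (Rc.coeff b).coeff a * ι ((x ^ a * y ^ b).coeff z) := by
      rw [HahnSeries.coeff_sum]
      refine Finset.sum_congr rfl fun b _ => ?_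
      rw [HahnSeries.coeff_sum]
      refine Finset.sum_congr rfl fun a _ => ?_
      rw [mul_assoc, coeff_algebraMap_mul, ← map_pow, ← map_pow, ← map_mul, coeffMap_coeff]
    rw [e1]
    rw [e2] at hMz
    calc ∑ b ∈ Finset.range (n + 1), ∑ a ∈ Finset.range (d + 1),
          φ ((Rc.coeff b).coeff a) * (x ^ a * y ^ b).coeff z
        = φ (∑ b ∈ Finset.range (n + 1), ∑ a ∈ Finset.range (d + 1),
          (Rc.coeff b).coeff a * ι ((x ^ a * y ^ b).coeff z)) := by
          rw [map_sum]
          refine Finset.sum_congr rfl fun b _ => ?_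
          rw [map_sum]
          refine Finset.sum_congr rfl fun a _ => ?_
          rw [hφ, mul_comm]
      _ = φ 0 := by rw [← hMz]
      _ = 0 := map_zero φ

end Descent

end Fermat.Agent.S24
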