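/-
S24 layer (C1): an `SL(2,ℤ)`-invariant holomorphic function on the upper half plane with at most
polar growth at `i∞` is a polynomial in `J = E₄³/Δ`.
-/
import Mathlib

namespace Fermat.Agent.S24

open UpperHalfPlane ModularForm MatrixGroups Filter EisensteinSeries CongruenceSubgroup
  SlashInvariantForm ModularFormClass OnePoint
open scoped Manifold Topology

local notation "Δ" => ModularForm.discriminant

/-- Build a level-one modular form from a holomorphic, slash-invariant function bounded at `i∞`. -/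
noncomputable def mkLevelOne (g : ℍ → ℂ) (k : ℤ) (hol : MDiff g)
    (hslash : ∀ γ : SL(2, ℤ), g ∣[k] γ = g) (hb : IsBoundedAtImInfty g) : ModularForm 𝒮ℒ k where
  toFun := g
  slash_action_eq' := fun _ ⟨γ, hγ⟩ ↦ hγ ▸ hslash γ
  holo' := hol
  bdd_at_cusps' {c} hc := by
    rw [Subgroup.IsArithmetic.isCusp_iff_isCusp_SL2Z] at hc
    rw [isBoundedAt_iff_forall_SL2Z hc]
    intro γ _
    rw [hslash γ]
    exact hb

@[simp] lemma mkLevelOne_apply (g : ℍ → ℂ) (k : ℤ) (hol : MDiff g)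
    (hslash : ∀ γ : SL(2, ℤ), g ∣[k] γ = g) (hb : IsBoundedAtImInfty g) (τ : ℍ) :
    mkLevelOne g k hol hslash hb τ = g τ := rfl

/-- Transformation rule of a level-one modular form. -/
lemma levelOne_smul_eq {k : ℤ} (F : ModularForm 𝒮ℒ k) (γ : SL(2, ℤ)) (τ : ℍ) :
    F (γ • τ) = denom γ τ ^ k * F τ := by
  have h := congrFun (F.slash_action_eq' _ ⟨γ, rfl⟩) τ
  have h2 : ((⇑F) ∣[k] γ) τ = F τ := h
  rw [SL_slash_apply] at h2
  have hd : denom γ τ ^ k ≠ 0 := zpow_ne_zero k (denom_ne_zero γ τ)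
  rw [zpow_neg] at h2
  field_simp at h2
  rw [h2]

lemma discriminant_smul_eq (γ : SL(2, ℤ)) (τ : ℍ) :
    Δ (γ • τ) = denom γ τ ^ (12 : ℤ) * Δ τ :=
  levelOne_smul_eq (CuspForm.discriminant : ModularForm 𝒮ℒ 12) γ τ


/-- The function `J = E₄³/Δ` is `SL(2,ℤ)`-invariant. -/
lemma kleinJ_smul_eq (γ : SL(2, ℤ)) (τ : ℍ) :
    E₄ (γ • τ) ^ 3 / Δ (γ • τ) = E₄ τ ^ 3 / Δ τ := by
  rw [discriminant_smul_eq, levelOne_smul_eq E₄ γ τ]
  have hd : denom γ τ ≠ 0 := denom_ne_zero γ τ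
  have hΔ : Δ τ ≠ 0 := discriminant_ne_zero τ
  have h4 : denom γ τ ^ (4 : ℤ) = denom γ τ ^ 4 := zpow_natCast _ 4
  have h12 : denom γ τ ^ (12 : ℤ) = denom γ τ ^ 12 := zpow_natCast _ 12
  rw [h4, h12]
  field_simp

lemma polyJ_mdiff_discriminant : MDiff (Δ : ℍ → ℂ) := CuspForm.discriminant.holo'

lemma polyJ_mdiff_kleinJ : MDiff (fun τ : ℍ => E₄ τ ^ 3 / Δ τ) :=
  (E₄.holo'.pow 3).div polyJ_mdiff_discriminant discriminant_ne_zero

/-- Weight-`4 * (3 n)` slash invariance of `f Δⁿ` for invariant `f`. -/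
lemma slash_mul_discriminant_pow (f : ℍ → ℂ) (hinv : ∀ (γ : SL(2, ℤ)) (τ : ℍ), f (γ • τ) = f τ)
    (n : ℕ) (γ : SL(2, ℤ)) :
    (fun τ => f τ * Δ τ ^ n) ∣[((3 * n : ℕ) : ℤ) * 4] γ = fun τ => f τ * Δ τ ^ n := by
  ext τ
  rw [SL_slash_apply, hinv, discriminant_smul_eq]
  have hd : denom γ τ ≠ 0 := denom_ne_zero γ τ
  rw [mul_pow, ← zpow_natCast (denom γ τ ^ (12 : ℤ)) n, ← zpow_mul]
  have : denom γ τ ^ ((12 : ℤ) * n) * denom γ τ ^ (-(((3 * n : ℕ) : ℤ) * 4)) = 1 := by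
    rw [← zpow_add₀ hd]
    have : (12 : ℤ) * n + -(((3 * n : ℕ) : ℤ) * 4) = 0 := by push_cast; ring
    rw [this, zpow_zero]
  linear_combination (f τ * Δ τ ^ n) * this


/-- The power `E₄^(3n)` as a level one form has constant `q`-coefficient `1`. -/
lemma E₄_pow_coeff_zero (n : ℕ) : (qExpansion 1 (E₄.pow n)).coeff 0 = 1 := by
  rw [ModularForm.qExpansion_pow one_pos one_mem_strictPeriods_SL]
  simp only [PowerSeries.coeff_zero_eq_constantCoeff, map_pow]
  have := E_qExpansion_coeff_zero (k := 4) (by norm_num) ⟨2, rfl⟩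
  rw [PowerSeries.coeff_zero_eq_constantCoeff] at this
  change PowerSeries.constantCoeff (qExpansion 1 E₄) = 1 at this
  rw [this, one_pow]

/-- **(C1)** A holomorphic `SL(2,ℤ)`-invariant function `f` on `ℍ` such that `f Δ^m` is bounded at
`i∞` is a polynomial of degree `≤ m` in `J = E₄³/Δ`. -/
theorem exists_poly_J (m : ℕ) : ∀ (f : ℍ → ℂ), MDiff f →
    (∀ (γ : SL(2, ℤ)) (τ : ℍ), f (γ • τ) = f τ) →
    IsBoundedAtImInfty (fun τ => f τ * Δ τ ^ m) →
    ∃ P : Polynomial ℂ, P.natDegree ≤ m ∧ ∀ τ, f τ = P.eval (E₄ τ ^ 3 / Δ τ) := by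
  induction m with
  | zero =>
    intro f hf hinv hb
    have hb' : IsBoundedAtImInfty f := by simpa using hb
    have hslash : ∀ γ : SL(2, ℤ), f ∣[(0 : ℤ)] γ = f := by
      intro γ; ext τ; rw [SL_slash_apply, hinv]; simp
    obtain ⟨c, hc⟩ := levelOne_weight_zero_const (mkLevelOne f 0 hf hslash hb')
    refine ⟨Polynomial.C c, by simp, fun τ => ?_⟩
    have := congrFun hc τ
    simpa using this
  | succ m ih =>
    intro f hf hinv hb
    set n := m + 1 with hn
    set k : ℤ := ((3 * n : ℕ) : ℤ) * 4 with hk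
    have hol : MDiff (fun τ => f τ * Δ τ ^ n) := hf.mul (polyJ_mdiff_discriminant.pow n)
    let G : ModularForm 𝒮ℒ k :=
      mkLevelOne (fun τ => f τ * Δ τ ^ n) k hol (slash_mul_discriminant_pow f hinv n) hb
    let E : ModularForm 𝒮ℒ k := E₄.pow (3 * n)
    have hE : (qExpansion 1 E).coeff 0 = 1 := E₄_pow_coeff_zero (3 * n)
    set c : ℂ := (qExpansion 1 G).coeff 0 with hc
    obtain ⟨g, hg⟩ := sub_smul_isCuspForm G E hE
    have hgτ : ∀ τ, g τ = f τ * Δ τ ^ n - c * E₄ τ ^ (3 * n) := by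
      intro τ
      have h1 := DFunLike.congr_fun hg τ
      have h2 : (E₄.pow (3 * n)) τ = E₄ τ ^ (3 * n) := by
        rw [ModularForm.coe_pow, Pi.pow_apply]
      have h3 : g τ = G τ - c * E τ := h1
      rw [h3]
      change f τ * Δ τ ^ n - c * (E₄.pow (3 * n)) τ = _
      rw [h2]
    let H : ModularForm 𝒮ℒ (k - 12) := CuspForm.discriminantEquiv g
    have hH : IsBoundedAtImInfty (H : ℍ → ℂ) := ModularFormClass.bdd_at_infty H
    -- the new function
    let f' : ℍ → ℂ := fun τ => f τ - c * (E₄ τ ^ 3 / Δ τ) ^ n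
    have hf' : MDiff f' := hf.sub ((polyJ_mdiff_kleinJ.pow n).const_smul c)
    have hinv' : ∀ (γ : SL(2, ℤ)) (τ : ℍ), f' (γ • τ) = f' τ := by
      intro γ τ
      simp only [f']
      rw [hinv, kleinJ_smul_eq]
    have hb' : IsBoundedAtImInfty (fun τ => f' τ * Δ τ ^ m) := by
      have : (fun τ => f' τ * Δ τ ^ m) = (H : ℍ → ℂ) := by
        ext τ
        have hΔ : Δ τ ≠ 0 := discriminant_ne_zero τ
        change _ = g τ / Δ τ
        rw [hgτ, eq_div_iff hΔ]
        simp only [f', hn, div_pow]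
        have hΔn : Δ τ ^ (m + 1) ≠ 0 := pow_ne_zero _ hΔ
        field_simp
        ring
      rw [this]; exact hH
    obtain ⟨P', hdeg, hP'⟩ := ih f' hf' hinv' hb'
    refine ⟨P' + Polynomial.C c * Polynomial.X ^ n, ?_, fun τ => ?_⟩
    · refine (Polynomial.natDegree_add_le _ _).trans (max_le (hdeg.trans (Nat.le_succ m)) ?_)
      exact Polynomial.natDegree_C_mul_X_pow_le c n
    · have := hP' τ
      simp only [f'] at this
      simp only [Polynomial.eval_add, Polynomial.eval_mul, Polynomial.eval_C, Polynomial.eval_pow,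
        Polynomial.eval_X]
      rw [← this]; ring

end Fermat.Agent.S24
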