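/-
S24 layer (C2): for a finite index subgroup `H ≤ SL(2,ℤ)` and a holomorphic `H`-invariant function
`h` on the upper half plane all of whose `SL(2,ℤ)`-translates have at most polar growth at `i∞`,
the "characteristic polynomial" `∏_{q ∈ SL(2,ℤ)/H} (Y - h ∘ q⁻¹)` has coefficients in `ℂ[J]`.
-/
import Fermat.Agent.S24.PolyInJ

namespace Fermat.Agent.S24

open UpperHalfPlane ModularForm MatrixGroups Filter EisensteinSeries
open scoped Manifold Topology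

local notation "Δ" => ModularForm.discriminant

/-- `f` has at most polar growth at `i∞`: `f Δ^m` is bounded at `i∞` for some `m`. -/
def PolarAtInfty (f : ℍ → ℂ) : Prop :=
  ∃ m : ℕ, IsBoundedAtImInfty (f * (Δ : ℍ → ℂ) ^ m)

lemma mem_bddSubalgebra_iff (f : ℍ → ℂ) :
    f ∈ boundedAtImInftySubalgebra ℂ ↔ IsBoundedAtImInfty f := Iff.rfl

lemma discriminant_mem_bddSubalgebra : (Δ : ℍ → ℂ) ∈ boundedAtImInftySubalgebra ℂ :=
  discriminant_isZeroAtImInfty.isBoundedAtImInfty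

lemma PolarAtInfty.of_bounded {f : ℍ → ℂ} (hf : IsBoundedAtImInfty f) : PolarAtInfty f :=
  ⟨0, by simpa using hf⟩

lemma PolarAtInfty.const (c : ℂ) : PolarAtInfty (fun _ => c) :=
  PolarAtInfty.of_bounded (Filter.const_boundedAtFilter _ c)

lemma PolarAtInfty.add {f g : ℍ → ℂ} (hf : PolarAtInfty f) (hg : PolarAtInfty g) :
    PolarAtInfty (f + g) := by
  obtain ⟨a, ha⟩ := hf
  obtain ⟨b, hb⟩ := hg
  refine ⟨a + b, ?_⟩
  rw [← mem_bddSubalgebra_iff] at ha hb ⊢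
  have h1 := mul_mem ha (pow_mem discriminant_mem_bddSubalgebra b)
  have h2 := mul_mem hb (pow_mem discriminant_mem_bddSubalgebra a)
  have := add_mem h1 h2
  convert this using 1
  rw [pow_add]; ring

lemma PolarAtInfty.mul {f g : ℍ → ℂ} (hf : PolarAtInfty f) (hg : PolarAtInfty g) :
    PolarAtInfty (f * g) := by
  obtain ⟨a, ha⟩ := hf
  obtain ⟨b, hb⟩ := hg
  refine ⟨a + b, ?_⟩
  rw [← mem_bddSubalgebra_iff] at ha hb ⊢
  have := mul_mem ha hb
  convert this using 1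
  rw [pow_add]; ring

/-- Holomorphic functions on `ℍ` with at most polar growth at `i∞`, as a subalgebra. -/
def polarSubalgebra : Subalgebra ℂ (ℍ → ℂ) where
  carrier := {f | MDiff f ∧ PolarAtInfty f}
  mul_mem' := fun ⟨h1, h2⟩ ⟨h3, h4⟩ => ⟨h1.mul h3, h2.mul h4⟩
  add_mem' := fun ⟨h1, h2⟩ ⟨h3, h4⟩ => ⟨h1.add h3, h2.add h4⟩
  algebraMap_mem' := fun c => ⟨mdifferentiable_const, PolarAtInfty.const c⟩

lemma mem_polarSubalgebra_iff (f : ℍ → ℂ) :
    f ∈ polarSubalgebra ↔ MDiff f ∧ PolarAtInfty f := Iff.rfl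


section Norm

variable (H : Subgroup SL(2, ℤ))

/-- The conjugate `τ ↦ h (g⁻¹ τ)` of `h` along the coset `q = gH`. -/
noncomputable def cosetConj (h : ℍ → ℂ) (q : SL(2, ℤ) ⧸ H) : ℍ → ℂ :=
  fun τ => h ((Quotient.out q)⁻¹ • τ)

variable {H}

lemma cosetConj_mk {h : ℍ → ℂ} (hinv : ∀ a ∈ H, ∀ τ, h (a • τ) = h τ) (g : SL(2, ℤ)) (τ : ℍ) :
    cosetConj H h (g : SL(2, ℤ) ⧸ H) τ = h (g⁻¹ • τ) := by
  unfold cosetConj
  set g' : SL(2, ℤ) := Quotient.out (g : SL(2, ℤ) ⧸ H) with hg'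
  have h1 : ((g' : SL(2, ℤ)) : SL(2, ℤ) ⧸ H) = (g : SL(2, ℤ) ⧸ H) := QuotientGroup.out_eq' _
  have h2 : g'⁻¹ * g ∈ H := QuotientGroup.eq.mp h1
  have h3 : g⁻¹ = (g'⁻¹ * g)⁻¹ * g'⁻¹ := by group
  rw [h3, mul_smul, hinv _ (H.inv_mem h2)]

lemma cosetConj_smul {h : ℍ → ℂ} (hinv : ∀ a ∈ H, ∀ τ, h (a • τ) = h τ) (σ : SL(2, ℤ))
    (q : SL(2, ℤ) ⧸ H) (τ : ℍ) :
    cosetConj H h q (σ • τ) = cosetConj H h (σ⁻¹ • q) τ := by
  induction q using QuotientGroup.induction_on with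
  | H g =>
    have : σ⁻¹ • (g : SL(2, ℤ) ⧸ H) = ((σ⁻¹ * g : SL(2, ℤ)) : SL(2, ℤ) ⧸ H) := rfl
    rw [this, cosetConj_mk hinv, cosetConj_mk hinv, mul_inv_rev, inv_inv, mul_smul]

variable [Fintype (SL(2, ℤ) ⧸ H)]

variable (H) in
/-- The characteristic polynomial `∏_q (Y - h_q)` of `h` over `SL(2,ℤ)/H`. -/
noncomputable def normPoly (h : ℍ → ℂ) : Polynomial (ℍ → ℂ) :=
  ∏ q : SL(2, ℤ) ⧸ H, (Polynomial.X - Polynomial.C (cosetConj H h q))

lemma normPoly_monic (h : ℍ → ℂ) : (normPoly H h).Monic :=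
  Polynomial.monic_prod_of_monic _ _ fun _ _ => Polynomial.monic_X_sub_C _

lemma normPoly_natDegree (h : ℍ → ℂ) :
    (normPoly H h).natDegree = Fintype.card (SL(2, ℤ) ⧸ H) := by
  unfold normPoly
  rw [Polynomial.natDegree_prod_of_monic _ _ fun q _ => Polynomial.monic_X_sub_C _]
  simp

lemma normPoly_map_eval (h : ℍ → ℂ) (τ : ℍ) :
    (normPoly H h).map (Pi.evalRingHom (fun _ : ℍ => ℂ) τ) =
      ∏ q : SL(2, ℤ) ⧸ H, (Polynomial.X - Polynomial.C (cosetConj H h q τ)) := by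
  unfold normPoly
  rw [Polynomial.map_prod]
  refine Finset.prod_congr rfl fun q _ => ?_
  rw [Polynomial.map_sub, Polynomial.map_X, Polynomial.map_C]
  rfl

lemma normPoly_map_eval_smul {h : ℍ → ℂ} (hinv : ∀ a ∈ H, ∀ τ, h (a • τ) = h τ) (σ : SL(2, ℤ))
    (τ : ℍ) :
    (normPoly H h).map (Pi.evalRingHom (fun _ : ℍ => ℂ) (σ • τ)) =
      (normPoly H h).map (Pi.evalRingHom (fun _ : ℍ => ℂ) τ) := by
  rw [normPoly_map_eval, normPoly_map_eval]
  refine Fintype.prod_equiv (MulAction.toPerm σ⁻¹) _ _ fun q => ?_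
  rw [cosetConj_smul hinv]
  rfl

lemma normPoly_coeff_smul {h : ℍ → ℂ} (hinv : ∀ a ∈ H, ∀ τ, h (a • τ) = h τ) (k : ℕ)
    (σ : SL(2, ℤ)) (τ : ℍ) :
    (normPoly H h).coeff k (σ • τ) = (normPoly H h).coeff k τ := by
  have := congrArg (fun p => Polynomial.coeff p k) (normPoly_map_eval_smul hinv σ τ)
  simpa [Polynomial.coeff_map] using this

lemma normPoly_coeff_mem {h : ℍ → ℂ} (hmem : ∀ q, cosetConj H h q ∈ polarSubalgebra) (k : ℕ) :
    (normPoly H h).coeff k ∈ polarSubalgebra := by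
  have : normPoly H h = Polynomial.map (polarSubalgebra.val : polarSubalgebra →+* (ℍ → ℂ))
      (∏ q : SL(2, ℤ) ⧸ H, (Polynomial.X - Polynomial.C ⟨cosetConj H h q, hmem q⟩)) := by
    unfold normPoly
    rw [Polynomial.map_prod]
    refine Finset.prod_congr rfl fun q _ => ?_
    rw [Polynomial.map_sub, Polynomial.map_X, Polynomial.map_C]
    rfl
  rw [this, Polynomial.coeff_map]
  exact Subtype.property _

lemma normPoly_eval_self {h : ℍ → ℂ} (hinv : ∀ a ∈ H, ∀ τ, h (a • τ) = h τ) (τ : ℍ) :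
    ((normPoly H h).map (Pi.evalRingHom (fun _ : ℍ => ℂ) τ)).eval (h τ) = 0 := by
  rw [normPoly_map_eval, Polynomial.eval_prod]
  refine Finset.prod_eq_zero (Finset.mem_univ ((1 : SL(2, ℤ)) : SL(2, ℤ) ⧸ H)) ?_
  rw [cosetConj_mk hinv]
  simp

/-- The ring hom `P ↦ P(J)` from `ℂ[X]` to functions on `ℍ`. -/
noncomputable def evalJHom : Polynomial ℂ →+* (ℍ → ℂ) :=
  RingHom.pi fun τ => Polynomial.evalRingHom (E₄ τ ^ 3 / Δ τ)

lemma evalJHom_apply (P : Polynomial ℂ) (τ : ℍ) : evalJHom P τ = P.eval (E₄ τ ^ 3 / Δ τ) := rfl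

/-- **(C2)** The characteristic polynomial of `h` has coefficients in `ℂ[J]`. -/
theorem exists_monic_poly_J {h : ℍ → ℂ} (hhol : MDiff h)
    (hinv : ∀ a ∈ H, ∀ τ, h (a • τ) = h τ)
    (hpolar : ∀ g : SL(2, ℤ), PolarAtInfty (fun τ => h (g • τ))) :
    ∃ R : Polynomial (Polynomial ℂ), R.Monic ∧ R.natDegree = Fintype.card (SL(2, ℤ) ⧸ H) ∧
      ∀ τ, (R.map (Polynomial.evalRingHom (E₄ τ ^ 3 / Δ τ))).eval (h τ) = 0 := by
  have hmem : ∀ q, cosetConj H h q ∈ polarSubalgebra := by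
    intro q
    refine ⟨?_, hpolar _⟩
    exact hhol.comp (mdifferentiable_smul (g := Matrix.SpecialLinearGroup.mapGL ℝ (Quotient.out q)⁻¹)
      (by simp))
  have hlift : normPoly H h ∈ Polynomial.lifts evalJHom := by
    rw [Polynomial.lifts_iff_coeff_lifts]
    intro k
    obtain ⟨hk1, m, hk2⟩ := normPoly_coeff_mem hmem k
    obtain ⟨P, -, hP⟩ := exists_poly_J m _ hk1 (normPoly_coeff_smul hinv k) hk2
    exact ⟨P, funext fun τ => (hP τ).symm⟩
  obtain ⟨R, hR, hdeg, hmonic⟩ :=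
    Polynomial.lifts_and_natDegree_eq_and_monic hlift (normPoly_monic h)
  refine ⟨R, hmonic, hdeg.trans (normPoly_natDegree h), fun τ => ?_⟩
  have : R.map (Polynomial.evalRingHom (E₄ τ ^ 3 / Δ τ)) =
      (normPoly H h).map (Pi.evalRingHom (fun _ : ℍ => ℂ) τ) := by
    rw [← hR, Polynomial.map_map]
    rfl
  rw [this]
  exact normPoly_eval_self hinv τ

end Norm

end Fermat.Agent.S24
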