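import Mathlib

set_option autoImplicit false

/-!
# S24, layer (B0): Ramanujan's identities for `E₄`, `E₆`, `Δ`

`D = (2πi)⁻¹ d/dτ`.  We prove `D E₄ = (E₂E₄ - E₆)/3`, `D E₆ = (E₂E₆ - E₄²)/2`, `D Δ = E₂ Δ`,
using the slash-equivariance of the Serre derivative (Mathlib), a Cauchy estimate at `i∞`, and
the vanishing of level one cusp forms of weight `< 12`.
-/

namespace Fermat.Agent.S24

open UpperHalfPlane hiding I
open Complex Real Filter Topology Function
open scoped Manifold MatrixGroups ModularForm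
open ModularForm EisensteinSeries Derivative

local notation "Δ" => ModularForm.discriminant

/-- Cauchy estimate with radius one for `D F`. -/
theorem norm_D_le {F : ℍ → ℂ} (hF : MDiff F) {A M : ℝ} (hA : 0 < A)
    (hM : ∀ z : ℍ, A ≤ z.im → ‖F z‖ ≤ M) (z : ℍ) (hz : A + 1 ≤ z.im) :
    ‖D F z‖ ≤ (2 * π)⁻¹ * M := by
  have hd : DifferentiableOn ℂ (F ∘ ofComplex) {w : ℂ | 0 < w.im} :=
    UpperHalfPlane.mdifferentiable_iff.mp hF
  have hsub : Metric.closedBall (z : ℂ) 1 ⊆ {w : ℂ | A ≤ w.im} := by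
    intro w hw
    have h1 : |(w - z).im| ≤ ‖w - z‖ := Complex.abs_im_le_norm _
    have h2 : ‖w - z‖ ≤ 1 := by simpa [dist_eq_norm] using hw
    have h3 := abs_le.mp (h1.trans h2)
    simp only [Complex.sub_im] at h3
    have : (z : ℂ).im = z.im := rfl
    show A ≤ w.im
    linarith [h3.1]
  have hsub' : Metric.closedBall (z : ℂ) 1 ⊆ {w : ℂ | 0 < w.im} := fun w hw =>
    lt_of_lt_of_le hA (hsub hw)
  have hdc : DiffContOnCl ℂ (F ∘ ofComplex) (Metric.ball (z : ℂ) 1) := by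
    refine DifferentiableOn.diffContOnCl ?_
    rw [closure_ball _ one_ne_zero]
    exact hd.mono hsub'
  have hC : ∀ w ∈ Metric.sphere (z : ℂ) 1, ‖(F ∘ ofComplex) w‖ ≤ M := by
    intro w hw
    have hw' := hsub (Metric.sphere_subset_closedBall hw)
    have hpos : 0 < w.im := lt_of_lt_of_le hA hw'
    rw [Function.comp_apply, ofComplex_apply_of_im_pos hpos]
    exact hM _ hw'
  have := Complex.norm_deriv_le_of_forall_mem_sphere_norm_le one_pos hdc hC
  rw [normalizedDerivOfComplex, norm_mul, norm_inv]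
  have h2 : ‖(2 * π * I : ℂ)‖ = 2 * π := by
    simp [abs_of_pos Real.pi_pos]
  rw [h2]
  have hpos : 0 ≤ (2 * π)⁻¹ := by positivity
  simpa using mul_le_mul_of_nonneg_left this hpos

theorem isBoundedAtImInfty_D {F : ℍ → ℂ} (hF : MDiff F) (hb : IsBoundedAtImInfty F) :
    IsBoundedAtImInfty (D F) := by
  rw [UpperHalfPlane.isBoundedAtImInfty_iff] at hb ⊢
  obtain ⟨M, A, h⟩ := hb
  refine ⟨(2 * π)⁻¹ * M, max A 1 + 1, fun z hz => ?_⟩
  refine norm_D_le hF (A := max A 1) (lt_of_lt_of_le one_pos (le_max_right _ _))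
    (fun w hw => h w ((le_max_left _ _).trans hw)) z hz

theorem isZeroAtImInfty_D {F : ℍ → ℂ} (hF : MDiff F) (hb : IsZeroAtImInfty F) :
    IsZeroAtImInfty (D F) := by
  rw [UpperHalfPlane.isZeroAtImInfty_iff] at hb ⊢
  intro ε hε
  obtain ⟨A, h⟩ := hb (2 * π * ε) (by positivity)
  refine ⟨max A 1 + 1, fun z hz => ?_⟩
  have := norm_D_le hF (A := max A 1) (lt_of_lt_of_le one_pos (le_max_right _ _))
    (fun w hw => h w ((le_max_left _ _).trans hw)) z hz
  have h2 : (2 * π)⁻¹ * (2 * π * ε) = ε := by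
    field_simp
  rwa [h2] at this

theorem periodic_E2 : Periodic (E2 ∘ ofComplex) (1 : ℝ) := by
  intro w
  by_cases hw : 0 < im w
  · have hw1 : 0 < im (w + (1 : ℝ)) := by simpa using hw
    simp only [comp_apply]
    rw [ofComplex_apply_of_im_pos hw1, ofComplex_apply_of_im_pos hw, E2_eq_tsum_cexp,
      E2_eq_tsum_cexp]
    congr 2
    refine tsum_congr fun n => ?_
    congr 2
    rw [coe_mk, coe_mk, mul_add, Complex.exp_add]
    simp
  · have hw' : im w ≤ 0 := not_lt.mp hw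
    have : im (w + (1 : ℝ)) ≤ 0 := by simpa using hw'
    simp only [comp_apply]
    rw [ofComplex_apply_of_im_nonpos this, ofComplex_apply_of_im_nonpos hw']

theorem tendsto_E2 : Tendsto E2 atImInfty (𝓝 1) := by
  have han := analyticAt_cuspFunction_zero one_pos periodic_E2 E2_mdifferentiable
    isBoundedAtImInfty_E2
  have h2 : ∀ τ : ℍ, HasSum (fun m : ℕ ↦ (if m = 0 then 1 else
      -24 * ArithmeticFunction.sigma 1 m : ℂ) • Periodic.qParam 1 τ ^ m) (E2 τ) := fun τ => by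
    simpa only [Function.Periodic.qParam, ofReal_one, div_one] using hasSum_qExpansion_E2 (z := τ)
  have h3 := (hasFPowerSeriesOnBall_cuspFunction one_pos han h2).hasFPowerSeriesAt.coeff_zero 1
  have h4 : cuspFunction 1 E2 0 = 1 := by
    rw [← h3]
    simp [FormalMultilinearSeries.ofScalars]
  have : (cuspFunction 1 E2 ∘ fun τ : ℍ ↦ Periodic.qParam 1 τ : ℍ → ℂ) = E2 := by
    funext τ
    simpa using eq_cuspFunction τ one_ne_zero periodic_E2
  have h5 := han.continuousAt.tendsto.comp (qParam_tendsto_atImInfty one_pos)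
  rw [h4] at h5
  simpa [this] using h5

theorem tendsto_modularForm_levelOne {k : ℤ} (f : ModularForm 𝒮ℒ k) :
    Tendsto f atImInfty (𝓝 ((qExpansion 1 f).coeff 0)) := by
  have hper := SlashInvariantFormClass.periodic_comp_ofComplex f one_mem_strictPeriods_SL
  have han := ModularFormClass.analyticAt_cuspFunction_zero f one_pos one_mem_strictPeriods_SL
  have h1 : (qExpansion 1 f).coeff 0 = cuspFunction 1 f 0 := by
    simp [qExpansion_coeff]
  rw [h1]
  have : (cuspFunction 1 f ∘ fun τ : ℍ ↦ Periodic.qParam 1 τ : ℍ → ℂ) = f := by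
    funext τ
    simpa using eq_cuspFunction τ one_ne_zero hper
  have h5 := han.continuousAt.tendsto.comp (qParam_tendsto_atImInfty one_pos)
  simpa [this] using h5

theorem tendsto_E {k : ℕ} (hk : 3 ≤ k) (hk2 : Even k) : Tendsto (E hk) atImInfty (𝓝 1) := by
  have := tendsto_modularForm_levelOne (E hk)
  rwa [E_qExpansion_coeff_zero hk hk2] at this

/-- A holomorphic level-one slash-invariant function of weight `< 12` vanishing at `i∞` is zero. -/
theorem eq_zero_of_weight_lt_twelve {k : ℤ} (hk : k < 12) {F : ℍ → ℂ} (hF : MDiff F)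
    (hinv : ∀ γ : SL(2, ℤ), F ∣[k] γ = F) (h0 : IsZeroAtImInfty F) : F = 0 := by
  let f : CuspForm 𝒮ℒ k :=
    { toFun := F
      slash_action_eq' := fun _ ⟨γ, hγ⟩ => hγ ▸ hinv γ
      holo' := hF
      zero_at_cusps' := fun {c} hc => by
        rw [OnePoint.isZeroAt_iff_forall_SL2Z hc]
        intro γ _
        rw [hinv γ]
        exact h0 }
  have h1 := CuspForm.rank_eq_zero_of_weight_lt_twelve hk
  have h2 : f = 0 := (rank_zero_iff_forall_zero.mp h1) f
  have h3 : (f : ℍ → ℂ) = 0 := by rw [h2]; rfl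
  exact h3

theorem isZeroAtImInfty_D_of_tendsto {F : ℍ → ℂ} (hF : MDiff F) {c : ℂ}
    (h : Tendsto F atImInfty (𝓝 c)) : IsZeroAtImInfty (D F) := by
  have h1 : D F = D (F - fun _ => c) := by
    rw [normalizedDerivOfComplex_sub F _ hF mdifferentiable_const, normalizedDerivOfComplex_const,
      sub_zero]
  rw [h1]
  refine isZeroAtImInfty_D (hF.sub mdifferentiable_const) ?_
  have : Tendsto (F - fun _ => c) atImInfty (𝓝 (c - c)) := h.sub tendsto_const_nhds
  rw [sub_self] at this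
  exact this

theorem serreDerivative_eq_of_tendsto {k : ℤ} (hk : k + 2 < 12) {f g : ℍ → ℂ} (hf : MDiff f)
    (hg : MDiff g) (hfinv : ∀ γ : SL(2, ℤ), f ∣[k] γ = f)
    (hginv : ∀ γ : SL(2, ℤ), g ∣[k + 2] γ = g) {a : ℂ}
    (hfa : Tendsto f atImInfty (𝓝 a)) (hga : Tendsto g atImInfty (𝓝 (-(k * 12⁻¹ * a)))) :
    serreDerivative k f = g := by
  have hs : MDiff (serreDerivative k f) := serreDerivative_mdifferentiable k hf
  have key : serreDerivative k f - g = 0 := by
    refine eq_zero_of_weight_lt_twelve hk (hs.sub hg) (fun γ => ?_) ?_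
    · rw [sub_eq_add_neg, SlashAction.add_slash, SlashAction.neg_slash, hginv γ,
        serreDerivative_slash_invariant hf (hfinv γ)]
    · have h1 : Tendsto (D f) atImInfty (𝓝 0) := isZeroAtImInfty_D_of_tendsto hf hfa
      have h2 : Tendsto (fun z => D f z - k * 12⁻¹ * E2 z * f z - g z) atImInfty
          (𝓝 (0 - k * 12⁻¹ * 1 * a - (-(k * 12⁻¹ * a)))) :=
        (h1.sub ((tendsto_const_nhds.mul tendsto_E2).mul hfa)).sub hga
      have h3 : (0 - (k : ℂ) * 12⁻¹ * 1 * a - (-(k * 12⁻¹ * a))) = 0 := by ring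
      rw [h3] at h2
      exact h2
  exact sub_eq_zero.mp key

theorem slash_E (k : ℕ) (hk : 3 ≤ k) (γ : SL(2, ℤ)) : (E hk : ℍ → ℂ) ∣[(k : ℤ)] γ = E hk :=
  (E hk).slash_action_eq' _ ⟨γ, rfl⟩

theorem ramanujan_E4 : D E₄ = (3⁻¹ : ℂ) • (E2 * E₄ - E₆) := by
  have h := serreDerivative_eq_of_tendsto (k := 4) (f := E₄) (g := (-(3⁻¹ : ℂ)) • ⇑E₆) (a := 1)
    (by norm_num) E₄.holo' (E₆.holo'.const_smul _) (slash_E 4 (by norm_num))
    (fun γ => by
      rw [ModularForm.SL_smul_slash]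
      congr 1
      exact slash_E 6 (by norm_num) γ)
    (tendsto_E (by norm_num) ⟨2, rfl⟩)
    (by
      have := (tendsto_E (k := 6) (by norm_num) ⟨3, rfl⟩).const_smul (-(3⁻¹ : ℂ))
      convert this using 2
      simp
      norm_num)
  ext z
  have hz := congrFun h z
  simp only [serreDerivative_apply, Pi.smul_apply, smul_eq_mul, Pi.sub_apply, Pi.mul_apply] at hz ⊢
  push_cast at hz
  linear_combination hz

theorem ramanujan_E6 : D E₆ = (2⁻¹ : ℂ) • (E2 * E₆ - E₄ * E₄) := by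
  have h := serreDerivative_eq_of_tendsto (k := 6) (f := E₆) (g := (-(2⁻¹ : ℂ)) • (⇑E₄ * ⇑E₄))
    (a := 1) (by norm_num) E₆.holo' ((E₄.holo'.mul E₄.holo').const_smul _)
    (slash_E 6 (by norm_num))
    (fun γ => by
      rw [ModularForm.SL_smul_slash]
      congr 1
      have h4 : (E₄ : ℍ → ℂ) ∣[(4 : ℤ)] γ = E₄ := slash_E 4 (by norm_num) γ
      have := mul_slash_SL2 4 4 γ E₄ E₄
      rw [h4] at this
      exact this)
    (tendsto_E (by norm_num) ⟨3, rfl⟩)
    (by
      have h4 := tendsto_E (k := 4) (by norm_num) ⟨2, rfl⟩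
      have := (h4.mul h4).const_smul (-(2⁻¹ : ℂ))
      convert this using 2
      simp
      norm_num)
  ext z
  have hz := congrFun h z
  simp only [serreDerivative_apply, Pi.smul_apply, smul_eq_mul, Pi.sub_apply, Pi.mul_apply] at hz ⊢
  push_cast at hz
  linear_combination hz

theorem discriminant_eq_fun :
    (Δ : ℍ → ℂ) = (1728⁻¹ : ℂ) • ((E₄ : ℍ → ℂ) ^ 3 - (E₆ : ℍ → ℂ) ^ 2) := by
  ext z
  rw [discriminant_eq_E₄_cube_sub_E₆_sq z]
  simp only [Pi.smul_apply, Pi.sub_apply, Pi.pow_apply, smul_eq_mul]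
  ring

theorem mdiff_discriminant : MDiff (Δ : ℍ → ℂ) := CuspForm.discriminant.holo'

theorem ramanujan_discriminant : D (Δ : ℍ → ℂ) = E2 * Δ := by
  have h4 : MDiff (E₄ : ℍ → ℂ) := E₄.holo'
  have h6 : MDiff (E₆ : ℍ → ℂ) := E₆.holo'
  have h43 : MDiff ((E₄ : ℍ → ℂ) ^ 3) := by
    have : (E₄ : ℍ → ℂ) ^ 3 = E₄ * E₄ * E₄ := by ext z; simp [pow_succ]
    rw [this]; exact (h4.mul h4).mul h4
  have h62 : MDiff ((E₆ : ℍ → ℂ) ^ 2) := by
    have : (E₆ : ℍ → ℂ) ^ 2 = E₆ * E₆ := by ext z; simp [pow_succ]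
    rw [this]; exact h6.mul h6
  ext z
  have e1 : D (Δ : ℍ → ℂ) = (1728⁻¹ : ℂ) • (((3 : ℕ) : ℍ → ℂ) * (E₄ : ℍ → ℂ) ^ (3 - 1) * D E₄ -
      ((2 : ℕ) : ℍ → ℂ) * (E₆ : ℍ → ℂ) ^ (2 - 1) * D E₆) := by
    conv_lhs => rw [discriminant_eq_fun]
    rw [normalizedDerivOfComplex_smul _ _ (h43.sub h62), normalizedDerivOfComplex_sub _ _ h43 h62,
      normalizedDerivOfComplex_pow _ _ h4, normalizedDerivOfComplex_pow _ _ h6]
  rw [e1, ramanujan_E4, ramanujan_E6]
  simp only [Pi.smul_apply, Pi.sub_apply, Pi.mul_apply, Pi.pow_apply, smul_eq_mul]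
  rw [discriminant_eq_E₄_cube_sub_E₆_sq z]
  simp
  ring

end Fermat.Agent.S24
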