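import Mathlib
import Fermat.Agent.S24.Ramanujan

set_option autoImplicit false

/-!
# S24, layer (B1)+(B3)+(B4): the analytic `j`-function and its local orders

`jFun τ = E₄(τ)³ / Δ(τ)`; it is holomorphic, `SL(2,ℤ)`-invariant, `jFun - 1728 = E₆²/Δ`,
`D jFun = -E₄²E₆/Δ` and the vanishing order of `jFun - jFun τ₀` at `τ₀` is `3`, `2`, `1`
according to `E₄ τ₀ = 0`, `E₆ τ₀ = 0`, or neither.
-/

namespace Fermat.Agent.S24

open UpperHalfPlane hiding I
open Complex Real Filter Topology Function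
open scoped Manifold MatrixGroups ModularForm
open ModularForm EisensteinSeries Derivative

local notation "Δ" => ModularForm.discriminant

/-- Klein's `j`-function `E₄³/Δ` on the upper half plane (`j = q⁻¹ + 744 + …`). -/
noncomputable def jFun (τ : ℍ) : ℂ := E₄ τ ^ 3 / Δ τ

theorem jFun_apply (τ : ℍ) : jFun τ = E₄ τ ^ 3 / Δ τ := rfl

theorem jFun_mul_discriminant (τ : ℍ) : jFun τ * Δ τ = E₄ τ ^ 3 := by
  rw [jFun, div_mul_cancel₀ _ (discriminant_ne_zero τ)]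

theorem jFun_sub_1728 (τ : ℍ) : jFun τ - 1728 = E₆ τ ^ 2 / Δ τ := by
  have h := discriminant_eq_E₄_cube_sub_E₆_sq τ
  have hne := discriminant_ne_zero τ
  rw [jFun, eq_div_iff hne, sub_mul, div_mul_cancel₀ _ hne]
  rw [h]
  ring

theorem mdiff_jFun : MDiff jFun := by
  have h4 : MDiff (E₄ : ℍ → ℂ) := E₄.holo'
  have h3 : MDiff (fun τ : ℍ => E₄ τ ^ 3) := by
    have : (fun τ : ℍ => E₄ τ ^ 3) = (E₄ : ℍ → ℂ) * E₄ * E₄ := by
      ext z; simp [pow_succ]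
    rw [this]; exact (h4.mul h4).mul h4
  exact h3.div mdiff_discriminant discriminant_ne_zero

/-- Pointwise form of modularity for level one forms. -/
theorem modularForm_smul_apply {k : ℤ} (f : ModularForm 𝒮ℒ k) (γ : SL(2, ℤ)) (τ : ℍ) :
    f (γ • τ) = denom γ τ ^ k * f τ := by
  have h : (f : ℍ → ℂ) ∣[k] γ = f := f.slash_action_eq' _ ⟨γ, rfl⟩
  have h1 := congrFun h τ
  rw [SL_slash_apply] at h1
  have hd : denom γ τ ≠ 0 := denom_ne_zero γ τ
  rw [← h1, mul_comm, mul_assoc, ← zpow_add₀ hd]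
  simp

theorem discriminant_smul_apply (γ : SL(2, ℤ)) (τ : ℍ) :
    Δ (γ • τ) = denom γ τ ^ (12 : ℤ) * Δ τ := by
  have h : (CuspForm.discriminant : ℍ → ℂ) ∣[(12 : ℤ)] γ = CuspForm.discriminant :=
    CuspForm.discriminant.slash_action_eq' _ ⟨γ, rfl⟩
  have h1 := congrFun h τ
  rw [SL_slash_apply] at h1
  have hd : denom γ τ ≠ 0 := denom_ne_zero γ τ
  change Δ (γ • τ) * _ = Δ τ at h1
  rw [← h1, mul_comm, mul_assoc, ← zpow_add₀ hd]
  simp

/-- `SL(2,ℤ)`-invariance of `j`. -/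
theorem jFun_smul (γ : SL(2, ℤ)) (τ : ℍ) : jFun (γ • τ) = jFun τ := by
  have hd : denom γ τ ≠ 0 := denom_ne_zero γ τ
  rw [jFun, jFun, modularForm_smul_apply, discriminant_smul_apply, mul_pow, ← zpow_natCast,
    ← zpow_mul]
  have : ((4 : ℤ) * (3 : ℕ)) = 12 := by norm_num
  rw [this, mul_div_mul_left _ _ (zpow_ne_zero _ hd)]

/-- `D j = -E₄²E₆/Δ`. -/
theorem D_jFun (τ : ℍ) : D jFun τ = -(E₄ τ ^ 2 * E₆ τ) / Δ τ := by
  have h4 : MDiff (E₄ : ℍ → ℂ) := E₄.holo'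
  have hne := discriminant_ne_zero τ
  have e1 : jFun * (Δ : ℍ → ℂ) = (E₄ : ℍ → ℂ) ^ 3 := by
    ext z; simpa using jFun_mul_discriminant z
  have e2 := congrArg (fun F => D F τ) e1
  simp only [normalizedDerivOfComplex_mul _ _ mdiff_jFun mdiff_discriminant,
    normalizedDerivOfComplex_pow _ _ h4, ramanujan_E4, ramanujan_discriminant] at e2
  simp only [Pi.add_apply, Pi.mul_apply, Pi.smul_apply, Pi.sub_apply, Pi.pow_apply,
    smul_eq_mul] at e2
  rw [eq_div_iff hne]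
  have e3 := jFun_mul_discriminant τ
  have e4 : ((3 : ℕ) : ℍ → ℂ) τ = 3 := by simp
  rw [e4] at e2
  have : (3 : ℕ) - 1 = 2 := rfl
  rw [this] at e2
  linear_combination e2 - E2 τ * e3

/-! ### Lifts to `ℂ` and derivatives -/

theorem analyticAt_comp_ofComplex {F : ℍ → ℂ} (hF : MDiff F) (τ : ℍ) :
    AnalyticAt ℂ (F ∘ ofComplex) (τ : ℂ) := by
  have hd : DifferentiableOn ℂ (F ∘ ofComplex) upperHalfPlaneSet :=
    UpperHalfPlane.mdifferentiable_iff.mp hF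
  exact hd.analyticAt (isOpen_upperHalfPlaneSet.mem_nhds τ.im_pos)

theorem deriv_comp_ofComplex (F : ℍ → ℂ) (τ : ℍ) :
    deriv (F ∘ ofComplex) (τ : ℂ) = 2 * π * I * D F τ := by
  have h : (2 * π * I : ℂ) ≠ 0 := by
    simp [Real.pi_ne_zero, I_ne_zero]
  rw [normalizedDerivOfComplex, ← mul_assoc, mul_inv_cancel₀ h, one_mul]

/-! ### Local orders of `j` -/

theorem E₄_ne_zero_of_E₆_eq_zero {τ : ℍ} (h : E₆ τ = 0) : E₄ τ ≠ 0 := by
  intro h4
  have := discriminant_eq_E₄_cube_sub_E₆_sq τ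
  rw [h, h4] at this
  exact discriminant_ne_zero τ (by rw [this]; norm_num)

theorem E₆_ne_zero_of_E₄_eq_zero {τ : ℍ} (h : E₄ τ = 0) : E₆ τ ≠ 0 := fun h6 =>
  E₄_ne_zero_of_E₆_eq_zero h6 h

theorem analyticOrderAt_E₄ {τ : ℍ} (h : E₄ τ = 0) :
    analyticOrderAt ((E₄ : ℍ → ℂ) ∘ ofComplex) (τ : ℂ) = 1 := by
  have hm : MDiff (E₄ : ℍ → ℂ) := E₄.holo'
  refine (analyticAt_comp_ofComplex hm τ).analyticOrderAt_eq_one_of_zero_deriv_ne_zero
    (by simpa [ofComplex_apply] using h) ?_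
  rw [deriv_comp_ofComplex, ramanujan_E4]
  simp only [Pi.smul_apply, Pi.sub_apply, Pi.mul_apply, smul_eq_mul, h, mul_zero, zero_sub]
  have h6 := E₆_ne_zero_of_E₄_eq_zero h
  have h2 : (2 * π * I : ℂ) ≠ 0 := by simp [Real.pi_ne_zero, I_ne_zero]
  exact mul_ne_zero h2 (mul_ne_zero (by norm_num) (neg_ne_zero.mpr h6))

theorem analyticOrderAt_E₆ {τ : ℍ} (h : E₆ τ = 0) :
    analyticOrderAt ((E₆ : ℍ → ℂ) ∘ ofComplex) (τ : ℂ) = 1 := by
  have hm : MDiff (E₆ : ℍ → ℂ) := E₆.holo'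
  refine (analyticAt_comp_ofComplex hm τ).analyticOrderAt_eq_one_of_zero_deriv_ne_zero
    (by simpa [ofComplex_apply] using h) ?_
  rw [deriv_comp_ofComplex, ramanujan_E6]
  simp only [Pi.smul_apply, Pi.sub_apply, Pi.mul_apply, smul_eq_mul, h, mul_zero, zero_sub]
  have h4 := E₄_ne_zero_of_E₆_eq_zero h
  have h2 : (2 * π * I : ℂ) ≠ 0 := by simp [Real.pi_ne_zero, I_ne_zero]
  exact mul_ne_zero h2 (mul_ne_zero (by norm_num) (neg_ne_zero.mpr (mul_ne_zero h4 h4)))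

theorem analyticOrderAt_inv_discriminant (τ : ℍ) :
    analyticOrderAt (((Δ : ℍ → ℂ) ∘ ofComplex)⁻¹) (τ : ℂ) = 0 := by
  have ha : AnalyticAt ℂ (((Δ : ℍ → ℂ) ∘ ofComplex)⁻¹) (τ : ℂ) :=
    (analyticAt_comp_ofComplex mdiff_discriminant τ).inv
      (by simpa [ofComplex_apply] using discriminant_ne_zero τ)
  rw [ha.analyticOrderAt_eq_zero]
  simpa [ofComplex_apply] using discriminant_ne_zero τ

/-- If `E₄ τ₀ = 0` then `j` vanishes to order exactly `3` at `τ₀`. -/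
theorem analyticOrderAt_jFun_of_E₄ {τ : ℍ} (h : E₄ τ = 0) :
    analyticOrderAt (fun z : ℂ => jFun (ofComplex z)) (τ : ℂ) = 3 := by
  have e : (fun z : ℂ => jFun (ofComplex z)) =
      ((E₄ : ℍ → ℂ) ∘ ofComplex) ^ 3 * ((Δ : ℍ → ℂ) ∘ ofComplex)⁻¹ := by
    ext z
    simp [jFun, div_eq_mul_inv]
  have hm : MDiff (E₄ : ℍ → ℂ) := E₄.holo'
  have ha4 := analyticAt_comp_ofComplex hm τ
  have haΔ : AnalyticAt ℂ (((Δ : ℍ → ℂ) ∘ ofComplex)⁻¹) (τ : ℂ) :=
    (analyticAt_comp_ofComplex mdiff_discriminant τ).inv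
      (by simpa [ofComplex_apply] using discriminant_ne_zero τ)
  rw [e, analyticOrderAt_mul (ha4.pow 3) haΔ, analyticOrderAt_pow ha4, analyticOrderAt_E₄ h,
    analyticOrderAt_inv_discriminant]
  rfl

/-- If `E₆ τ₀ = 0` then `j - 1728` vanishes to order exactly `2` at `τ₀`. -/
theorem analyticOrderAt_jFun_sub_of_E₆ {τ : ℍ} (h : E₆ τ = 0) :
    analyticOrderAt (fun z : ℂ => jFun (ofComplex z) - 1728) (τ : ℂ) = 2 := by
  have e : (fun z : ℂ => jFun (ofComplex z) - 1728) =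
      ((E₆ : ℍ → ℂ) ∘ ofComplex) ^ 2 * ((Δ : ℍ → ℂ) ∘ ofComplex)⁻¹ := by
    ext z
    simp [jFun_sub_1728, div_eq_mul_inv]
  have hm : MDiff (E₆ : ℍ → ℂ) := E₆.holo'
  have ha6 := analyticAt_comp_ofComplex hm τ
  have haΔ : AnalyticAt ℂ (((Δ : ℍ → ℂ) ∘ ofComplex)⁻¹) (τ : ℂ) :=
    (analyticAt_comp_ofComplex mdiff_discriminant τ).inv
      (by simpa [ofComplex_apply] using discriminant_ne_zero τ)
  rw [e, analyticOrderAt_mul (ha6.pow 2) haΔ, analyticOrderAt_pow ha6, analyticOrderAt_E₆ h,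
    analyticOrderAt_inv_discriminant]
  rfl

theorem jFun_eq_zero_iff {τ : ℍ} : jFun τ = 0 ↔ E₄ τ = 0 := by
  rw [jFun, div_eq_zero_iff]
  simp [discriminant_ne_zero τ]

theorem jFun_eq_1728_iff {τ : ℍ} : jFun τ = 1728 ↔ E₆ τ = 0 := by
  rw [← sub_eq_zero, jFun_sub_1728, div_eq_zero_iff]
  simp [discriminant_ne_zero τ]

/-- Away from the zeros of `E₄E₆`, `j - j(τ₀)` has a simple zero at `τ₀`. -/
theorem analyticOrderAt_jFun_sub_of_ne {τ : ℍ} (h4 : E₄ τ ≠ 0) (h6 : E₆ τ ≠ 0) :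
    analyticOrderAt (fun z : ℂ => jFun (ofComplex z) - jFun τ) (τ : ℂ) = 1 := by
  have ha := analyticAt_comp_ofComplex mdiff_jFun τ
  have hd : deriv (jFun ∘ ofComplex) (τ : ℂ) ≠ 0 := by
    rw [deriv_comp_ofComplex, D_jFun]
    have h2 : (2 * π * I : ℂ) ≠ 0 := by simp [Real.pi_ne_zero, I_ne_zero]
    exact mul_ne_zero h2 (div_ne_zero (neg_ne_zero.mpr (mul_ne_zero (pow_ne_zero 2 h4) h6))
      (discriminant_ne_zero τ))
  have := ha.analyticOrderAt_sub_eq_one_of_deriv_ne_zero hd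
  simpa [Function.comp_apply, ofComplex_apply] using this

/-- (B4), generic value: if `j τ₀ = c ∉ {0, 1728}` then `j - c` has a simple zero at `τ₀`. -/
theorem analyticOrderAt_jFun_sub_of_generic {τ : ℍ} {c : ℂ} (hc : jFun τ = c) (h0 : c ≠ 0)
    (h1 : c ≠ 1728) :
    analyticOrderAt (fun z : ℂ => jFun (ofComplex z) - c) (τ : ℂ) = 1 := by
  subst hc
  exact analyticOrderAt_jFun_sub_of_ne (fun h => h0 (jFun_eq_zero_iff.mpr h))
    (fun h => h1 (jFun_eq_1728_iff.mpr h))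

/-! ### The elliptic points -/

/-- `E₆` vanishes at any fixed point of `S`, i.e. at `τ` with `τ² + 1 = 0`. -/
theorem E₆_eq_zero_of_sq {τ : ℍ} (h : (τ : ℂ) ^ 2 + 1 = 0) : E₆ τ = 0 := by
  have hS : ModularGroup.S • τ = τ := by
    ext1
    rw [UpperHalfPlane.modular_S_smul]
    have hne : (τ : ℂ) ≠ 0 := ne_zero τ
    field_simp
    linear_combination -h
  have h1 := modularForm_smul_apply E₆ ModularGroup.S τ
  rw [hS, ModularGroup.denom_S] at h1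
  have h2 : (τ : ℂ) ^ (6 : ℤ) = -1 := by
    have : (τ : ℂ) ^ (6 : ℤ) = ((τ : ℂ) ^ 2) ^ 3 := by
      rw [← pow_mul]; norm_cast
    rw [this, show (τ : ℂ) ^ 2 = -1 by linear_combination h]
    norm_num
  rw [h2] at h1
  have : (2 : ℂ) * E₆ τ = 0 := by linear_combination h1
  simpa using this

/-- `E₄` vanishes at any fixed point of `ST`, i.e. at `τ` with `τ² + τ + 1 = 0`. -/
theorem E₄_eq_zero_of_sq {τ : ℍ} (h : (τ : ℂ) ^ 2 + τ + 1 = 0) : E₄ τ = 0 := by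
  have hT : ModularGroup.T • τ = (1 : ℝ) +ᵥ τ := UpperHalfPlane.modular_T_smul τ
  obtain ⟨g, hg⟩ : ∃ g : SL(2, ℤ), g = ModularGroup.S * ModularGroup.T := ⟨_, rfl⟩
  have hST : g • τ = τ := by
    rw [hg, mul_smul, hT]
    ext1
    rw [UpperHalfPlane.modular_S_smul]
    simp only [UpperHalfPlane.coe_vadd]
    have hne : ((1 : ℝ) + (τ : ℂ)) ≠ 0 := by
      intro h0
      push_cast at h0
      have : (τ : ℂ) = -1 := by linear_combination h0
      rw [this] at h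
      norm_num at h
    push_cast
    push_cast at hne
    field_simp
    linear_combination -h
  have h1 := modularForm_smul_apply E₄ g τ
  rw [hST] at h1
  have hden : denom g τ = (τ : ℂ) + 1 := by
    rw [ModularGroup.denom_apply, hg]
    simp [ModularGroup.S, ModularGroup.T, Matrix.mul_apply, Fin.sum_univ_two]
  rw [hden] at h1
  have h2 : ((τ : ℂ) + 1) ^ (4 : ℤ) = -(τ : ℂ) - 1 := by
    have e : ((τ : ℂ) + 1) ^ (4 : ℤ) = (((τ : ℂ) + 1) ^ 2) ^ 2 := by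
      rw [← pow_mul]; norm_cast
    have e2 : ((τ : ℂ) + 1) ^ 2 = τ := by linear_combination h
    rw [e, e2]
    linear_combination h
  rw [h2] at h1
  have h3 : ((τ : ℂ) + 2) * E₄ τ = 0 := by linear_combination h1
  rcases mul_eq_zero.mp h3 with h4 | h4
  · exfalso
    have : (τ : ℂ) = -2 := by linear_combination h4
    rw [this] at h
    norm_num at h
  · exact h4

/-- (B4) at `i`: `j(i) = 1728`. -/
theorem jFun_I : jFun UpperHalfPlane.I = 1728 :=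
  jFun_eq_1728_iff.mpr (E₆_eq_zero_of_sq (by simp))

/-- (B4) at `i`: `j - 1728` has order exactly `2` at `i`. -/
theorem analyticOrderAt_jFun_I :
    analyticOrderAt (fun z : ℂ => jFun (ofComplex z) - 1728) ((UpperHalfPlane.I : ℍ) : ℂ) = 2 :=
  analyticOrderAt_jFun_sub_of_E₆ (E₆_eq_zero_of_sq (by simp))

/-- The elliptic point `ρ = e^{2πi/3} = (-1 + √3 i)/2`. -/
noncomputable def rhoPt : ℍ :=
  ⟨-(1 / 2 : ℝ) + (Real.sqrt 3 / 2 : ℝ) * I, by simp⟩

theorem rhoPt_sq : ((rhoPt : ℍ) : ℂ) ^ 2 + rhoPt + 1 = 0 := by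
  have h3 : ((Real.sqrt 3 : ℝ) : ℂ) ^ 2 = 3 := by
    rw [← Complex.ofReal_pow, Real.sq_sqrt (by norm_num)]
    norm_num
  simp only [rhoPt, UpperHalfPlane.coe_mk]
  push_cast
  ring_nf
  rw [I_sq, h3]
  ring

/-- (B4) at `ρ`: `j(ρ) = 0`. -/
theorem jFun_rhoPt : jFun rhoPt = 0 := jFun_eq_zero_iff.mpr (E₄_eq_zero_of_sq rhoPt_sq)

/-- (B4) at `ρ`: `j` has order exactly `3` at `ρ`. -/
theorem analyticOrderAt_jFun_rhoPt :
    analyticOrderAt (fun z : ℂ => jFun (ofComplex z)) ((rhoPt : ℍ) : ℂ) = 3 :=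
  analyticOrderAt_jFun_of_E₄ (E₄_eq_zero_of_sq rhoPt_sq)

end Fermat.Agent.S24
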