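import Mathlib

set_option autoImplicit false

/-!
# S24: Taylor series at `0` of functions `ℂ → ℂ`, bundled as a `PowerSeries`

`taylor0 f` is the formal Taylor series of `f` at `0`; by definition
`qExpansion h f = taylor0 (cuspFunction h f)`.  On functions analytic at `0` it is additive and
multiplicative, and it commutes with locally uniform limits (coefficientwise).
-/

namespace Fermat.Agent.S24

open Filter Topology UpperHalfPlane

noncomputable section

/-- The formal Taylor series at `0`. -/
def taylor0 (f : ℂ → ℂ) : PowerSeries ℂ :=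
  .mk fun m => ((m.factorial : ℂ))⁻¹ * iteratedDeriv m f 0

theorem taylor0_coeff (f : ℂ → ℂ) (m : ℕ) :
    (taylor0 f).coeff m = ((m.factorial : ℂ))⁻¹ * iteratedDeriv m f 0 := by
  simp [taylor0]

theorem qExpansion_eq_taylor0 (h : ℝ) (f : ℍ → ℂ) :
    qExpansion h f = taylor0 (cuspFunction h f) := rfl

theorem taylor0_congr {f g : ℂ → ℂ} (h : f =ᶠ[𝓝 0] g) : taylor0 f = taylor0 g := by
  ext m
  rw [taylor0_coeff, taylor0_coeff, h.iteratedDeriv_eq m]

theorem taylor0_add {f g : ℂ → ℂ} (hf : AnalyticAt ℂ f 0) (hg : AnalyticAt ℂ g 0) :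
    taylor0 (f + g) = taylor0 f + taylor0 g := by
  ext m
  simp [taylor0_coeff, iteratedDeriv_add hf.contDiffAt hg.contDiffAt, mul_add]

theorem taylor0_mul {f g : ℂ → ℂ} (hf : AnalyticAt ℂ f 0) (hg : AnalyticAt ℂ g 0) :
    taylor0 (f * g) = taylor0 f * taylor0 g := by
  ext m
  simp only [taylor0_coeff, iteratedDeriv_mul hf.contDiffAt hg.contDiffAt, Finset.mul_sum,
    PowerSeries.coeff_mul, Finset.Nat.sum_antidiagonal_eq_sum_range_succ_mk, Nat.succ_eq_add_one]
  refine Finset.sum_congr rfl fun i hi ↦ ?_
  rw [Nat.cast_choose _ (by grind)]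
  field_simp [Nat.factorial_ne_zero]

theorem taylor0_const (c : ℂ) : taylor0 (fun _ => c) = PowerSeries.C c := by
  ext m
  rw [taylor0_coeff, PowerSeries.coeff_C]
  rcases Nat.eq_zero_or_pos m with rfl | hm
  · simp
  · rw [if_neg hm.ne']
    have : iteratedDeriv m (fun _ : ℂ => c) 0 = 0 := by
      have h := iteratedDeriv_const (𝕜 := ℂ) (n := m) (c := c) (x := (0 : ℂ))
      rw [h, if_neg hm.ne']
    rw [this, mul_zero]

theorem taylor0_one : taylor0 (1 : ℂ → ℂ) = 1 := by
  have h : (1 : ℂ → ℂ) = fun _ => (1 : ℂ) := rfl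
  rw [h, taylor0_const, map_one]

theorem taylor0_pow {f : ℂ → ℂ} (hf : AnalyticAt ℂ f 0) (n : ℕ) :
    taylor0 (f ^ n) = taylor0 f ^ n := by
  induction n with
  | zero => simpa using taylor0_one
  | succ n ih => rw [pow_succ, pow_succ, taylor0_mul (hf.pow n) hf, ih]

/-- The Taylor series of a polynomial function is the polynomial. -/
theorem taylor0_polynomial (p : Polynomial ℂ) :
    taylor0 (fun q => p.eval q) = (p : PowerSeries ℂ) := by
  ext m
  rw [taylor0_coeff, Polynomial.coeff_coe]
  have h1 : ∀ (k : ℕ) (r : Polynomial ℂ),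
      iteratedDeriv k (fun q => r.eval q) = fun q => (Polynomial.derivative^[k] r).eval q := by
    intro k
    induction k with
    | zero => intro r; simp
    | succ k ih =>
      intro r
      rw [iteratedDeriv_succ', Function.iterate_succ_apply]
      have : deriv (fun q => r.eval q) = fun q => (Polynomial.derivative r).eval q := by
        funext x; exact r.deriv
      rw [this, ih]
  rw [h1]
  show ((m.factorial : ℂ))⁻¹ * (Polynomial.derivative^[m] p).eval 0 = p.coeff m
  rw [← Polynomial.coeff_zero_eq_eval_zero, Polynomial.coeff_iterate_derivative, zero_add,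
    Nat.descFactorial_self, nsmul_eq_mul, ← mul_assoc,
    inv_mul_cancel₀ (Nat.cast_ne_zero.mpr m.factorial_ne_zero), one_mul]

theorem taylor0_id : taylor0 (fun q : ℂ => q) = PowerSeries.X := by
  have := taylor0_polynomial Polynomial.X
  simpa using this

/-- Taylor coefficients commute with locally uniform limits of holomorphic functions. -/
theorem tendsto_taylor0_coeff {ι : Type*} {φ : Filter ι} {F : ι → ℂ → ℂ} {f : ℂ → ℂ} {U : Set ℂ}
    (hf : TendstoLocallyUniformlyOn F f φ U) (hF : ∀ᶠ n in φ, DifferentiableOn ℂ (F n) U)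
    (hU : IsOpen U) (h0 : (0 : ℂ) ∈ U) (m : ℕ) :
    Tendsto (fun n => (taylor0 (F n)).coeff m) φ (𝓝 ((taylor0 f).coeff m)) := by
  have key : ∀ k : ℕ, TendstoLocallyUniformlyOn (fun n => deriv^[k] (F n)) (deriv^[k] f) φ U ∧
      ∀ᶠ n in φ, DifferentiableOn ℂ (deriv^[k] (F n)) U := by
    intro k
    induction k with
    | zero => exact ⟨by simpa using hf, by simpa using hF⟩
    | succ k ih =>
      refine ⟨?_, ?_⟩
      · have := ih.1.deriv ih.2 hU
        simpa only [Function.iterate_succ_apply', Function.comp_def] using this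
      · filter_upwards [ih.2] with n hn
        simpa only [Function.iterate_succ_apply'] using hn.deriv hU
  have h1 := (key m).1.tendsto_at h0
  simp only [taylor0_coeff, iteratedDeriv_eq_iterate]
  exact h1.const_mul _

/-- The Taylor series converges to the function on any ball of holomorphy. -/
theorem hasSum_taylor0 {f : ℂ → ℂ} {r : ℝ} (hf : DifferentiableOn ℂ f (Metric.ball 0 r)) {q : ℂ}
    (hq : q ∈ Metric.ball (0 : ℂ) r) : HasSum (fun n : ℕ => (taylor0 f).coeff n * q ^ n) (f q) := by
  have h := Complex.hasSum_taylorSeries_on_ball hf hq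
  refine h.congr_fun fun n => ?_
  rw [taylor0_coeff, sub_zero, smul_eq_mul, smul_eq_mul]
  ring

/-- If `f * g = 1` near `0` then the Taylor series are inverse to each other. -/
theorem taylor0_mul_eq_one {f g : ℂ → ℂ} (hf : AnalyticAt ℂ f 0) (hg : AnalyticAt ℂ g 0)
    (h : f * g =ᶠ[𝓝 0] 1) : taylor0 f * taylor0 g = 1 := by
  rw [← taylor0_mul hf hg, taylor0_congr h, taylor0_one]

/-- Uniqueness of power series expansions: if `f q = ∑ aₙ qⁿ` on a ball around `0`, then `aₙ` are
the Taylor coefficients. -/
theorem taylor0_eq_of_hasSum {f : ℂ → ℂ} {a : ℕ → ℂ} {r : ℝ} (hr : 0 < r)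
    (hf : ∀ q : ℂ, ‖q‖ < r → HasSum (fun n : ℕ => a n * q ^ n) (f q)) :
    taylor0 f = PowerSeries.mk a := by
  have hr' : (0 : ENNReal) < ENNReal.ofReal r := ENNReal.ofReal_pos.mpr hr
  have H1 : HasFPowerSeriesOnBall f (.ofScalars ℂ a) 0 (ENNReal.ofReal r) := by
    constructor
    · refine le_of_forall_lt_imp_le_of_dense fun s hs ↦ ?_
      lift s to NNReal using hs.ne_top
      have hsr : (s : ℝ) < r := by
        have := (ENNReal.lt_ofReal_iff_toReal_lt ENNReal.coe_ne_top).mp hs
        simpa using this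
      apply FormalMultilinearSeries.le_radius_of_summable
      have := (hf (s : ℂ) (by simpa using hsr)).summable.norm
      simpa [smul_eq_mul, norm_mul, mul_comm, mul_left_comm, mul_assoc] using this
    · exact hr'
    · intro y hy
      have hy' : ‖y‖ < r := by
        rw [Metric.mem_eball, edist_zero_right] at hy
        have := (ENNReal.lt_ofReal_iff_toReal_lt (by simp)).mp hy
        simpa using this
      simpa [mul_comm] using hf y hy'
  have hfa : AnalyticAt ℂ f 0 := H1.analyticAt
  have h2 := hfa.hasFPowerSeriesAt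
  have h3 := H1.hasFPowerSeriesAt.eq_formalMultilinearSeries h2
  ext m
  have h4 := congr_arg (FormalMultilinearSeries.coeff · m) h3
  simp only [FormalMultilinearSeries.coeff_ofScalars] at h4
  rw [taylor0_coeff, PowerSeries.coeff_mk, h4]
  ring

end

end Fermat.Agent.S24
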