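import Mathlib
import Fermat.Agent.S24.Taylor0
import Fermat.Agent.S24.JOrder
import Fermat.Prelude.Def_ModularCurve_X0
import Fermat.Prelude.Def_ModularCurve_LaurentCoeff

set_option autoImplicit false

/-!
# S24, layer (B2): the `J`-dictionary

Relates the analytic `q`-expansions of `E₄` and `Δ` (Mathlib) to the formal power series
`ModularCurve.eisenstein4` and `ModularCurve.dedekindEtaUnit` of the prelude.
-/

namespace Fermat.Agent.S24

open UpperHalfPlane ModularForm ModularFormClass MatrixGroups EisensteinSeries Filter Topology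

noncomputable section

local notation "𝕢" => Function.Periodic.qParam

/-- (J1) The `q`-expansion of `E₄` is the prelude's formal `eisenstein4`. -/
theorem qExpansion_E4_eq :
    qExpansion 1 E₄ = PowerSeries.map (Int.castRingHom ℂ) ModularCurve.eisenstein4 := by
  ext m
  have h := E_qExpansion_coeff (k := 4) (by norm_num) ⟨2, rfl⟩ m
  rw [show (E₄ : ℍ → ℂ) = E (k := 4) (by norm_num) from rfl, h]
  rw [PowerSeries.coeff_map, ModularCurve.eisenstein4, PowerSeries.coeff_mk]
  split_ifs with hm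
  · simp
  · have hb : (bernoulli 4 : ℂ) = -1 / 30 := by
      rw [bernoulli_eq_bernoulli'_of_ne_one (by norm_num), bernoulli'_four]
      push_cast; ring
    rw [hb]
    simp only [ArithmeticFunction.sigma_apply, Nat.cast_ofNat, eq_intCast, Int.cast_mul,
      Int.cast_ofNat, Int.cast_sum, Int.cast_pow, Int.cast_natCast, Nat.cast_sum, Nat.cast_pow]
    norm_num

/-! ### (J2) the `q`-expansion of `Δ` -/

/-- The analytic Euler product `∏ (1 - q ^ (n + 1))`. -/
def eulerProd (q : ℂ) : ℂ := ∏' n : ℕ, (1 - q ^ (n + 1))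

theorem eulerProd_analyticAt_zero : AnalyticAt ℂ eulerProd 0 :=
  differentiableOn_tprod_one_sub_pow.analyticAt (Metric.ball_mem_nhds 0 one_pos)

open scoped PowerSeries.WithPiTopology in
/-- The Taylor series of the analytic Euler product is the formal Euler product. -/
theorem taylor0_eulerProd :
    taylor0 eulerProd = PowerSeries.map (Int.castRingHom ℂ) ModularCurve.etaProd := by
  ext m
  -- analytic side
  have h1 : TendstoLocallyUniformlyOn (fun (t : Finset ℕ) (q : ℂ) => ∏ i ∈ t, (1 - q ^ (i + 1)))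
      eulerProd atTop (Metric.ball (0 : ℂ) 1) :=
    multipliableLocallyUniformlyOn_one_sub_pow.hasProdLocallyUniformlyOn
  have h2 : ∀ t : Finset ℕ, (fun q : ℂ => ∏ i ∈ t, (1 - q ^ (i + 1))) =
      fun q => (∏ i ∈ t, (1 - Polynomial.X ^ (i + 1) : Polynomial ℂ)).eval q := by
    intro t; funext q
    simp [Polynomial.eval_prod]
  have h3 := tendsto_taylor0_coeff h1
    (Eventually.of_forall fun t => by
      rw [h2 t]; exact (Polynomial.differentiable _).differentiableOn)
    Metric.isOpen_ball (Metric.mem_ball_self one_pos) m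
  have h4 : ∀ t : Finset ℕ, (taylor0 (fun q : ℂ => ∏ i ∈ t, (1 - q ^ (i + 1)))).coeff m =
      ((PowerSeries.coeff m (∏ i ∈ t, (1 - PowerSeries.X ^ (i + 1) : PowerSeries ℤ)) : ℤ) : ℂ) := by
    intro t
    rw [h2 t, taylor0_polynomial, ← Polynomial.coeToPowerSeries.ringHom_apply, map_prod]
    have : (∏ i ∈ t, Polynomial.coeToPowerSeries.ringHom (1 - Polynomial.X ^ (i + 1) : Polynomial ℂ))
        = PowerSeries.map (Int.castRingHom ℂ)
          (∏ i ∈ t, (1 - PowerSeries.X ^ (i + 1) : PowerSeries ℤ)) := by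
      rw [map_prod]
      refine Finset.prod_congr rfl fun i _ => ?_
      simp [Polynomial.coeToPowerSeries.ringHom_apply]
    rw [this, PowerSeries.coeff_map]
    simp
  simp only [h4] at h3
  -- formal side
  have h5 : HasProd (fun n : ℕ => (1 - PowerSeries.X ^ (n + 1) : PowerSeries ℤ))
      ModularCurve.etaProd :=
    (PowerSeries.WithPiTopology.multipliable_one_sub_X_pow ℤ).hasProd
  have h6 : Tendsto (fun t : Finset ℕ =>
      PowerSeries.coeff m (∏ i ∈ t, (1 - PowerSeries.X ^ (i + 1) : PowerSeries ℤ))) atTop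
      (𝓝 (PowerSeries.coeff m ModularCurve.etaProd)) :=
    ((PowerSeries.WithPiTopology.continuous_coeff ℤ m).tendsto _).comp h5
  have h7 : Tendsto (fun t : Finset ℕ =>
      ((PowerSeries.coeff m (∏ i ∈ t, (1 - PowerSeries.X ^ (i + 1) : PowerSeries ℤ)) : ℤ) : ℂ))
      atTop (𝓝 ((PowerSeries.coeff m ModularCurve.etaProd : ℤ) : ℂ)) :=
    ((continuous_of_discreteTopology (f := fun z : ℤ => (z : ℂ))).tendsto _).comp h6
  rw [tendsto_nhds_unique h3 h7, PowerSeries.coeff_map]
  simp

/-- (J2) The `q`-expansion of `Δ` is `q ∏ (1 - q ^ n) ^ 24`, formally. -/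
theorem qExpansion_discriminant_eq :
    qExpansion 1 ModularForm.discriminant = PowerSeries.map (Int.castRingHom ℂ)
      (PowerSeries.X * ModularCurve.dedekindEtaUnit) := by
  rw [qExpansion_eq_taylor0]
  have h1 : cuspFunction 1 ModularForm.discriminant =ᶠ[𝓝 0]
      ((fun q : ℂ => q) * eulerProd ^ 24) := by
    filter_upwards [Metric.ball_mem_nhds (0 : ℂ) one_pos] with q hq
    rw [discriminant_cuspFunction_eqOn hq]
    simp only [Pi.mul_apply, Pi.pow_apply, eulerProd]
    rw [(multipliable_one_sub_pow (by simpa using hq)).tprod_pow 24]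
  have hid : AnalyticAt ℂ (fun q : ℂ => q) 0 := analyticAt_id
  rw [taylor0_congr h1, taylor0_mul hid (eulerProd_analyticAt_zero.pow 24), taylor0_id,
    taylor0_pow eulerProd_analyticAt_zero, taylor0_eulerProd, map_mul, PowerSeries.map_X,
    ModularCurve.dedekindEtaUnit, map_pow]

/-! ### (J5) the convergent `q`-expansion of `q * j` -/

theorem eulerProd_ne_zero {q : ℂ} (hq : ‖q‖ < 1) : eulerProd q ≠ 0 := by
  unfold eulerProd
  have hs : Summable fun n : ℕ => ‖-q ^ (n + 1)‖ := by
    simpa using (summable_nat_add_iff 1).mpr (summable_geometric_of_lt_one (norm_nonneg q) hq)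
  have := tprod_one_add_ne_zero_of_summable (f := fun n : ℕ => -q ^ (n + 1)) ?_ hs
  · simpa [sub_eq_add_neg] using this
  · intro n
    have h1 : ‖q ^ (n + 1)‖ < 1 := by
      rw [norm_pow]; exact pow_lt_one₀ (norm_nonneg q) hq (by omega)
    intro h0
    have : q ^ (n + 1) = 1 := by
      have := eq_neg_of_add_eq_zero_left h0
      simpa using this.symm
    rw [this, norm_one] at h1
    exact lt_irrefl _ h1

/-- The function `q ↦ E₄(q)³ / ∏ (1 - qⁿ)²⁴ = q j(q)` on the unit disc. -/
def qjFun (q : ℂ) : ℂ := cuspFunction 1 E₄ q ^ 3 / eulerProd q ^ 24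

theorem differentiableOn_qjFun : DifferentiableOn ℂ qjFun (Metric.ball 0 1) := by
  have h4 : DifferentiableOn ℂ (cuspFunction 1 E₄) (Metric.ball 0 1) := by
    intro q hq
    exact (ModularFormClass.differentiableAt_cuspFunction E₄ one_pos one_mem_strictPeriods_SL
      (by simpa using hq)).differentiableWithinAt
  refine (h4.pow 3).div (differentiableOn_tprod_one_sub_pow.pow 24) fun q hq => ?_
  exact pow_ne_zero _ (eulerProd_ne_zero (by simpa using hq))

theorem qjFun_qParam (τ : ℍ) : qjFun (𝕢 1 τ) = 𝕢 1 τ * jFun τ := by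
  have hq : ‖𝕢 1 τ‖ < 1 := by exact_mod_cast norm_qParam_lt_one 1 τ
  have hD := discriminant_eq_q_prod τ
  have hE : cuspFunction 1 E₄ (𝕢 1 τ) = E₄ τ :=
    SlashInvariantFormClass.eq_cuspFunction E₄ τ one_mem_strictPeriods_SL one_ne_zero
  have hprod : ∏' n, (1 - eta_q n τ) ^ 24 = eulerProd (𝕢 1 τ) ^ 24 := by
    unfold eulerProd
    rw [← (multipliable_one_sub_pow hq).tprod_pow 24]
  have hne : eulerProd (𝕢 1 τ) ^ 24 ≠ 0 := pow_ne_zero _ (eulerProd_ne_zero hq)
  have hq0 : (𝕢 1 τ : ℂ) ≠ 0 := Function.Periodic.qParam_ne_zero _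
  rw [qjFun, hE, jFun_apply, hD, hprod]
  field_simp

theorem taylor0_qjFun :
    taylor0 qjFun = PowerSeries.map (Int.castRingHom ℂ) ModularCurve.jNum := by
  have h4 : AnalyticAt ℂ (cuspFunction 1 E₄) 0 :=
    ModularFormClass.analyticAt_cuspFunction_zero E₄ one_pos one_mem_strictPeriods_SL
  have he : AnalyticAt ℂ (eulerProd ^ 24) 0 := eulerProd_analyticAt_zero.pow 24
  have he0 : (eulerProd ^ 24) 0 ≠ 0 := pow_ne_zero _ (eulerProd_ne_zero (by simp))
  have hinv : AnalyticAt ℂ (eulerProd ^ 24)⁻¹ 0 := he.inv he0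
  have hmul : (eulerProd ^ 24) * (eulerProd ^ 24)⁻¹ =ᶠ[𝓝 0] 1 := by
    filter_upwards [Metric.ball_mem_nhds (0 : ℂ) one_pos] with q hq
    have : (eulerProd ^ 24) q ≠ 0 := pow_ne_zero _ (eulerProd_ne_zero (by simpa using hq))
    simp only [Pi.mul_apply, Pi.inv_apply, Pi.one_apply]
    exact mul_inv_cancel₀ this
  have h1 := taylor0_mul_eq_one he hinv hmul
  have h2 : PowerSeries.map (Int.castRingHom ℂ) ModularCurve.dedekindEtaUnit *
      PowerSeries.map (Int.castRingHom ℂ) ModularCurve.dedekindEtaUnitInv = 1 := by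
    rw [← map_mul, ModularCurve.dedekindEtaUnit_mul_inv, map_one]
  have h3 : taylor0 (eulerProd ^ 24) =
      PowerSeries.map (Int.castRingHom ℂ) ModularCurve.dedekindEtaUnit := by
    rw [taylor0_pow eulerProd_analyticAt_zero, taylor0_eulerProd, ModularCurve.dedekindEtaUnit,
      map_pow]
  have h5 : taylor0 (eulerProd ^ 24)⁻¹ =
      PowerSeries.map (Int.castRingHom ℂ) ModularCurve.dedekindEtaUnitInv := by
    rw [h3] at h1
    calc taylor0 (eulerProd ^ 24)⁻¹
        = (PowerSeries.map (Int.castRingHom ℂ) ModularCurve.dedekindEtaUnit *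
            PowerSeries.map (Int.castRingHom ℂ) ModularCurve.dedekindEtaUnitInv) *
            taylor0 (eulerProd ^ 24)⁻¹ := by rw [h2, one_mul]
      _ = PowerSeries.map (Int.castRingHom ℂ) ModularCurve.dedekindEtaUnitInv *
            (PowerSeries.map (Int.castRingHom ℂ) ModularCurve.dedekindEtaUnit *
            taylor0 (eulerProd ^ 24)⁻¹) := by ring
      _ = _ := by rw [h1, mul_one]
  have hq : qjFun = (cuspFunction 1 E₄) ^ 3 * (eulerProd ^ 24)⁻¹ := by
    funext q; simp [qjFun, div_eq_mul_inv]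
  rw [hq, taylor0_mul (h4.pow 3) hinv, taylor0_pow h4, ← qExpansion_eq_taylor0, qExpansion_E4_eq, h5,
    ModularCurve.jNum, map_mul, map_pow]

/-- (J5) For every `τ`, `q j(τ) = ∑ cₙ qⁿ` with `cₙ` the coefficients of the prelude's `jNumQ`. -/
theorem hasSum_jNumQ (τ : ℍ) :
    HasSum (fun n : ℕ => ((PowerSeries.coeff n ModularCurve.jNumQ : ℚ) : ℂ) * 𝕢 1 τ ^ n)
      (𝕢 1 τ * jFun τ) := by
  have hq : (𝕢 1 τ : ℂ) ∈ Metric.ball (0 : ℂ) 1 := by
    simpa using (show ‖𝕢 1 τ‖ < 1 by exact_mod_cast norm_qParam_lt_one 1 τ)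
  have h := hasSum_taylor0 differentiableOn_qjFun hq
  rw [qjFun_qParam, taylor0_qjFun] at h
  refine h.congr_fun fun n => ?_
  rw [ModularCurve.jNumQ, PowerSeries.coeff_map, PowerSeries.coeff_map]
  simp

end

end Fermat.Agent.S24
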