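/-
S24 shared definitions for the final assembly (owner: helper4): the fixed embedding of the constant
field into the complex numbers and the induced algebra structure.  (The analytic definitions live in
`Fermat/Agent/S24/Real/*.lean`, owner helper26; nothing here overlaps with them.)
-/
import Mathlib

set_option autoImplicit false

noncomputable section

namespace Fermat.Agent.S24

/-- the base field `ℚ̄` -/
abbrev Kbar : Type := AlgebraicClosure ℚ

/-- a fixed embedding `ℚ̄ → ℂ` -/
def iotaBar : Kbar →+* ℂ :=
  haveI : Algebra.IsAlgebraic ℚ (AlgebraicClosure ℚ) := AlgebraicClosure.isAlgebraic ℚ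
  (IsAlgClosed.lift : AlgebraicClosure ℚ →ₐ[ℚ] ℂ).toRingHom

/-- `ℂ` as a `ℚ̄`-algebra via `iotaBar` (NOT a global instance; use
`attribute [local instance] Fermat.Agent.S24.algebraKbarComplex`) -/
def algebraKbarComplex : Algebra Kbar ℂ := iotaBar.toAlgebra

end Fermat.Agent.S24
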