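/-
S24 interface file (owner: helper4): the rotation automorphism `t ↦ ζ t` of a Laurent series
field, used by the local lemma (orbits of an elliptic/parabolic element ↔ places) and by the
analytic embeddings.  Mathlib only.
-/
import Mathlib

set_option autoImplicit false

noncomputable section

namespace Fermat.Agent.S24

open HahnSeries

variable {C : Type*} [Field C]

/-- coefficientwise rotation `u(t) ↦ u(ζ t)` as a plain function -/
def rotFun (ζ : Cˣ) (u : LaurentSeries C) : LaurentSeries C where
  coeff m := ((ζ ^ m : Cˣ) : C) * u.coeff m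
  isPWO_support' := u.isPWO_support.mono (by
    intro m hm
    simp only [Function.mem_support, ne_eq] at hm ⊢
    exact fun h => hm (by rw [h, mul_zero]))

@[simp] theorem rotFun_coeff (ζ : Cˣ) (u : LaurentSeries C) (m : ℤ) :
    (rotFun ζ u).coeff m = ((ζ ^ m : Cˣ) : C) * u.coeff m := rfl

theorem rotFun_support (ζ : Cˣ) (u : LaurentSeries C) :
    (rotFun ζ u).support = u.support := by
  ext m
  simp only [HahnSeries.mem_support, rotFun_coeff, ne_eq, mul_eq_zero, Units.ne_zero, false_or]

theorem rotFun_mul (ζ : Cˣ) (u v : LaurentSeries C) :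
    rotFun ζ (u * v) = rotFun ζ u * rotFun ζ v := by
  ext a
  rw [rotFun_coeff, HahnSeries.coeff_mul, HahnSeries.coeff_mul, Finset.mul_sum]
  have hsupp : Finset.antidiagonal (rotFun ζ u).isPWO_support (rotFun ζ v).isPWO_support a
      = Finset.antidiagonal u.isPWO_support v.isPWO_support a := by
    ext ⟨i, j⟩
    simp only [Finset.mem_antidiagonal, rotFun_support]
  rw [hsupp]
  refine Finset.sum_congr rfl ?_
  rintro ⟨i, j⟩ hij
  have hij' : i + j = a := (Finset.mem_antidiagonal.mp hij).2.2
  simp only [rotFun_coeff]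
  rw [← hij', zpow_add, Units.val_mul]
  ring

/-- the rotation `u(t) ↦ u(ζ t)` as a `C`-algebra endomorphism of `C((t))` -/
def rot (ζ : Cˣ) : LaurentSeries C →ₐ[C] LaurentSeries C where
  toFun := rotFun ζ
  map_one' := by
    ext m
    rw [rotFun_coeff, HahnSeries.coeff_one]
    split_ifs with h
    · subst h; simp
    · simp
  map_mul' := rotFun_mul ζ
  map_zero' := by ext m; simp
  map_add' u v := by ext m; simp [mul_add]
  commutes' c := by
    ext m
    have hc : (algebraMap C (LaurentSeries C) c) = HahnSeries.single 0 c := by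
      have h1 : algebraMap C (PowerSeries C) c = PowerSeries.C c := by simp
      rw [HahnSeries.algebraMap_apply', h1, HahnSeries.ofPowerSeries_C]
      rfl
    rw [rotFun_coeff, hc, HahnSeries.coeff_single]
    split_ifs with h
    · subst h; simp
    · simp

@[simp] theorem rot_coeff (ζ : Cˣ) (u : LaurentSeries C) (m : ℤ) :
    (rot ζ u).coeff m = ((ζ ^ m : Cˣ) : C) * u.coeff m := rfl

theorem rot_one_apply (u : LaurentSeries C) : rot (1 : Cˣ) u = u := by
  ext m; simp

theorem rot_mul_apply (ζ ξ : Cˣ) (u : LaurentSeries C) : rot (ζ * ξ) u = rot ζ (rot ξ u) := by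
  ext m
  simp only [rot_coeff, mul_zpow, Units.val_mul]
  ring

theorem rot_pow_apply (ζ : Cˣ) (n : ℕ) (u : LaurentSeries C) :
    rot (ζ ^ n) u = (fun w => rot ζ w)^[n] u := by
  induction n generalizing u with
  | zero => simp [rot_one_apply]
  | succ n ih =>
    rw [pow_succ, rot_mul_apply, ih, Function.iterate_succ_apply]

theorem rot_support (ζ : Cˣ) (u : LaurentSeries C) : (rot ζ u).support = u.support :=
  rotFun_support ζ u

theorem rot_order (ζ : Cˣ) (u : LaurentSeries C) : (rot ζ u).order = u.order := by
  by_cases hu : u = 0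
  · subst hu; simp
  · have hne : rot ζ u ≠ 0 := by
      intro h
      apply hu
      ext m
      have := congrArg (fun w => w.coeff m) h
      simp only [rot_coeff, HahnSeries.coeff_zero, mul_eq_zero, Units.ne_zero, false_or] at this
      simpa using this
    rw [HahnSeries.order_of_ne hne, HahnSeries.order_of_ne hu]
    congr 1
    exact rot_support ζ u

theorem rot_injective (ζ : Cˣ) : Function.Injective (rot ζ : LaurentSeries C → LaurentSeries C) :=
  (rot ζ).toRingHom.injective

/-- a series fixed by the rotation by a primitive `k`-th root of unity only involves powers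
`t^m` with `k ∣ m` -/
theorem dvd_of_rot_eq_self {ζ : Cˣ} {k : ℕ} (hζ : IsPrimitiveRoot ζ k)
    {u : LaurentSeries C} (hu : rot ζ u = u) {m : ℤ} (hm : u.coeff m ≠ 0) : (k : ℤ) ∣ m := by
  have h := congrArg (fun w => w.coeff m) hu
  simp only [rot_coeff] at h
  have h1 : ((ζ ^ m : Cˣ) : C) = 1 := by
    have : (((ζ ^ m : Cˣ) : C) - 1) * u.coeff m = 0 := by rw [sub_mul, h, one_mul, sub_self]
    rcases mul_eq_zero.mp this with h' | h'
    · exact sub_eq_zero.mp h'
    · exact absurd h' hm
  have h2 : ζ ^ m = 1 := Units.ext (by simpa using h1)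
  exact (hζ.zpow_eq_one_iff_dvd m).mp h2

/-- consequently its order is divisible by `k` -/
theorem dvd_order_of_rot_eq_self {ζ : Cˣ} {k : ℕ} (hζ : IsPrimitiveRoot ζ k)
    {u : LaurentSeries C} (hu : rot ζ u = u) : (k : ℤ) ∣ u.order := by
  by_cases h0 : u = 0
  · subst h0; simp
  · exact dvd_of_rot_eq_self hζ hu (fun h => h0 (HahnSeries.coeff_order_eq_zero.mp h))

end Fermat.Agent.S24
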