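import Mathlib
import Fermat.Prelude.Def_AlgebraicCurve_DivisorClassGroup

set_option autoImplicit false

/-!
# Local lemma for places of a function field (S24, layers D/E)

Abstract "leading term" data `(ord, lc)` on a target field `L`, the place of `F` induced by a
`K`-embedding `F → L`, rigidity of such embeddings, and the orbit-counting lemma.
-/

noncomputable section

namespace Fermat.Agent.S24.LocalLemma

open AlgebraicCurve

/-- Leading-term data on a field `L` over `K`: an order function and a leading coefficient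
function with values in a field `C`. Models: Laurent series (order, leading coefficient),
germs of meromorphic functions (order, trailing coefficient). -/
structure LeadData (K L C : Type*) [Field K] [Field L] [Field C] [Algebra K L] [Algebra K C] where
  ord : L → ℤ
  lc : L → C
  ord_mul : ∀ {a b : L}, a ≠ 0 → b ≠ 0 → ord (a * b) = ord a + ord b
  lc_mul : ∀ {a b : L}, a ≠ 0 → b ≠ 0 → lc (a * b) = lc a * lc b
  lc_ne_zero : ∀ {a : L}, a ≠ 0 → lc a ≠ 0
  ord_algebraMap : ∀ {a : K}, a ≠ 0 → ord (algebraMap K L a) = 0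
  lc_algebraMap : ∀ {a : K}, a ≠ 0 → lc (algebraMap K L a) = algebraMap K C a
  add_of_lt : ∀ {a b : L}, a ≠ 0 → b ≠ 0 → ord a < ord b →
    ord (a + b) = ord a ∧ lc (a + b) = lc a
  sub_of_eq : ∀ {a b : L}, a ≠ 0 → b ≠ 0 → a ≠ b → ord a = ord b → lc a = lc b →
    ord a < ord (a - b)
  add_of_eq : ∀ {a b : L}, a ≠ 0 → b ≠ 0 → ord a = ord b → lc a + lc b ≠ 0 →
    ord (a + b) = ord a ∧ lc (a + b) = lc a + lc b

namespace LeadData

variable {K L C : Type*} [Field K] [Field L] [Field C] [Algebra K L] [Algebra K C]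
variable (D : LeadData K L C)

theorem ord_one : D.ord 1 = 0 := by
  have := D.ord_algebraMap (a := (1 : K)) one_ne_zero
  simpa using this

theorem lc_one : D.lc 1 = 1 := by
  have := D.lc_algebraMap (a := (1 : K)) one_ne_zero
  simpa using this

theorem ord_neg_one : D.ord (-1) = 0 := by
  have := D.ord_algebraMap (a := (-1 : K)) (by simp)
  simpa using this

theorem lc_neg_one : D.lc (-1) = -1 := by
  have := D.lc_algebraMap (a := (-1 : K)) (by simp)
  simpa using this

theorem ord_neg (a : L) : D.ord (-a) = D.ord a := by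
  rcases eq_or_ne a 0 with rfl | ha
  · simp
  · have := D.ord_mul (a := -1) (b := a) (by simp) ha
    simpa [D.ord_neg_one] using this

theorem lc_neg {a : L} (ha : a ≠ 0) : D.lc (-a) = -D.lc a := by
  have := D.lc_mul (a := -1) (b := a) (by simp) ha
  simpa [D.lc_neg_one] using this

theorem ord_inv {a : L} (ha : a ≠ 0) : D.ord a⁻¹ = -D.ord a := by
  have h := D.ord_mul ha (inv_ne_zero ha)
  rw [mul_inv_cancel₀ ha, D.ord_one] at h
  omega

theorem ord_pow {a : L} (ha : a ≠ 0) (n : ℕ) : D.ord (a ^ n) = n * D.ord a := by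
  induction n with
  | zero => simp [D.ord_one]
  | succ n ih =>
    rw [pow_succ, D.ord_mul (pow_ne_zero n ha) ha, ih]
    push_cast; ring

theorem lc_pow {a : L} (ha : a ≠ 0) (n : ℕ) : D.lc (a ^ n) = D.lc a ^ n := by
  induction n with
  | zero => simp [D.lc_one]
  | succ n ih =>
    rw [pow_succ, D.lc_mul (pow_ne_zero n ha) ha, ih, pow_succ]

theorem ord_zpow {a : L} (ha : a ≠ 0) (n : ℤ) : D.ord (a ^ n) = n * D.ord a := by
  cases n with
  | ofNat n => simpa using D.ord_pow ha n
  | negSucc n =>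
    rw [zpow_negSucc, D.ord_inv (pow_ne_zero _ ha), D.ord_pow ha]
    push_cast
    rw [Int.negSucc_eq]
    ring

/-- Ultrametric inequality. -/
theorem le_ord_add {a b : L} (ha : a ≠ 0) (hb : b ≠ 0) (hab : a + b ≠ 0) :
    min (D.ord a) (D.ord b) ≤ D.ord (a + b) := by
  rcases lt_trichotomy (D.ord a) (D.ord b) with h | h | h
  · rw [(D.add_of_lt ha hb h).1]; exact min_le_left _ _
  · by_contra hlt
    push Not at hlt
    rw [h, min_self] at hlt
    -- a = (a+b) + (-b), ord (a+b) < ord (-b)
    have h1 := D.add_of_lt hab (neg_ne_zero.mpr hb) (by rwa [D.ord_neg])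
    rw [add_neg_cancel_right] at h1
    omega
  · rw [add_comm, (D.add_of_lt hb ha h).1]; exact min_le_right _ _

theorem le_ord_sub {a b : L} (ha : a ≠ 0) (hb : b ≠ 0) (hab : a - b ≠ 0) :
    min (D.ord a) (D.ord b) ≤ D.ord (a - b) := by
  have := D.le_ord_add ha (neg_ne_zero.mpr hb) (by rwa [← sub_eq_add_neg])
  rwa [D.ord_neg, ← sub_eq_add_neg] at this

/-- If `b` is a small perturbation of `a`, it has the same order and leading coefficient. -/
theorem of_lt_ord_sub {a b : L} (ha : a ≠ 0) (hab : a ≠ b) (h : D.ord a < D.ord (b - a)) :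
    b ≠ 0 ∧ D.ord b = D.ord a ∧ D.lc b = D.lc a := by
  have hba : b - a ≠ 0 := sub_ne_zero.mpr (Ne.symm hab)
  have h1 := D.add_of_lt ha hba h
  rw [add_sub_cancel] at h1
  refine ⟨?_, h1.1, h1.2⟩
  rintro rfl
  rw [zero_sub, D.ord_neg] at h
  exact lt_irrefl _ h

/-- The "integers" of `L`: zero or nonnegative order. -/
def integers : Subalgebra K L where
  carrier := {a | a = 0 ∨ 0 ≤ D.ord a}
  mul_mem' := by
    rintro a b (rfl | ha) (rfl | hb)
    · simp
    · simp
    · simp
    · by_cases ha0 : a = 0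
      · simp [ha0]
      by_cases hb0 : b = 0
      · simp [hb0]
      right
      rw [D.ord_mul ha0 hb0]; omega
  add_mem' := by
    rintro a b ha hb
    by_cases ha0 : a = 0
    · simpa [ha0] using hb
    by_cases hb0 : b = 0
    · simpa [hb0] using ha
    by_cases hab : a + b = 0
    · left; exact hab
    right
    have := D.le_ord_add ha0 hb0 hab
    have ha' : 0 ≤ D.ord a := ha.resolve_left ha0
    have hb' : 0 ≤ D.ord b := hb.resolve_left hb0
    exact le_trans (le_min ha' hb') this
  algebraMap_mem' := by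
    intro r
    by_cases hr : r = 0
    · left; simp [hr]
    · right; rw [D.ord_algebraMap hr]

theorem mem_integers {a : L} : a ∈ D.integers ↔ a = 0 ∨ 0 ≤ D.ord a := Iff.rfl

/-- `GE n a`: `a` is zero or has order at least `n`. -/
def GE (n : ℤ) (a : L) : Prop := a = 0 ∨ n ≤ D.ord a

theorem GE_zero (n : ℤ) : D.GE n 0 := Or.inl rfl

theorem GE_of_ne_zero {n : ℤ} {a : L} (h : n ≤ D.ord a) : D.GE n a := Or.inr h

theorem GE.le_ord {n : ℤ} {a : L} (h : D.GE n a) (ha : a ≠ 0) : n ≤ D.ord a :=
  h.resolve_left ha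

theorem GE.mono {n n' : ℤ} {a : L} (h : D.GE n a) (hn : n' ≤ n) : D.GE n' a := by
  rcases h with h | h
  · exact Or.inl h
  · exact Or.inr (hn.trans h)

theorem GE.add {n : ℤ} {a b : L} (ha : D.GE n a) (hb : D.GE n b) : D.GE n (a + b) := by
  by_cases ha0 : a = 0
  · simpa [ha0] using hb
  by_cases hb0 : b = 0
  · simpa [hb0] using ha
  by_cases hab : a + b = 0
  · exact Or.inl hab
  right
  exact le_trans (le_min (ha.le_ord D ha0) (hb.le_ord D hb0)) (D.le_ord_add ha0 hb0 hab)

theorem GE.neg {n : ℤ} {a : L} (ha : D.GE n a) : D.GE n (-a) := by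
  rcases ha with h | h
  · left; simp [h]
  · right; rwa [D.ord_neg]

theorem GE.sub {n : ℤ} {a b : L} (ha : D.GE n a) (hb : D.GE n b) : D.GE n (a - b) := by
  rw [sub_eq_add_neg]; exact ha.add D (hb.neg D)

theorem GE.mul {n k : ℤ} {a b : L} (ha : D.GE n a) (hb : D.GE k b) : D.GE (n + k) (a * b) := by
  by_cases ha0 : a = 0
  · left; simp [ha0]
  by_cases hb0 : b = 0
  · left; simp [hb0]
  right
  rw [D.ord_mul ha0 hb0]
  exact add_le_add (ha.le_ord D ha0) (hb.le_ord D hb0)

theorem eq_zero_of_forall_GE {a : L} (h : ∀ n : ℤ, D.GE n a) : a = 0 := by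
  by_contra ha
  have := (h (D.ord a + 1)).le_ord D ha
  omega

theorem GE_zero_iff_mem_integers {a : L} : D.GE 0 a ↔ a ∈ D.integers := Iff.rfl

/-- Divided differences of polynomials with constant coefficients stay integral. -/
theorem exists_aeval_sub_eq_mul {p p' : L} (hp : D.GE 0 p) (hp' : D.GE 0 p')
    (P : Polynomial K) :
    ∃ Q : L, D.GE 0 Q ∧ Polynomial.aeval p' P - Polynomial.aeval p P = (p' - p) * Q := by
  let a : D.integers := ⟨p, hp⟩
  let a' : D.integers := ⟨p', hp'⟩
  obtain ⟨Q, hQ⟩ := Polynomial.sub_dvd_eval_sub a' a (P.map (algebraMap K D.integers))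
  refine ⟨(Q : L), Q.2, ?_⟩
  rw [Polynomial.eval_map_algebraMap, Polynomial.eval_map_algebraMap] at hQ
  have h := congrArg (Subtype.val) hQ
  simp only [AddSubgroupClass.coe_sub, MulMemClass.coe_mul, Polynomial.aeval_subalgebra_coe] at h
  exact h

theorem aeval_GE_zero {p : L} (hp : D.GE 0 p) (P : Polynomial K) :
    D.GE 0 (Polynomial.aeval p P) := by
  let a : D.integers := ⟨p, hp⟩
  have : (Polynomial.aeval p P) = ((Polynomial.aeval a P : D.integers) : L) := by
    rw [Polynomial.aeval_subalgebra_coe]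
  rw [this]
  exact (Polynomial.aeval a P : D.integers).2

/-- A sum of terms with the same order and the same leading coefficient (char. zero). -/
theorem ord_sum_of_same [CharZero C] {ι : Type*} (s : Finset ι) (hs : s.Nonempty) (t : ι → L)
    (n : ℤ) (c : C) (hc : c ≠ 0)
    (ht : ∀ i ∈ s, t i ≠ 0 ∧ D.ord (t i) = n ∧ D.lc (t i) = c) :
    (∑ i ∈ s, t i) ≠ 0 ∧ D.ord (∑ i ∈ s, t i) = n ∧ D.lc (∑ i ∈ s, t i) = (s.card : C) * c := by
  classical
  induction hs using Finset.Nonempty.cons_induction with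
  | singleton a =>
    have := ht a (Finset.mem_singleton_self a)
    simpa using this
  | cons a s ha hs ih =>
    have h1 := ht a (Finset.mem_cons_self a s)
    have h2 := ih (fun i hi => ht i (Finset.mem_cons_of_mem hi))
    rw [Finset.sum_cons, Finset.card_cons]
    have hsum : D.lc (t a) + D.lc (∑ i ∈ s, t i) ≠ 0 := by
      rw [h1.2.2, h2.2.2]
      have : c + (s.card : C) * c = ((s.card + 1 : ℕ) : C) * c := by push_cast; ring
      rw [this]
      exact mul_ne_zero (Nat.cast_ne_zero.mpr (Nat.succ_ne_zero _)) hc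
    have h3 := D.add_of_eq h1.1 h2.1 (by rw [h1.2.1, h2.2.1]) hsum
    refine ⟨?_, by rw [h3.1, h1.2.1], ?_⟩
    · intro h0
      have hneg : ∑ i ∈ s, t i = -(t a) := by
        rw [eq_neg_iff_add_eq_zero, add_comm]; exact h0
      apply hsum
      rw [hneg, D.lc_neg h1.1, add_neg_cancel]
    · rw [h3.2, h1.2.2, h2.2.2]; push_cast; ring

end LeadData

section Induced

variable {K F L C : Type*} [Field K] [Field F] [Algebra K F] [Field L] [Field C]
  [Algebra K L] [Algebra K C]
variable (D : LeadData K L C) (φ : F →ₐ[K] L)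

theorem phi_ne_zero {f : F} (hf : f ≠ 0) : φ f ≠ 0 := by
  intro h
  exact hf (φ.toRingHom.injective (by simpa using h))

/-- The valuation subring of `F` induced by the embedding `φ`. -/
def inducedValuationSubring : ValuationSubring F where
  toSubring := D.integers.toSubring.comap φ.toRingHom
  mem_or_inv_mem' := by
    intro f
    by_cases hf : f = 0
    · left
      show φ f ∈ D.integers
      simp [hf]
    have hφ := phi_ne_zero φ hf
    rcases le_total 0 (D.ord (φ f)) with h | h
    · left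
      exact Or.inr h
    · right
      show φ f⁻¹ ∈ D.integers
      refine Or.inr ?_
      rw [map_inv₀, D.ord_inv hφ]
      omega

theorem mem_inducedValuationSubring {f : F} :
    f ∈ inducedValuationSubring D φ ↔ f = 0 ∨ 0 ≤ D.ord (φ f) := by
  show φ f ∈ D.integers ↔ _
  rw [D.mem_integers]
  constructor
  · rintro (h | h)
    · left
      by_contra hf
      exact phi_ne_zero φ hf h
    · exact Or.inr h
  · rintro (h | h)
    · left; simp [h]
    · exact Or.inr h

theorem isUnit_inducedValuationSubring_iff (a : inducedValuationSubring D φ) :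
    IsUnit a ↔ (a : F) ≠ 0 ∧ D.ord (φ a) = 0 := by
  constructor
  · intro h
    obtain ⟨u, rfl⟩ := h
    have hu : ((u : inducedValuationSubring D φ) : F) ≠ 0 := by
      intro h0
      have : (u : inducedValuationSubring D φ) = 0 := Subtype.ext h0
      exact u.ne_zero this
    refine ⟨hu, ?_⟩
    have h1 := (mem_inducedValuationSubring D φ).mp (u : inducedValuationSubring D φ).2
    have h2 := (mem_inducedValuationSubring D φ).mp
      ((u⁻¹ : (inducedValuationSubring D φ)ˣ) : inducedValuationSubring D φ).2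
    have hinv : (((u⁻¹ : (inducedValuationSubring D φ)ˣ) : inducedValuationSubring D φ) : F)
        = ((u : inducedValuationSubring D φ) : F)⁻¹ := by
      have : ((u : inducedValuationSubring D φ) : F) *
          (((u⁻¹ : (inducedValuationSubring D φ)ˣ) : inducedValuationSubring D φ) : F) = 1 := by
        have h := congrArg (Subtype.val) u.mul_inv
        rw [MulMemClass.coe_mul] at h
        exact h
      exact eq_inv_of_mul_eq_one_right this
    rw [hinv] at h2
    have h1' := h1.resolve_left hu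
    have h2' := h2.resolve_left (inv_ne_zero hu)
    rw [map_inv₀, D.ord_inv (phi_ne_zero φ hu)] at h2'
    omega
  · rintro ⟨h0, h1⟩
    have hinv : (a : F)⁻¹ ∈ inducedValuationSubring D φ := by
      rw [mem_inducedValuationSubring]
      right
      rw [map_inv₀, D.ord_inv (phi_ne_zero φ h0), h1]; simp
    refine ⟨⟨a, ⟨(a : F)⁻¹, hinv⟩, ?_, ?_⟩, rfl⟩
    · ext; simp [mul_inv_cancel₀ h0]
    · ext; simp [inv_mul_cancel₀ h0]

theorem isPrincipalIdealRing_induced :
    IsPrincipalIdealRing (inducedValuationSubring D φ) := by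
  classical
  refine ⟨fun I => ?_⟩
  by_cases hI : I = ⊥
  · rw [hI]; exact bot_isPrincipal
  -- nonzero element
  obtain ⟨x, hxI, hx0⟩ := Submodule.exists_mem_ne_zero_of_ne_bot hI
  -- the set of attained orders
  let S : Set ℕ := {n | ∃ f : inducedValuationSubring D φ, f ∈ I ∧ f ≠ 0 ∧ (D.ord (φ f)).toNat = n}
  have hS : S.Nonempty := ⟨_, x, hxI, hx0, rfl⟩
  obtain ⟨f₀, hf₀I, hf₀0, hf₀⟩ := Nat.sInf_mem hS
  have hmin : ∀ f : inducedValuationSubring D φ, f ∈ I → f ≠ 0 →
      D.ord (φ f₀) ≤ D.ord (φ f) := by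
    intro f hfI hf0
    have h1 : sInf S ≤ (D.ord (φ f)).toNat := Nat.sInf_le ⟨f, hfI, hf0, rfl⟩
    rw [← hf₀] at h1
    have hf0' : (f : F) ≠ 0 := fun h => hf0 (Subtype.ext h)
    have hf₀0' : (f₀ : F) ≠ 0 := fun h => hf₀0 (Subtype.ext h)
    have h2 := ((mem_inducedValuationSubring D φ).mp f.2).resolve_left hf0'
    have h3 := ((mem_inducedValuationSubring D φ).mp f₀.2).resolve_left hf₀0'
    omega
  refine ⟨f₀, le_antisymm ?_ ?_⟩
  · intro f hfI
    by_cases hf0 : f = 0
    · rw [hf0]; exact Submodule.zero_mem _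
    have hf0' : (f : F) ≠ 0 := fun h => hf0 (Subtype.ext h)
    have hf₀0' : (f₀ : F) ≠ 0 := fun h => hf₀0 (Subtype.ext h)
    have hq : (f : F) / (f₀ : F) ∈ inducedValuationSubring D φ := by
      rw [mem_inducedValuationSubring]
      right
      rw [map_div₀, div_eq_mul_inv, D.ord_mul (phi_ne_zero φ hf0')
        (inv_ne_zero (phi_ne_zero φ hf₀0')), D.ord_inv (phi_ne_zero φ hf₀0')]
      have := hmin f hfI hf0
      omega
    rw [Submodule.mem_span_singleton]
    refine ⟨⟨_, hq⟩, ?_⟩
    ext
    simp only [smul_eq_mul, MulMemClass.coe_mul]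
    field_simp
  · rw [Submodule.span_le]
    intro y hy
    rw [Set.mem_singleton_iff] at hy
    rw [hy]; exact hf₀I

/-- The place of `F` induced by the embedding `φ`, provided `ord ∘ φ` is nontrivial. -/
def inducedPlace (hnt : ∃ f : F, f ≠ 0 ∧ D.ord (φ f) ≠ 0) : Place K F where
  toValuationSubring := inducedValuationSubring D φ
  algebraMap_mem' := by
    intro a
    show φ (algebraMap K F a) ∈ D.integers
    rw [φ.commutes]
    exact D.integers.algebraMap_mem a
  ne_top' := by
    obtain ⟨f, hf0, hf⟩ := hnt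
    intro htop
    have h1 : f ∈ inducedValuationSubring D φ := by rw [htop]; exact ValuationSubring.mem_top f
    have h2 : f⁻¹ ∈ inducedValuationSubring D φ := by rw [htop]; exact ValuationSubring.mem_top _
    rw [mem_inducedValuationSubring] at h1 h2
    have h1' := h1.resolve_left hf0
    have h2' := h2.resolve_left (inv_ne_zero hf0)
    rw [map_inv₀, D.ord_inv (phi_ne_zero φ hf0)] at h2'
    omega
  isPrincipalIdealRing' := isPrincipalIdealRing_induced D φ

@[simp]
theorem inducedPlace_toValuationSubring (hnt : ∃ f : F, f ≠ 0 ∧ D.ord (φ f) ≠ 0) :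
    (inducedPlace D φ hnt).toValuationSubring = inducedValuationSubring D φ := rfl

/-- `ord ∘ φ` is a positive multiple of the order function of the induced place. -/
theorem exists_ord_eq_mul (hnt : ∃ f : F, f ≠ 0 ∧ D.ord (φ f) ≠ 0) :
    ∃ m : ℤ, 0 < m ∧ ∀ f : F, f ≠ 0 → D.ord (φ f) = m * (inducedPlace D φ hnt).ord f := by
  set v := inducedPlace D φ hnt with hv
  obtain ⟨π, hπ⟩ := IsDiscreteValuationRing.exists_irreducible v.toValuationSubring
  have hπ0 : (π : F) ≠ 0 := fun h => hπ.ne_zero (Subtype.ext h)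
  have hπmem := ((mem_inducedValuationSubring D φ).mp π.2).resolve_left hπ0
  refine ⟨D.ord (φ π), ?_, ?_⟩
  · rcases hπmem.lt_or_eq with h | h
    · exact h
    · exfalso
      exact hπ.not_isUnit ((isUnit_inducedValuationSubring_iff D φ π).mpr ⟨hπ0, h.symm⟩)
  · intro f hf
    obtain ⟨u, hu⟩ := v.exists_unit_mul_zpow hf hπ
    have hu' := (isUnit_inducedValuationSubring_iff D φ (u : v.toValuationSubring)).mp u.isUnit
    conv_lhs => rw [hu]
    rw [map_mul, map_zpow₀, D.ord_mul (phi_ne_zero φ hu'.1) (zpow_ne_zero _ (phi_ne_zero φ hπ0)),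
      D.ord_zpow (phi_ne_zero φ hπ0), hu'.2, zero_add, mul_comm]

end Induced

section PlaceBasics

variable {K F : Type*} [Field K] [Field F] [Algebra K F] (v : Place K F)

theorem ord_nonneg_of_mem {f : F} (hf : f ∈ v.toValuationSubring) : 0 ≤ v.ord f := by
  obtain ⟨π, hπ⟩ := IsDiscreteValuationRing.exists_irreducible v.toValuationSubring
  by_cases h0 : (⟨f, hf⟩ : v.toValuationSubring) = 0
  · have : f = 0 := congrArg Subtype.val h0
    simp [this]
  obtain ⟨n, u, hu⟩ := IsDiscreteValuationRing.eq_unit_mul_pow_irreducible h0 hπ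
  have hf' : f = ((u : v.toValuationSubring) : F) * (π : F) ^ (n : ℤ) := by
    have := congrArg Subtype.val hu
    simpa using this
  rw [hf', v.ord_unit_smul_zpow u hπ]
  exact Int.natCast_nonneg n

theorem mem_of_ord_nonneg {f : F} (hf : 0 ≤ v.ord f) : f ∈ v.toValuationSubring := by
  by_cases h0 : f = 0
  · rw [h0]; exact zero_mem _
  obtain ⟨π, hπ⟩ := IsDiscreteValuationRing.exists_irreducible v.toValuationSubring
  obtain ⟨u, hu⟩ := v.exists_unit_mul_zpow h0 hπ
  rw [hu]
  obtain ⟨n, hn⟩ := Int.eq_ofNat_of_zero_le hf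
  rw [hn, zpow_natCast]
  exact mul_mem (u : v.toValuationSubring).2 (pow_mem π.2 n)

theorem exists_ord_eq_one : ∃ π : F, v.ord π = 1 := by
  obtain ⟨π, hπ⟩ := IsDiscreteValuationRing.exists_irreducible v.toValuationSubring
  exact ⟨π, v.ord_coe_irreducible hπ⟩

theorem ne_zero_of_ord_ne_zero {f : F} (h : v.ord f ≠ 0) : f ≠ 0 := by
  rintro rfl
  exact h v.ord_zero

theorem ord_pow' (f : F) (n : ℕ) : v.ord (f ^ n) = n * v.ord f := by
  have := v.ord_zpow f (n : ℤ)
  rwa [zpow_natCast] at this

theorem ord_div' {f g : F} (hf : f ≠ 0) (hg : g ≠ 0) : v.ord (f / g) = v.ord f - v.ord g := by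
  rw [div_eq_mul_inv, v.ord_mul hf (inv_ne_zero hg), v.ord_inv]; ring

/-- Residue field equal to the constants, in elementary form. -/
def ResidueTrivial : Prop :=
  ∀ f ∈ v.toValuationSubring, ∃ a : K, f = algebraMap K F a ∨ 0 < v.ord (f - algebraMap K F a)

/-- Truncated expansions in a uniformizer. -/
theorem exists_approx (hres : ResidueTrivial v) {π : F} (hπ : v.ord π = 1) {f : F}
    (hf : f ∈ v.toValuationSubring) (r : ℕ) :
    ∃ P : Polynomial K, ∃ h ∈ v.toValuationSubring, f = Polynomial.aeval π P + π ^ r * h := by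
  have hπ0 : π ≠ 0 := ne_zero_of_ord_ne_zero v (by rw [hπ]; exact one_ne_zero)
  induction r with
  | zero => exact ⟨0, f, hf, by simp⟩
  | succ r ih =>
    obtain ⟨P, h, hh, hfP⟩ := ih
    obtain ⟨a, ha | ha⟩ := hres h hh
    · refine ⟨P + Polynomial.C a * Polynomial.X ^ r, 0, zero_mem _, ?_⟩
      rw [hfP, ha]
      simp only [map_add, map_mul, Polynomial.aeval_C, map_pow, Polynomial.aeval_X, mul_zero,
        add_zero]
      ring
    · have hne : h - algebraMap K F a ≠ 0 := ne_zero_of_ord_ne_zero v (ne_of_gt ha)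
      refine ⟨P + Polynomial.C a * Polynomial.X ^ r, (h - algebraMap K F a) / π, ?_, ?_⟩
      · apply mem_of_ord_nonneg
        rw [ord_div' v hne hπ0, hπ]
        omega
      · rw [hfP]
        simp only [map_add, map_mul, Polynomial.aeval_C, map_pow, Polynomial.aeval_X]
        field_simp
        ring

end PlaceBasics

section Rigidity

variable {K F L C : Type*} [Field K] [Field F] [Algebra K F] [Field L] [Field C]
  [Algebra K L] [Algebra K C]
variable (D : LeadData K L C) (v : Place K F)

theorem GE_phi_of_mem {φ : F →ₐ[K] L} {m : ℤ} (hm : 0 < m)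
    (hφ : ∀ f : F, f ≠ 0 → D.ord (φ f) = m * v.ord f) {h : F}
    (hh : h ∈ v.toValuationSubring) : D.GE 0 (φ h) := by
  by_cases h0 : h = 0
  · left; simp [h0]
  right
  rw [hφ h h0]
  exact mul_nonneg hm.le (ord_nonneg_of_mem v hh)

/-- Two embeddings inducing the same place with the same multiplier, agreeing on an element
of positive order, and whose values on a uniformizer have the same leading coefficient,
agree on that uniformizer. -/
theorem phi_uniformizer_eq [CharZero C] (hres : ResidueTrivial v)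
    (φ φ' : F →ₐ[K] L) {m : ℤ} (hm : 0 < m)
    (hφ : ∀ f : F, f ≠ 0 → D.ord (φ f) = m * v.ord f)
    (hφ' : ∀ f : F, f ≠ 0 → D.ord (φ' f) = m * v.ord f)
    {π : F} (hπ : v.ord π = 1) (hlc : D.lc (φ π) = D.lc (φ' π))
    {y : F} {e : ℕ} (he : 0 < e) (hy : v.ord y = e) (hyy : φ y = φ' y) :
    φ π = φ' π := by
  by_contra hne
  have hπ0 : π ≠ 0 := ne_zero_of_ord_ne_zero v (by rw [hπ]; exact one_ne_zero)
  have hy0 : y ≠ 0 := ne_zero_of_ord_ne_zero v (by rw [hy]; exact_mod_cast he.ne')
  set p := φ π with hp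
  set p' := φ' π with hp'
  have hp0 : p ≠ 0 := phi_ne_zero φ hπ0
  have hp'0 : p' ≠ 0 := phi_ne_zero φ' hπ0
  have hordp : D.ord p = m := by rw [hp, hφ π hπ0, hπ, mul_one]
  have hordp' : D.ord p' = m := by rw [hp', hφ' π hπ0, hπ, mul_one]
  set δ := p' - p with hδ
  have hδ0 : δ ≠ 0 := sub_ne_zero.mpr (Ne.symm hne)
  have hs : m < D.ord δ := by
    have := D.sub_of_eq hp'0 hp0 (Ne.symm hne) (by rw [hordp, hordp']) hlc.symm
    rwa [hordp'] at this
  set s := D.ord δ with hs_def
  -- the unit u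
  set u := y / π ^ e with hu
  have hu0 : u ≠ 0 := div_ne_zero hy0 (pow_ne_zero _ hπ0)
  have hordu : v.ord u = 0 := by
    rw [hu, ord_div' v hy0 (pow_ne_zero _ hπ0), ord_pow', hπ, hy]; ring
  have humem : u ∈ v.toValuationSubring := mem_of_ord_nonneg v (by rw [hordu])
  have hyu : y = u * π ^ e := by rw [hu]; field_simp
  -- approximation
  set r : ℕ := s.toNat + 1 with hr
  obtain ⟨P, h, hh, huP⟩ := exists_approx v hres hπ humem r
  have hφu : φ u = Polynomial.aeval p P + p ^ r * φ h := by
    rw [huP, map_add, map_mul, map_pow, Polynomial.aeval_algHom_apply]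
  have hφ'u : φ' u = Polynomial.aeval p' P + p' ^ r * φ' h := by
    rw [huP, map_add, map_mul, map_pow, Polynomial.aeval_algHom_apply]
  have hpGE : D.GE 0 p := D.GE_of_ne_zero (by rw [hordp]; exact hm.le)
  have hp'GE : D.GE 0 p' := D.GE_of_ne_zero (by rw [hordp']; exact hm.le)
  obtain ⟨Q, hQ, hQeq⟩ := D.exists_aeval_sub_eq_mul hpGE hp'GE P
  set E := p' ^ r * φ' h - p ^ r * φ h with hE
  have hEGE : D.GE (m * r) E := by
    have h1 : D.GE (m * r) (p ^ r) := D.GE_of_ne_zero (by rw [D.ord_pow hp0, hordp, mul_comm])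
    have h2 : D.GE (m * r) (p' ^ r) := D.GE_of_ne_zero (by rw [D.ord_pow hp'0, hordp', mul_comm])
    have h3 := (h2.mul D (GE_phi_of_mem D v hm hφ' hh))
    have h4 := (h1.mul D (GE_phi_of_mem D v hm hφ hh))
    rw [add_zero] at h3 h4
    exact h3.sub D h4
  have hdiff : φ' u - φ u = δ * Q + E := by
    rw [hφu, hφ'u, hE, ← hQeq]; ring
  -- the geometric sum
  set T := ∑ i ∈ Finset.range e, p' ^ i * p ^ (e - 1 - i) with hT
  have hTδ : T * δ = p' ^ e - p ^ e := geom_sum₂_mul p' p e
  have hTprop := D.ord_sum_of_same (Finset.range e) (Finset.nonempty_range_iff.mpr he.ne')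
    (fun i => p' ^ i * p ^ (e - 1 - i)) (m * (e - 1 : ℤ)) (D.lc p ^ (e - 1))
    (pow_ne_zero _ (D.lc_ne_zero hp0)) (by
      intro i hi
      have hi' : i < e := Finset.mem_range.mp hi
      have h1 : p' ^ i ≠ 0 := pow_ne_zero _ hp'0
      have h2 : p ^ (e - 1 - i) ≠ 0 := pow_ne_zero _ hp0
      refine ⟨mul_ne_zero h1 h2, ?_, ?_⟩
      · rw [D.ord_mul h1 h2, D.ord_pow hp'0, D.ord_pow hp0, hordp, hordp']
        have : ((e - 1 - i : ℕ) : ℤ) = (e : ℤ) - 1 - i := by omega
        rw [this]; ring
      · rw [D.lc_mul h1 h2, D.lc_pow hp'0, D.lc_pow hp0, ← hlc, ← pow_add]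
        congr 1; omega)
  have hT0 : T ≠ 0 := hTprop.1
  have hTord : D.ord T = m * (e - 1 : ℤ) := hTprop.2.1
  -- main identity
  have hφ'u0 : φ' u ≠ 0 := phi_ne_zero φ' hu0
  have hordφ'u : D.ord (φ' u) = 0 := by rw [hφ' u hu0, hordu, mul_zero]
  set B := φ' u * T + Q * p ^ e with hB
  have hmain : δ * B + E * p ^ e = 0 := by
    have h1 : φ' y - φ y = 0 := by rw [hyy, sub_self]
    rw [hyu, map_mul, map_mul, map_pow, map_pow] at h1
    have h2 : φ' u * p' ^ e - φ u * p ^ e
        = φ' u * (p' ^ e - p ^ e) + (φ' u - φ u) * p ^ e := by ring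
    rw [h2, ← hTδ, hdiff] at h1
    rw [hB, ← h1]; ring
  have hB0 : B ≠ 0 ∧ D.ord B = m * (e - 1 : ℤ) := by
    have h1 : φ' u * T ≠ 0 := mul_ne_zero hφ'u0 hT0
    have h2 : D.ord (φ' u * T) = m * (e - 1 : ℤ) := by
      rw [D.ord_mul hφ'u0 hT0, hordφ'u, hTord, zero_add]
    by_cases hQ0 : Q * p ^ e = 0
    · rw [hB, hQ0, add_zero]; exact ⟨h1, h2⟩
    · have h3 : D.ord (φ' u * T) < D.ord (Q * p ^ e) := by
        have hQ' : Q ≠ 0 := left_ne_zero_of_mul hQ0
        rw [h2, D.ord_mul hQ' (pow_ne_zero _ hp0), D.ord_pow hp0, hordp]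
        have := hQ.le_ord D hQ'
        nlinarith
      have h4 := D.add_of_lt h1 hQ0 h3
      refine ⟨?_, by rw [hB, h4.1, h2]⟩
      intro hB'
      rw [hB] at hB'
      have : D.ord (φ' u * T + Q * p ^ e) = D.ord (φ' u * T) := h4.1
      -- B = 0 means φ'u*T = -(Q p^e), orders equal, contradiction
      have h5 : φ' u * T = -(Q * p ^ e) := eq_neg_of_add_eq_zero_left hB'
      rw [h5, D.ord_neg] at h3
      exact lt_irrefl _ h3
  have hδB : δ * B ≠ 0 := mul_ne_zero hδ0 hB0.1
  have hordδB : D.ord (δ * B) = s + m * (e - 1 : ℤ) := by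
    rw [D.ord_mul hδ0 hB0.1, hB0.2]
  have hEp : E * p ^ e = -(δ * B) := eq_neg_of_add_eq_zero_right hmain
  have hE0 : E ≠ 0 := by
    rintro h0
    rw [h0, zero_mul] at hEp
    exact hδB (neg_eq_zero.mp hEp.symm)
  have hordE := hEGE.le_ord D hE0
  have hfinal : D.ord (E * p ^ e) = s + m * (e - 1 : ℤ) := by
    rw [hEp, D.ord_neg, hordδB]
  rw [D.ord_mul hE0 (pow_ne_zero _ hp0), D.ord_pow hp0, hordp] at hfinal
  have hs0 : 0 < s := hm.trans hs
  have hrs : (r : ℤ) = s + 1 := by
    rw [hr]; push_cast; rw [Int.toNat_of_nonneg hs0.le]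
  have hmr : (r : ℤ) ≤ m * r := by nlinarith
  nlinarith

/-- Two embeddings inducing the same place with the same multiplier and agreeing on a
uniformizer are equal. -/
theorem phi_eq_of_uniformizer_eq (hres : ResidueTrivial v)
    (φ φ' : F →ₐ[K] L) {m : ℤ} (hm : 0 < m)
    (hφ : ∀ f : F, f ≠ 0 → D.ord (φ f) = m * v.ord f)
    (hφ' : ∀ f : F, f ≠ 0 → D.ord (φ' f) = m * v.ord f)
    {π : F} (hπ : v.ord π = 1) (hπeq : φ π = φ' π) : φ = φ' := by
  have hπ0 : π ≠ 0 := ne_zero_of_ord_ne_zero v (by rw [hπ]; exact one_ne_zero)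
  have hp0 : φ π ≠ 0 := phi_ne_zero φ hπ0
  have hordp : D.ord (φ π) = m := by rw [hφ π hπ0, hπ, mul_one]
  have key : ∀ f ∈ v.toValuationSubring, φ f = φ' f := by
    intro f hf
    rw [← sub_eq_zero]
    apply D.eq_zero_of_forall_GE
    intro n
    obtain ⟨P, h, hh, hfP⟩ := exists_approx v hres hπ hf n.toNat
    have h1 : φ f - φ' f = φ π ^ n.toNat * (φ h - φ' h) := by
      rw [hfP, map_add, map_add, map_mul, map_mul, map_pow, map_pow,
        ← Polynomial.aeval_algHom_apply, ← Polynomial.aeval_algHom_apply, ← hπeq]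
      ring
    rw [h1]
    have h2 : D.GE (m * n.toNat) (φ π ^ n.toNat) :=
      D.GE_of_ne_zero (by rw [D.ord_pow hp0, hordp, mul_comm])
    have h3 := h2.mul D ((GE_phi_of_mem D v hm hφ hh).sub D (GE_phi_of_mem D v hm hφ' hh))
    refine h3.mono D ?_
    have : n ≤ (n.toNat : ℤ) := Int.self_le_toNat n
    have h4 : (0 : ℤ) ≤ n.toNat := Int.natCast_nonneg _
    nlinarith
  apply AlgHom.ext
  intro f
  rcases v.toValuationSubring.mem_or_inv_mem f with hf | hf
  · exact key f hf
  · have := key _ hf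
    rw [map_inv₀, map_inv₀] at this
    exact inv_injective this

end Rigidity

section Counting

variable {K F L C : Type*} [Field K] [Field F] [Algebra K F] [Field L] [Field C]
  [Algebra K L] [Algebra K C]
variable {I : Type*}

/-- A family of pairwise distinct embeddings sending `y` to the same element `g` of positive
order `k`. -/
structure EmbData (D : LeadData K L C) (φ : I → F →ₐ[K] L) (y : F) (g : L) (k : ℕ) : Prop where
  inj : Function.Injective φ
  y_ne : y ≠ 0
  map_y : ∀ i, φ i y = g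
  k_pos : 0 < k
  ord_g : D.ord g = k

namespace EmbData

variable {D : LeadData K L C} {φ : I → F →ₐ[K] L} {y : F} {g : L} {k : ℕ}
variable (h : EmbData D φ y g k)
include h

theorem nontrivial (i : I) : ∃ f : F, f ≠ 0 ∧ D.ord (φ i f) ≠ 0 :=
  ⟨y, h.y_ne, by rw [h.map_y, h.ord_g]; exact_mod_cast h.k_pos.ne'⟩

/-- The place induced by the `i`-th embedding. -/
def place (i : I) : Place K F := inducedPlace D (φ i) (h.nontrivial i)

/-- The multiplier of the `i`-th embedding. -/
def mult (i : I) : ℤ := (exists_ord_eq_mul D (φ i) (h.nontrivial i)).choose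

theorem mult_pos (i : I) : 0 < h.mult i :=
  (exists_ord_eq_mul D (φ i) (h.nontrivial i)).choose_spec.1

theorem ord_eq (i : I) {f : F} (hf : f ≠ 0) :
    D.ord (φ i f) = h.mult i * (h.place i).ord f :=
  (exists_ord_eq_mul D (φ i) (h.nontrivial i)).choose_spec.2 f hf

theorem mult_mul_ord_y (i : I) : h.mult i * (h.place i).ord y = k := by
  rw [← h.ord_eq i h.y_ne, h.map_y, h.ord_g]

theorem ord_y_pos (i : I) : 0 < (h.place i).ord y := by
  have h1 := h.mult_mul_ord_y i
  have h2 := h.mult_pos i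
  have h3 : (0 : ℤ) < k := by exact_mod_cast h.k_pos
  rw [← h1] at h3
  exact (mul_pos_iff_of_pos_left h2).mp h3

open scoped Classical in
/-- The fibre of `i ↦ place i` over a place `v` with `ord_v y = e` has at most `e` elements. -/
theorem card_fiber_le [Fintype I] [CharZero C] (v : Place K F) (hv : 0 < v.ord y)
    (hres : ResidueTrivial v) :
    ((Finset.univ.filter (fun i => h.place i = v)).card : ℤ) ≤ v.ord y := by
  obtain ⟨e, he⟩ := Int.eq_ofNat_of_zero_le hv.le
  have he0 : 0 < e := by rw [he] at hv; exact_mod_cast hv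
  obtain ⟨π, hπ⟩ := exists_ord_eq_one v
  have hπ0 : π ≠ 0 := ne_zero_of_ord_ne_zero v (by rw [hπ]; exact one_ne_zero)
  have hy0 := h.y_ne
  set u := y / π ^ e with hu
  have hu0 : u ≠ 0 := div_ne_zero hy0 (pow_ne_zero _ hπ0)
  have hordu : v.ord u = 0 := by
    rw [hu, ord_div' v hy0 (pow_ne_zero _ hπ0), ord_pow', hπ, he]; ring
  have humem : u ∈ v.toValuationSubring := mem_of_ord_nonneg v (by rw [hordu])
  have hyu : y = u * π ^ e := by rw [hu]; field_simp
  obtain ⟨a, ha⟩ := hres u humem
  have ha0 : a ≠ 0 := by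
    rintro rfl
    rw [map_zero, sub_zero, hordu] at ha
    rcases ha with ha | ha
    · exact hu0 ha
    · exact lt_irrefl _ ha
  -- facts for i in the fibre
  have hfib : ∀ i, h.place i = v →
      (∀ f : F, f ≠ 0 → D.ord (φ i f) = h.mult i * v.ord f) := by
    intro i hi f hf
    rw [← hi]; exact h.ord_eq i hf
  have hmul : ∀ i, h.place i = v → h.mult i * e = k := by
    intro i hi
    have := h.mult_mul_ord_y i
    rwa [hi, he] at this
  have hlcu : ∀ i, h.place i = v → D.lc (φ i u) = algebraMap K C a := by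
    intro i hi
    rcases ha with ha | ha
    · rw [ha, (φ i).commutes, D.lc_algebraMap ha0]
    · have hne : u - algebraMap K F a ≠ 0 := ne_zero_of_ord_ne_zero v (ne_of_gt ha)
      have h1 : φ i u = algebraMap K L a + φ i (u - algebraMap K F a) := by
        rw [map_sub, (φ i).commutes]; ring
      have h2 : D.ord (algebraMap K L a) < D.ord (φ i (u - algebraMap K F a)) := by
        rw [D.ord_algebraMap ha0, hfib i hi _ hne]
        exact mul_pos (h.mult_pos i) ha
      have h3 := D.add_of_lt ((map_ne_zero _).mpr ha0) (phi_ne_zero (φ i) hne) h2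
      rw [h1, h3.2, D.lc_algebraMap ha0]
  have hlcg : ∀ i, h.place i = v → D.lc (φ i π) ^ e = D.lc g / algebraMap K C a := by
    intro i hi
    have h1 : g = φ i u * φ i π ^ e := by
      rw [← h.map_y i, hyu, map_mul, map_pow]
    have h2 : D.lc g = algebraMap K C a * D.lc (φ i π) ^ e := by
      rw [h1, D.lc_mul (phi_ne_zero _ hu0) (pow_ne_zero _ (phi_ne_zero _ hπ0)), hlcu i hi,
        D.lc_pow (phi_ne_zero _ hπ0)]
    rw [h2]
    have : algebraMap K C a ≠ 0 := (map_ne_zero _).mpr ha0
    field_simp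
  have hinj : Set.InjOn (fun i => D.lc (φ i π))
      ((Finset.univ.filter (fun i => h.place i = v) : Finset I) : Set I) := by
    intro i hi j hj hij
    simp only [Finset.coe_filter, Finset.mem_univ, true_and, Set.mem_ofPred_eq] at hi hj
    have hmij : h.mult i = h.mult j := by
      have h1 := hmul i hi
      have h2 := hmul j hj
      have he' : (e : ℤ) ≠ 0 := by exact_mod_cast he0.ne'
      exact mul_right_cancel₀ he' (h1.trans h2.symm)
    have hφj : ∀ f : F, f ≠ 0 → D.ord (φ j f) = h.mult i * v.ord f := by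
      rw [hmij]; exact hfib j hj
    have hπeq := phi_uniformizer_eq D v hres (φ i) (φ j) (h.mult_pos i) (hfib i hi) hφj hπ hij
      he0 he (by rw [h.map_y, h.map_y])
    have := phi_eq_of_uniformizer_eq D v hres (φ i) (φ j) (h.mult_pos i) (hfib i hi) hφj hπ hπeq
    exact h.inj this
  have hmaps : ∀ i ∈ (Finset.univ.filter (fun i => h.place i = v) : Finset I),
      (fun i => D.lc (φ i π)) i ∈ Polynomial.nthRootsFinset e (D.lc g / algebraMap K C a) := by
    intro i hi
    simp only [Finset.mem_filter, Finset.mem_univ, true_and] at hi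
    rw [Polynomial.mem_nthRootsFinset he0]
    exact hlcg i hi
  have h1 := Finset.card_le_card_of_injOn _ hmaps hinj
  have h2 : (Polynomial.nthRootsFinset e (D.lc g / algebraMap K C a)).card ≤ e := by
    rw [Polynomial.nthRootsFinset_def]
    exact (Multiset.toFinset_card_le _).trans (Polynomial.card_nthRoots e _)
  rw [he]
  exact_mod_cast h1.trans h2

open scoped Classical in
/-- If the total multiplicity of the zeros of `y` is at most the number of embeddings, then
every fibre has exactly `ord_v y` elements. -/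
theorem card_fiber_eq [Fintype I] [CharZero C] (hfin : {v : Place K F | 0 < v.ord y}.Finite)
    (hres : ∀ v : Place K F, 0 < v.ord y → ResidueTrivial v)
    (hsum : ∑ v ∈ hfin.toFinset, v.ord y ≤ (Fintype.card I : ℤ)) :
    ∀ v : Place K F, 0 < v.ord y →
      ((Finset.univ.filter (fun i => h.place i = v)).card : ℤ) = v.ord y := by
  have hmaps : ((Finset.univ : Finset I) : Set I).MapsTo h.place hfin.toFinset := by
    intro i _
    simp only [Set.Finite.coe_toFinset, Set.mem_ofPred_eq]
    exact h.ord_y_pos i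
  have hcard := Finset.card_eq_sum_card_fiberwise hmaps
  rw [Finset.card_univ] at hcard
  have hle : ∀ v ∈ hfin.toFinset,
      ((Finset.univ.filter (fun i => h.place i = v)).card : ℤ) ≤ v.ord y := by
    intro v hv
    have hv' : 0 < v.ord y := by simpa using hv
    exact h.card_fiber_le v hv' (hres v hv')
  have hsumeq : ∑ v ∈ hfin.toFinset, ((Finset.univ.filter (fun i => h.place i = v)).card : ℤ)
      = ∑ v ∈ hfin.toFinset, v.ord y := by
    apply le_antisymm (Finset.sum_le_sum hle)
    calc ∑ v ∈ hfin.toFinset, v.ord y ≤ (Fintype.card I : ℤ) := hsum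
      _ = _ := by rw [hcard]; push_cast; rfl
  intro v hv
  exact (Finset.sum_eq_sum_iff_of_le hle).mp hsumeq v (by simpa using hv)

/-- Under the hypotheses of `card_fiber_eq`, the total multiplicity equals the number of
embeddings. -/
theorem sum_ord_eq_card [Fintype I] [CharZero C] (hfin : {v : Place K F | 0 < v.ord y}.Finite)
    (hres : ∀ v : Place K F, 0 < v.ord y → ResidueTrivial v)
    (hsum : ∑ v ∈ hfin.toFinset, v.ord y ≤ (Fintype.card I : ℤ)) :
    ∑ v ∈ hfin.toFinset, v.ord y = (Fintype.card I : ℤ) := by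
  classical
  have hmaps : ((Finset.univ : Finset I) : Set I).MapsTo h.place hfin.toFinset := by
    intro i _
    simp only [Set.Finite.coe_toFinset, Set.mem_ofPred_eq]
    exact h.ord_y_pos i
  have hcard := Finset.card_eq_sum_card_fiberwise hmaps
  rw [Finset.card_univ] at hcard
  rw [hcard]
  push_cast
  refine (Finset.sum_congr rfl fun v hv => ?_).symm
  exact h.card_fiber_eq hfin hres hsum v (by simpa using hv)

/-- Every zero of `y` is induced by one of the embeddings. -/
theorem exists_place_eq [Fintype I] [CharZero C] (hfin : {v : Place K F | 0 < v.ord y}.Finite)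
    (hres : ∀ v : Place K F, 0 < v.ord y → ResidueTrivial v)
    (hsum : ∑ v ∈ hfin.toFinset, v.ord y ≤ (Fintype.card I : ℤ))
    (v : Place K F) (hv : 0 < v.ord y) : ∃ i, h.place i = v := by
  classical
  have h1 := h.card_fiber_eq hfin hres hsum v hv
  have h2 : 0 < (Finset.univ.filter (fun i => h.place i = v)).card := by
    have : (0 : ℤ) < ((Finset.univ.filter (fun i => h.place i = v)).card : ℤ) := by
      rw [h1]; exact hv
    exact_mod_cast this
  obtain ⟨i, hi⟩ := Finset.card_pos.mp h2
  exact ⟨i, by simpa using hi⟩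

/-- If `k = 1`, every zero of `y` is simple. -/
theorem ord_eq_one_of_k_eq_one [Fintype I] [CharZero C]
    (hfin : {v : Place K F | 0 < v.ord y}.Finite)
    (hres : ∀ v : Place K F, 0 < v.ord y → ResidueTrivial v)
    (hsum : ∑ v ∈ hfin.toFinset, v.ord y ≤ (Fintype.card I : ℤ)) (hk : k = 1)
    (v : Place K F) (hv : 0 < v.ord y) : v.ord y = 1 := by
  obtain ⟨i, rfl⟩ := h.exists_place_eq hfin hres hsum v hv
  have h1 := h.mult_mul_ord_y i
  have h2 : ((k : ℕ) : ℤ) = 1 := by rw [hk]; rfl
  rw [h2] at h1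
  exact Int.eq_one_of_mul_eq_one_left hv.le h1

end EmbData

/-- Rotation data: a permutation `ρ` of the index set such that passing from `φ i` to `φ (ρ i)`
preserves orders and multiplies leading coefficients by `ζ ^ order` ("`t ↦ ζ t`"). -/
structure RotData (D : LeadData K L C) (φ : I → F →ₐ[K] L) (k : ℕ) (ρ : Equiv.Perm I)
    (ζ : C) : Prop where
  prim : IsPrimitiveRoot ζ k
  ord_comm : ∀ (i : I) (f : F), f ≠ 0 → D.ord (φ (ρ i) f) = D.ord (φ i f)
  lc_comm : ∀ (i : I) (f : F), f ≠ 0 →
    D.lc (φ (ρ i) f) = ζ ^ (D.ord (φ i f)) * D.lc (φ i f)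

/-- Rotation data from a ring endomorphism `R` of `L` compatible with the embeddings. -/
theorem RotData.of_ringHom {D : LeadData K L C} {φ : I → F →ₐ[K] L} {k : ℕ}
    {ρ : Equiv.Perm I} {ζ : C} (R : L →+* L) (prim : IsPrimitiveRoot ζ k)
    (ord_R : ∀ a : L, a ≠ 0 → D.ord (R a) = D.ord a)
    (lc_R : ∀ a : L, a ≠ 0 → D.lc (R a) = ζ ^ (D.ord a) * D.lc a)
    (comm : ∀ i f, φ (ρ i) f = R (φ i f)) : RotData D φ k ρ ζ where
  prim := prim
  ord_comm := fun i f hf => by rw [comm, ord_R _ (phi_ne_zero (φ i) hf)]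
  lc_comm := fun i f hf => by rw [comm, lc_R _ (phi_ne_zero (φ i) hf)]

namespace RotData

variable {D : LeadData K L C} {φ : I → F →ₐ[K] L} {y : F} {g : L} {k : ℕ}
  {ρ : Equiv.Perm I} {ζ : C}
variable (h : EmbData D φ y g k) (hr : RotData D φ k ρ ζ)
include h hr

theorem place_rho (i : I) : h.place (ρ i) = h.place i := by
  apply Place.ext
  show inducedValuationSubring D (φ (ρ i)) = inducedValuationSubring D (φ i)
  ext f
  rw [mem_inducedValuationSubring, mem_inducedValuationSubring]
  by_cases hf : f = 0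
  · simp [hf]
  · rw [hr.ord_comm i f hf]

theorem place_pow (n : ℕ) (i : I) : h.place ((ρ ^ n) i) = h.place i := by
  induction n with
  | zero => simp
  | succ n ih =>
    rw [pow_succ', Equiv.Perm.mul_apply, place_rho h hr, ih]

theorem place_eq_of_sameCycle [Finite I] {i j : I} (hij : ρ.SameCycle i j) :
    h.place i = h.place j := by
  obtain ⟨n, _, hn⟩ := hij.exists_pow_eq'
  rw [← hn, place_pow h hr]

theorem phi_pow (n : ℕ) (i : I) {f : F} (hf : f ≠ 0) :
    D.ord (φ ((ρ ^ n) i) f) = D.ord (φ i f) ∧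
      D.lc (φ ((ρ ^ n) i) f) = ζ ^ ((n : ℤ) * D.ord (φ i f)) * D.lc (φ i f) := by
  have hζ0 : ζ ≠ 0 := hr.prim.ne_zero h.k_pos.ne'
  induction n with
  | zero => simp
  | succ n ih =>
    rw [pow_succ', Equiv.Perm.mul_apply]
    refine ⟨by rw [hr.ord_comm _ f hf, ih.1], ?_⟩
    rw [hr.lc_comm _ f hf, ih.1, ih.2, ← mul_assoc, ← zpow_add₀ hζ0]
    congr 2
    push_cast; ring

/-- If `ρ ^ w` fixes `i` then the ramification index at `place i` divides `w`. -/
theorem ord_y_dvd_of_pow_fix (i : I) {w : ℕ} (hw : (ρ ^ w) i = i) :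
    (h.place i).ord y ∣ (w : ℤ) := by
  obtain ⟨π, hπ⟩ := exists_ord_eq_one (h.place i)
  have hπ0 : π ≠ 0 := ne_zero_of_ord_ne_zero _ (by rw [hπ]; exact one_ne_zero)
  have ha : φ i π ≠ 0 := phi_ne_zero _ hπ0
  have hord : D.ord (φ i π) = h.mult i := by rw [h.ord_eq i hπ0, hπ, mul_one]
  have h2 := (phi_pow h hr w i hπ0).2
  rw [hw, hord] at h2
  have h3 : ζ ^ ((w : ℤ) * h.mult i) = 1 := by
    have hlc := D.lc_ne_zero ha
    have : (ζ ^ ((w : ℤ) * h.mult i) - 1) * D.lc (φ i π) = 0 := by
      rw [sub_mul, one_mul, ← h2, sub_self]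
    rcases mul_eq_zero.mp this with h' | h'
    · exact sub_eq_zero.mp h'
    · exact absurd h' hlc
  have h4 := (hr.prim.zpow_eq_one_iff_dvd _).mp h3
  rw [← h.mult_mul_ord_y i, mul_comm (w : ℤ)] at h4
  exact (mul_dvd_mul_iff_left (h.mult_pos i).ne').mp h4

/-- Two embeddings induce the same place iff their indices lie in the same `ρ`-cycle. -/
theorem place_eq_iff_sameCycle [Fintype I] [CharZero C]
    (hfin : {v : Place K F | 0 < v.ord y}.Finite)
    (hres : ∀ v : Place K F, 0 < v.ord y → ResidueTrivial v)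
    (hsum : ∑ v ∈ hfin.toFinset, v.ord y ≤ (Fintype.card I : ℤ)) (i j : I) :
    h.place i = h.place j ↔ ρ.SameCycle i j := by
  classical
  refine ⟨fun hij => ?_, place_eq_of_sameCycle h hr⟩
  set w₀ := Function.minimalPeriod ρ i with hw₀
  have hper : Function.IsPeriodicPt ρ (orderOf ρ) i := by
    show ρ^[orderOf ρ] i = i
    rw [Equiv.Perm.iterate_eq_pow, pow_orderOf_eq_one]; rfl
  have hw₀pos : 0 < w₀ := hper.minimalPeriod_pos (orderOf_pos ρ)
  have hfix : (ρ ^ w₀) i = i := by
    have := Function.isPeriodicPt_minimalPeriod ρ i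
    rw [← Equiv.Perm.iterate_eq_pow]; exact this
  have hdvd := ord_y_dvd_of_pow_fix h hr i hfix
  have hle : (h.place i).ord y ≤ w₀ := Int.le_of_dvd (by exact_mod_cast hw₀pos) hdvd
  have hcard := h.card_fiber_eq hfin hres hsum (h.place i) (h.ord_y_pos i)
  set fib := Finset.univ.filter (fun j => h.place j = h.place i) with hfib
  set img := (Finset.range w₀).image (fun n => (ρ ^ n) i) with himg
  have hsub : img ⊆ fib := by
    intro j hj
    rw [himg, Finset.mem_image] at hj
    obtain ⟨n, _, rfl⟩ := hj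
    rw [hfib, Finset.mem_filter]
    exact ⟨Finset.mem_univ _, place_pow h hr n i⟩
  have hinj : Set.InjOn (fun n => (ρ ^ n) i) (Finset.range w₀ : Set ℕ) := by
    have := Function.iterate_injOn_Iio_minimalPeriod (f := ρ) (x := i)
    intro a ha b hb hab
    apply this
    · simpa using ha
    · simpa using hb
    · simpa [Equiv.Perm.iterate_eq_pow] using hab
  have hcardimg : img.card = w₀ := by
    rw [himg, Finset.card_image_of_injOn hinj, Finset.card_range]
  have heq : img = fib := by
    apply Finset.eq_of_subset_of_card_le hsub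
    rw [hcardimg]
    have : (fib.card : ℤ) ≤ w₀ := by rw [hcard]; exact hle
    exact_mod_cast this
  have hj : j ∈ fib := by
    rw [hfib, Finset.mem_filter]; exact ⟨Finset.mem_univ _, hij.symm⟩
  rw [← heq, himg, Finset.mem_image] at hj
  obtain ⟨n, _, hn⟩ := hj
  exact ⟨n, by simpa using hn⟩

open scoped Classical in
/-- The multiplicity of the zero `place i` of `y` is the size of the `ρ`-cycle of `i`. -/
theorem ord_y_eq_card_sameCycle [Fintype I] [CharZero C]
    (hfin : {v : Place K F | 0 < v.ord y}.Finite)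
    (hres : ∀ v : Place K F, 0 < v.ord y → ResidueTrivial v)
    (hsum : ∑ v ∈ hfin.toFinset, v.ord y ≤ (Fintype.card I : ℤ)) (i : I) :
    (h.place i).ord y = ((Finset.univ.filter (fun j => ρ.SameCycle i j)).card : ℤ) := by
  rw [← h.card_fiber_eq hfin hres hsum (h.place i) (h.ord_y_pos i)]
  congr 2
  ext j
  simp only [Finset.mem_filter, Finset.mem_univ, true_and]
  rw [eq_comm, place_eq_iff_sameCycle h hr hfin hres hsum i j]

/-- The zeros of `y` are in bijection with the cycles of `ρ`. -/
theorem card_zeros_eq_card_cycles [Fintype I] [CharZero C]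
    (hfin : {v : Place K F | 0 < v.ord y}.Finite)
    (hres : ∀ v : Place K F, 0 < v.ord y → ResidueTrivial v)
    (hsum : ∑ v ∈ hfin.toFinset, v.ord y ≤ (Fintype.card I : ℤ)) :
    Nat.card {v : Place K F // 0 < v.ord y}
      = Nat.card (Quotient (Equiv.Perm.SameCycle.setoid ρ)) := by
  symm
  let Φ : Quotient (Equiv.Perm.SameCycle.setoid ρ) → {v : Place K F // 0 < v.ord y} :=
    Quotient.lift (fun i => (⟨h.place i, h.ord_y_pos i⟩ : {v : Place K F // 0 < v.ord y}))
      (fun i j hij => Subtype.ext (place_eq_of_sameCycle h hr hij))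
  apply Nat.card_eq_of_bijective Φ
  constructor
  · intro a b
    induction a using Quotient.inductionOn with | _ i => ?_
    induction b using Quotient.inductionOn with | _ j => ?_
    intro hab
    have : h.place i = h.place j := congrArg Subtype.val hab
    exact Quotient.sound ((place_eq_iff_sameCycle h hr hfin hres hsum i j).mp this)
  · rintro ⟨v, hv⟩
    obtain ⟨i, hi⟩ := h.exists_place_eq hfin hres hsum v hv
    exact ⟨Quotient.mk _ i, Subtype.ext hi⟩

/-- Total ramification over the zeros of `y`. -/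
theorem sum_ord_sub_one [Fintype I] [CharZero C]
    (hfin : {v : Place K F | 0 < v.ord y}.Finite)
    (hres : ∀ v : Place K F, 0 < v.ord y → ResidueTrivial v)
    (hsum : ∑ v ∈ hfin.toFinset, v.ord y ≤ (Fintype.card I : ℤ)) :
    ∑ v ∈ hfin.toFinset, (v.ord y - 1)
      = (Fintype.card I : ℤ) - Nat.card (Quotient (Equiv.Perm.SameCycle.setoid ρ)) := by
  rw [Finset.sum_sub_distrib, h.sum_ord_eq_card hfin hres hsum,
    ← card_zeros_eq_card_cycles h hr hfin hres hsum]
  congr 1
  rw [Finset.sum_const, nsmul_eq_mul, mul_one]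
  congr 1
  rw [← Set.ncard_eq_toFinset_card _ hfin]
  rfl

end RotData

end Counting

end Fermat.Agent.S24.LocalLemma
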