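import Mathlib
import Fermat.Agent.S24.LocalLemmaCore

set_option autoImplicit false

/-!
# The Laurent series model of the leading-term data used by the local lemma (S24)
-/

noncomputable section

namespace Fermat.Agent.S24.LocalLemma

open HahnSeries AlgebraicCurve

section Model

variable (K C : Type*) [Field K] [Field C] [Algebra K C]

theorem laurent_algebraMap_eq (a : K) :
    algebraMap K (LaurentSeries C) a = HahnSeries.C (algebraMap K C a) := by
  have h1 : algebraMap K (PowerSeries C) a = PowerSeries.C (algebraMap K C a) := by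
    rw [PowerSeries.algebraMap_apply]
  rw [HahnSeries.algebraMap_apply', h1, HahnSeries.ofPowerSeries_C]

variable {C}

theorem laurent_orderTop_eq {a : LaurentSeries C} (ha : a ≠ 0) :
    a.orderTop = (a.order : WithTop ℤ) := (HahnSeries.order_eq_orderTop_of_ne_zero ha).symm

theorem laurent_order_lt_iff {a b : LaurentSeries C} (ha : a ≠ 0) (hb : b ≠ 0) :
    a.orderTop < b.orderTop ↔ a.order < b.order := by
  rw [laurent_orderTop_eq ha, laurent_orderTop_eq hb, WithTop.coe_lt_coe]

variable (C)

/-- Order and leading coefficient of Laurent series form leading-term data. -/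
def laurentLeadData : LeadData K (LaurentSeries C) C where
  ord := HahnSeries.order
  lc := HahnSeries.leadingCoeff
  ord_mul := fun ha hb => HahnSeries.order_mul ha hb
  lc_mul := fun _ _ => HahnSeries.leadingCoeff_mul _ _
  lc_ne_zero := fun ha => HahnSeries.leadingCoeff_ne_zero.mpr ha
  ord_algebraMap := fun {a} _ => by
    rw [laurent_algebraMap_eq]
    exact HahnSeries.order_C
  lc_algebraMap := fun {a} _ => by
    rw [laurent_algebraMap_eq, HahnSeries.C_apply, HahnSeries.leadingCoeff_of_single]
  add_of_lt := fun {a b} ha hb hlt => by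
    have h := (laurent_order_lt_iff ha hb).mpr hlt
    have h1 := HahnSeries.orderTop_add_eq_left h
    have hab : a + b ≠ 0 := by
      intro h0
      rw [h0, HahnSeries.orderTop_zero, laurent_orderTop_eq ha] at h1
      exact WithTop.top_ne_coe h1
    refine ⟨?_, HahnSeries.leadingCoeff_add_eq_left h⟩
    rw [laurent_orderTop_eq hab, laurent_orderTop_eq ha] at h1
    exact_mod_cast h1
  sub_of_eq := fun {a b} ha hb hab hord hlc => by
    have hsub : a - b ≠ 0 := sub_ne_zero.mpr hab
    have h1 : (a - b).orderTop ≠ ((a.order : ℤ) : WithTop ℤ) :=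
      HahnSeries.orderTop_sub_ne (laurent_orderTop_eq ha) (by rw [laurent_orderTop_eq hb, hord]) hlc
    have h2 := HahnSeries.min_orderTop_le_orderTop_sub (x := a) (y := b)
    rw [laurent_orderTop_eq ha, laurent_orderTop_eq hb, ← hord, min_self,
      laurent_orderTop_eq hsub] at h2
    rw [laurent_orderTop_eq hsub] at h1
    have h3 : a.order ≤ (a - b).order := by exact_mod_cast h2
    have h4 : (a - b).order ≠ a.order := by
      intro h; apply h1; rw [h]
    omega
  add_of_eq := fun {a b} ha hb hord hlc => by
    have hcoeff : (a + b).coeff a.order = a.leadingCoeff + b.leadingCoeff := by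
      rw [HahnSeries.coeff_add, HahnSeries.leadingCoeff_eq, HahnSeries.leadingCoeff_eq, hord]
    have hne : (a + b).coeff a.order ≠ 0 := by rw [hcoeff]; exact hlc
    have hab : a + b ≠ 0 := by
      intro h0; rw [h0] at hne; exact hne (by simp)
    have h1 : (a + b).order ≤ a.order := HahnSeries.order_le_of_coeff_ne_zero hne
    have h2 := HahnSeries.min_order_le_order_add hab
    rw [← hord, min_self] at h2
    have h3 : (a + b).order = a.order := le_antisymm h1 h2
    refine ⟨h3, ?_⟩
    rw [HahnSeries.leadingCoeff_eq (x := a + b), h3, hcoeff]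

@[simp] theorem laurentLeadData_ord (a : LaurentSeries C) :
    (laurentLeadData K C).ord a = a.order := rfl

@[simp] theorem laurentLeadData_lc (a : LaurentSeries C) :
    (laurentLeadData K C).lc a = a.leadingCoeff := rfl

end Model

section Rotation

variable {K F C : Type*} [Field K] [Field F] [Algebra K F] [Field C] [Algebra K C]
variable {I : Type*}

/-- Coefficientwise rotation hypothesis gives rotation data for the Laurent model. -/
theorem rotData_of_coeff {φ : I → F →ₐ[K] LaurentSeries C} {k : ℕ} (hk : 0 < k)
    {ρ : Equiv.Perm I} {ζ : C} (hζ : IsPrimitiveRoot ζ k)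
    (hρ : ∀ (i : I) (f : F) (m : ℤ), (φ (ρ i) f).coeff m = ζ ^ m * (φ i f).coeff m) :
    RotData (laurentLeadData K C) φ k ρ ζ := by
  have hζ0 : ζ ≠ 0 := hζ.ne_zero hk.ne'
  have hsupp : ∀ (i : I) (f : F), (φ (ρ i) f).support = (φ i f).support := by
    intro i f
    ext m
    simp only [HahnSeries.mem_support, hρ i f m, ne_eq, mul_eq_zero, zpow_ne_zero m hζ0, false_or]
  have hord : ∀ (i : I) (f : F), f ≠ 0 → (φ (ρ i) f).order = (φ i f).order := by
    intro i f hf
    have h1 : φ (ρ i) f ≠ 0 := phi_ne_zero _ hf
    have h2 : φ i f ≠ 0 := phi_ne_zero _ hf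
    rw [HahnSeries.order_of_ne h1, HahnSeries.order_of_ne h2]
    congr 1
    exact hsupp i f
  refine ⟨hζ, hord, ?_⟩
  intro i f hf
  show (φ (ρ i) f).leadingCoeff = ζ ^ ((φ i f).order) * (φ i f).leadingCoeff
  rw [HahnSeries.leadingCoeff_eq, HahnSeries.leadingCoeff_eq, hord i f hf, hρ]

end Rotation

end Fermat.Agent.S24.LocalLemma
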