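import Mathlib
import Fermat.Agent.S24.FF.FundId
import Fermat.Agent.S24.FF.PlaceA1
import Fermat.Agent.S24.LocalLemmaCore
import Fermat.Agent.S24.LocalLemmaLaurent
import Fermat.Agent.S24.OrbitBridge

/-! # S24: the LOCAL LEMMA (lead v7), stated on prelude `Place`s.

`K` alg. closed char 0, `F/K` function field in one variable, `C ⊇ K` a field of char 0
(`C = ℂ`).  Finitely many pairwise distinct `K`-embeddings `φ i : F → C((t))` which all send a
transcendental `y` to the same series `g` of order `k ≥ 1`, permuted by `ρ` via the rotation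
`t ↦ ζ t` (`ζ` a primitive `k`-th root of unity), and at least `[F : K(y)]` of them.  Then they
are ALL the embeddings, the zeros of `y` are exactly the induced places, two embeddings induce the
same place iff they are in the same `⟨ρ⟩`-orbit, and the multiplicity of the zero is the orbit size.

The proofs are in `LocalLemmaCore.lean` (abstract leading-term data) and
`LocalLemmaLaurent.lean` (Laurent series model); this file states the consumer forms. -/

set_option autoImplicit false
set_option linter.unusedSectionVars false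
set_option linter.unusedVariables false

namespace Fermat.Agent.S24

open AlgebraicCurve Polynomial IntermediateField HahnSeries FF

variable {K F : Type*} [Field K] [Field F] [Algebra K F] [IsAlgClosed K] [CharZero K]
variable {C : Type*} [Field C] [CharZero C] [Algebra K C]

/-- the place of `F` induced by an embedding into Laurent series -/
theorem exists_place_of_embedding (hF : IsFF1 K F) (φ : F →ₐ[K] LaurentSeries C)
    (hφ : ∃ f : F, f ≠ 0 ∧ (φ f).order ≠ 0) :
    ∃ (v : Place K F) (m : ℕ), 0 < m ∧ ∀ f : F, f ≠ 0 → (φ f).order = (m : ℤ) * v.ord f := by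
  obtain ⟨m, hm, h⟩ := LocalLemma.exists_ord_eq_mul (LocalLemma.laurentLeadData K C) φ hφ
  refine ⟨LocalLemma.inducedPlace (LocalLemma.laurentLeadData K C) φ hφ, m.toNat, ?_, ?_⟩
  · omega
  · intro f hf
    rw [Int.toNat_of_nonneg hm.le]
    exact h f hf

section Glue

variable {y : F} {I : Type*} [Fintype I] {φ : I → F →ₐ[K] LaurentSeries C}
  {g : LaurentSeries C} {k : ℕ}

theorem localLemma_embData (hy : Transcendental K y) (hφ : Function.Injective φ)
    (hg : ∀ i, φ i y = g) (hk : 0 < k) (hgk : g.order = (k : ℤ)) :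
    LocalLemma.EmbData (LocalLemma.laurentLeadData K C) φ y g k where
  inj := hφ
  y_ne := fun h0 => hy (h0 ▸ isAlgebraic_zero)
  map_y := hg
  k_pos := hk
  ord_g := hgk

theorem localLemma_hfin (hF : IsFF1 K F) (hy : Transcendental K y) :
    {v : Place K F | 0 < v.ord y}.Finite :=
  zerosOf_finite hF (fun h0 => hy (h0 ▸ isAlgebraic_zero))

theorem localLemma_hres (hF : IsFF1 K F) (v : Place K F) : LocalLemma.ResidueTrivial v :=
  fun _ hf => exists_const_sub_ord_pos hF v (LocalLemma.ord_nonneg_of_mem v hf)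

theorem localLemma_sum_eq (hF : IsFF1 K F) (hy : Transcendental K y) :
    ∑ v ∈ (localLemma_hfin hF hy).toFinset, v.ord y = (Module.finrank K⟮y⟯ F : ℤ) := by
  rw [← sum_ord_zerosOf hF hy]
  exact (finsum_mem_eq_finite_toFinset_sum _ (localLemma_hfin hF hy)).symm

theorem localLemma_hsum (hF : IsFF1 K F) (hy : Transcendental K y)
    (hcard : Module.finrank K⟮y⟯ F ≤ Fintype.card I) :
    ∑ v ∈ (localLemma_hfin hF hy).toFinset, v.ord y ≤ (Fintype.card I : ℤ) := by
  rw [localLemma_sum_eq hF hy]
  exact_mod_cast hcard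

end Glue

/-- THE LOCAL LEMMA -/
theorem local_lemma (hF : IsFF1 K F) {y : F} (hy : Transcendental K y)
    {I : Type*} [Fintype I] [DecidableEq I] (φ : I → F →ₐ[K] LaurentSeries C)
    (hφ : Function.Injective φ) (g : LaurentSeries C) (hg : ∀ i, φ i y = g)
    (k : ℕ) (hk : 0 < k) (hgk : g.order = (k : ℤ))
    (ρ : Equiv.Perm I) (ζ : C) (hζ : IsPrimitiveRoot ζ k)
    (hρ : ∀ (i : I) (f : F) (m : ℤ), (φ (ρ i) f).coeff m = ζ ^ m * (φ i f).coeff m)
    (hcard : Module.finrank K⟮y⟯ F ≤ Fintype.card I) :
    Fintype.card I = Module.finrank K⟮y⟯ F ∧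
    ∃ p : I → Place K F,
      Set.range p = zerosOf K y ∧
      (∀ i j, p i = p j ↔ ∃ a : ℤ, (ρ ^ a) i = j) ∧
      (∀ i, (p i).ord y = (Nat.card (MulAction.orbit (Subgroup.zpowers ρ) i) : ℤ)) := by
  classical
  have h := localLemma_embData hy hφ hg hk hgk
  have hr := LocalLemma.rotData_of_coeff hk hζ hρ
  have hfin := localLemma_hfin hF hy
  have hres : ∀ v : Place K F, 0 < v.ord y → LocalLemma.ResidueTrivial v :=
    fun v _ => localLemma_hres hF v
  have hsum := localLemma_hsum (I := I) hF hy hcard
  refine ⟨?_, h.place, ?_, ?_, ?_⟩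
  · have h1 := h.sum_ord_eq_card hfin hres hsum
    rw [localLemma_sum_eq hF hy] at h1
    exact_mod_cast h1.symm
  · ext v
    constructor
    · rintro ⟨i, rfl⟩
      exact h.ord_y_pos i
    · intro hv
      exact h.exists_place_eq hfin hres hsum v hv
  · intro i j
    exact LocalLemma.RotData.place_eq_iff_sameCycle h hr hfin hres hsum i j
  · intro i
    rw [LocalLemma.RotData.ord_y_eq_card_sameCycle h hr hfin hres hsum i]
    congr 1
    rw [Nat.card_coe_set_eq, ← Set.ncard_coe_finset]
    congr 1
    ext j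
    simp only [Finset.coe_filter, Finset.mem_univ, true_and, Set.mem_ofPred_eq]
    exact sameCycle_iff_mem_orbit_zpowers ρ i j

/-- corollary: number of zeros of `y` = number of `⟨ρ⟩`-orbits. -/
theorem ncard_zerosOf_eq (hF : IsFF1 K F) {y : F} (hy : Transcendental K y)
    {I : Type*} [Fintype I] [DecidableEq I] (φ : I → F →ₐ[K] LaurentSeries C)
    (hφ : Function.Injective φ) (g : LaurentSeries C) (hg : ∀ i, φ i y = g)
    (k : ℕ) (hk : 0 < k) (hgk : g.order = (k : ℤ))
    (ρ : Equiv.Perm I) (ζ : C) (hζ : IsPrimitiveRoot ζ k)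
    (hρ : ∀ (i : I) (f : F) (m : ℤ), (φ (ρ i) f).coeff m = ζ ^ m * (φ i f).coeff m)
    (hcard : Module.finrank K⟮y⟯ F ≤ Fintype.card I) :
    (zerosOf K y).ncard =
      Nat.card (MulAction.orbitRel.Quotient (Subgroup.zpowers ρ) I) := by
  have h := localLemma_embData hy hφ hg hk hgk
  have hr := LocalLemma.rotData_of_coeff hk hζ hρ
  have hfin := localLemma_hfin hF hy
  have hres : ∀ v : Place K F, 0 < v.ord y → LocalLemma.ResidueTrivial v :=
    fun v _ => localLemma_hres hF v
  have hsum := localLemma_hsum (I := I) hF hy hcard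
  rw [← orb_eq_natCard_orbitRel_quotient ρ]
  exact LocalLemma.RotData.card_zeros_eq_card_cycles h hr hfin hres hsum

/-- corollary: `k = 1` means unramified. -/
theorem ord_eq_one_of_order_eq_one (hF : IsFF1 K F) {y : F} (hy : Transcendental K y)
    {I : Type*} [Fintype I] [DecidableEq I] (φ : I → F →ₐ[K] LaurentSeries C)
    (hφ : Function.Injective φ) (g : LaurentSeries C) (hg : ∀ i, φ i y = g)
    (hgk : g.order = 1) (hcard : Module.finrank K⟮y⟯ F ≤ Fintype.card I) :
    Fintype.card I = Module.finrank K⟮y⟯ F ∧ ∀ v ∈ zerosOf K y, v.ord y = 1 := by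
  have h := localLemma_embData (k := 1) hy hφ hg one_pos (by rw [hgk]; rfl)
  have hfin := localLemma_hfin hF hy
  have hres : ∀ v : Place K F, 0 < v.ord y → LocalLemma.ResidueTrivial v :=
    fun v _ => localLemma_hres hF v
  have hsum := localLemma_hsum (I := I) hF hy hcard
  refine ⟨?_, fun v hv => h.ord_eq_one_of_k_eq_one hfin hres hsum rfl v hv⟩
  have h1 := h.sum_ord_eq_card hfin hres hsum
  rw [localLemma_sum_eq hF hy] at h1
  exact_mod_cast h1.symm

end Fermat.Agent.S24
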