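import Mathlib
import Fermat.Prelude.Def_ModularCurve_GenusNumerics
import Fermat.Agent.S24.CombP1
import Fermat.Agent.S24.PermOrbits

set_option autoImplicit false

/-!
# S24, layer (F3): the number of orbits of `T` on `P1 (ZMod N)` is `cuspCount N`
-/

namespace Fermat.Agent.S24

/-- `cuspG N d = gcd (d, N/d)`. -/
def cuspG (N d : ℕ) : ℕ := Nat.gcd d (N / d)

theorem cusp_dvd_aux {N x y x' y' : ℕ} (hx : Nat.Coprime x (Nat.gcd y N)) (k : ℤ)
    (hk : (N : ℤ) ∣ ((x : ℤ) + k * y) * y' - x' * y) : Nat.gcd y N ∣ y' := by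
  set d := Nat.gcd y N with hd
  have hdN : (d : ℤ) ∣ (N : ℤ) := Int.natCast_dvd_natCast.2 (Nat.gcd_dvd_right y N)
  have hdy : (d : ℤ) ∣ (y : ℤ) := Int.natCast_dvd_natCast.2 (Nat.gcd_dvd_left y N)
  have h1 : (d : ℤ) ∣ (x : ℤ) * y' := by
    have h2 : (d : ℤ) ∣ ((x : ℤ) + k * y) * y' - x' * y := hdN.trans hk
    have h3 : (x : ℤ) * y' = (((x : ℤ) + k * y) * y' - x' * y) + (x' - k * y') * y := by ring
    rw [h3]
    exact dvd_add h2 (Dvd.dvd.mul_left hdy _)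
  have h4 : d ∣ x * y' := by exact_mod_cast h1
  exact (Nat.Coprime.dvd_of_dvd_mul_left hx.symm h4)

theorem cusp_dvd_aux' {N x y x' y' : ℕ} (hx' : Nat.Coprime x' (Nat.gcd y' N)) (k : ℤ)
    (hk : (N : ℤ) ∣ ((x : ℤ) + k * y) * y' - x' * y) : Nat.gcd y' N ∣ y := by
  set d := Nat.gcd y' N with hd
  have hdN : (d : ℤ) ∣ (N : ℤ) := Int.natCast_dvd_natCast.2 (Nat.gcd_dvd_right y' N)
  have hdy : (d : ℤ) ∣ (y' : ℤ) := Int.natCast_dvd_natCast.2 (Nat.gcd_dvd_left y' N)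
  have h1 : (d : ℤ) ∣ (x' : ℤ) * y := by
    have h2 : (d : ℤ) ∣ ((x : ℤ) + k * y) * y' - x' * y := hdN.trans hk
    have h3 : (x' : ℤ) * y = ((x : ℤ) + k * y) * y' - (((x : ℤ) + k * y) * y' - x' * y) := by ring
    rw [h3]
    exact dvd_sub (Dvd.dvd.mul_left hdy _) h2
  have h4 : d ∣ x' * y := by exact_mod_cast h1
  exact (Nat.Coprime.dvd_of_dvd_mul_left hx'.symm h4)

theorem cusp_gcd_eq {N x y x' y' : ℕ} (hx : Nat.Coprime x (Nat.gcd y N))
    (hx' : Nat.Coprime x' (Nat.gcd y' N)) (k : ℤ)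
    (hk : (N : ℤ) ∣ ((x : ℤ) + k * y) * y' - x' * y) : Nat.gcd y N = Nat.gcd y' N :=
  Nat.dvd_antisymm (Nat.dvd_gcd (cusp_dvd_aux hx k hk) (Nat.gcd_dvd_right _ _))
    (Nat.dvd_gcd (cusp_dvd_aux' hx' k hk) (Nat.gcd_dvd_right _ _))

/-- the criterion in terms of `d, a, a', m`. -/
theorem cusp_core {d m x a x' a' : ℕ} (hd : 0 < d) (ha : Nat.Coprime a m) (ha' : Nat.Coprime a' m) :
    (∃ k : ℤ, ((d * m : ℕ) : ℤ) ∣ ((x : ℤ) + k * (d * a : ℕ)) * (d * a' : ℕ) - x' * (d * a : ℕ)) ↔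
      ((Nat.gcd d m : ℕ) : ℤ) ∣ (x : ℤ) * a' - x' * a := by
  have hgd : ((Nat.gcd d m : ℕ) : ℤ) ∣ (d : ℤ) := Int.natCast_dvd_natCast.2 (Nat.gcd_dvd_left d m)
  have hgm : ((Nat.gcd d m : ℕ) : ℤ) ∣ (m : ℤ) := Int.natCast_dvd_natCast.2 (Nat.gcd_dvd_right d m)
  have hd0 : (d : ℤ) ≠ 0 := by exact_mod_cast hd.ne'
  constructor
  · rintro ⟨k, hk⟩
    have h1 : (d : ℤ) * m ∣ (d : ℤ) * (((x : ℤ) + k * (d * a)) * a' - x' * a) := by
      have : (d : ℤ) * (((x : ℤ) + k * (d * a)) * a' - x' * a)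
          = ((x : ℤ) + k * (d * a : ℕ)) * (d * a' : ℕ) - x' * (d * a : ℕ) := by
        push_cast; ring
      rw [this]
      exact_mod_cast hk
    have h2 : (m : ℤ) ∣ ((x : ℤ) + k * (d * a)) * a' - x' * a :=
      Int.dvd_of_mul_dvd_mul_left hd0 h1
    have h3 : (x : ℤ) * a' - x' * a
        = (((x : ℤ) + k * (d * a)) * a' - x' * a) - (k * a * a') * d := by ring
    rw [h3]
    exact dvd_sub (hgm.trans h2) (Dvd.dvd.mul_left hgd _)
  · rintro ⟨e, he⟩
    have hc : IsCoprime ((a : ℤ) * a') (m : ℤ) :=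
      IsCoprime.mul_left (Nat.isCoprime_iff_coprime.2 ha) (Nat.isCoprime_iff_coprime.2 ha')
    obtain ⟨s, t, hst⟩ := hc
    have hg := Nat.gcd_eq_gcd_ab d m
    set p := Nat.gcdA d m
    set q := Nat.gcdB d m
    refine ⟨-e * p * s, ?_⟩
    refine ⟨e * (q + p * d * t), ?_⟩
    push_cast
    rw [hg] at he
    linear_combination (d : ℤ) * he - (e * p * d * d) * hst


theorem cusp_criterion {N x y x' y' : ℕ} (hN : 0 < N) (hx : Nat.Coprime x (Nat.gcd y N))
    (hx' : Nat.Coprime x' (Nat.gcd y' N)) :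
    (∃ k : ℤ, (N : ℤ) ∣ ((x : ℤ) + k * y) * y' - x' * y) ↔
      Nat.gcd y N = Nat.gcd y' N ∧
        ((cuspG N (Nat.gcd y N) : ℕ) : ℤ) ∣
          (x : ℤ) * ((y' / Nat.gcd y N : ℕ) : ℤ) - x' * ((y / Nat.gcd y N : ℕ) : ℤ) := by
  have key : Nat.gcd y N = Nat.gcd y' N →
      ((∃ k : ℤ, (N : ℤ) ∣ ((x : ℤ) + k * y) * y' - x' * y) ↔
        ((cuspG N (Nat.gcd y N) : ℕ) : ℤ) ∣
          (x : ℤ) * ((y' / Nat.gcd y N : ℕ) : ℤ) - x' * ((y / Nat.gcd y N : ℕ) : ℤ)) := by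
    intro hdd
    have hd : 0 < Nat.gcd y N := Nat.gcd_pos_of_pos_right _ hN
    have hd' : 0 < Nat.gcd y' N := Nat.gcd_pos_of_pos_right _ hN
    have ha : Nat.Coprime (y / Nat.gcd y N) (N / Nat.gcd y N) := Nat.coprime_div_gcd_div_gcd hd
    have ha' : Nat.Coprime (y' / Nat.gcd y N) (N / Nat.gcd y N) := by
      have := Nat.coprime_div_gcd_div_gcd hd'
      rwa [← hdd] at this
    have hy : y = Nat.gcd y N * (y / Nat.gcd y N) :=
      (Nat.mul_div_cancel' (Nat.gcd_dvd_left y N)).symm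
    have hy' : y' = Nat.gcd y N * (y' / Nat.gcd y N) := by
      rw [hdd]; exact (Nat.mul_div_cancel' (Nat.gcd_dvd_left y' N)).symm
    have hNd : N = Nat.gcd y N * (N / Nat.gcd y N) :=
      (Nat.mul_div_cancel' (Nat.gcd_dvd_right y N)).symm
    have := cusp_core (x := x) (x' := x') hd ha ha'
    rw [← hy, ← hy', ← hNd] at this
    exact this
  constructor
  · rintro ⟨k, hk⟩
    have hdd := cusp_gcd_eq hx hx' k hk
    exact ⟨hdd, (key hdd).1 ⟨k, hk⟩⟩
  · rintro ⟨hdd, h⟩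
    exact (key hdd).2 h

/-- the residue invariant `x * a⁻¹ mod g`. -/
noncomputable def cuspR (g x a : ℕ) : ℕ := ((x : ZMod g) * ((a : ZMod g))⁻¹).val

theorem cuspR_eq_iff {g x a x' a' : ℕ} [NeZero g] (ha : Nat.Coprime a g) (ha' : Nat.Coprime a' g) :
    cuspR g x a = cuspR g x' a' ↔ (g : ℤ) ∣ (x : ℤ) * a' - x' * a := by
  unfold cuspR
  rw [(ZMod.val_injective g).eq_iff]
  have hu : IsUnit (a : ZMod g) := (ZMod.isUnit_iff_coprime a g).2 ha
  have hu' : IsUnit (a' : ZMod g) := (ZMod.isUnit_iff_coprime a' g).2 ha'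
  have h1 : (a : ZMod g) * (a : ZMod g)⁻¹ = 1 := ZMod.mul_inv_of_unit _ hu
  have h1' : (a' : ZMod g) * (a' : ZMod g)⁻¹ = 1 := ZMod.mul_inv_of_unit _ hu'
  have h2 : ((g : ℤ) ∣ (x : ℤ) * a' - x' * a) ↔ (x : ZMod g) * a' = x' * a := by
    rw [← ZMod.intCast_zmod_eq_zero_iff_dvd]
    push_cast
    exact sub_eq_zero
  rw [h2]
  constructor
  · intro h
    calc (x : ZMod g) * a' = ((x : ZMod g) * (a : ZMod g)⁻¹) * (a * a') := by
          rw [mul_assoc, ← mul_assoc _ (a : ZMod g) _, mul_comm _ (a : ZMod g), h1, one_mul]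
      _ = ((x' : ZMod g) * (a' : ZMod g)⁻¹) * (a * a') := by rw [h]
      _ = x' * a * ((a' : ZMod g) * (a' : ZMod g)⁻¹) := by ring
      _ = x' * a := by rw [h1', mul_one]
  · intro h
    calc (x : ZMod g) * (a : ZMod g)⁻¹
        = (x : ZMod g) * (a : ZMod g)⁻¹ * ((a' : ZMod g) * (a' : ZMod g)⁻¹) := by rw [h1', mul_one]
      _ = ((x : ZMod g) * a') * ((a : ZMod g)⁻¹ * (a' : ZMod g)⁻¹) := by ring
      _ = ((x' : ZMod g) * a) * ((a : ZMod g)⁻¹ * (a' : ZMod g)⁻¹) := by rw [h]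
      _ = (x' : ZMod g) * (a' : ZMod g)⁻¹ * ((a : ZMod g) * (a : ZMod g)⁻¹) := by ring
      _ = (x' : ZMod g) * (a' : ZMod g)⁻¹ := by rw [h1, mul_one]

theorem cuspR_lt (g x a : ℕ) [NeZero g] : cuspR g x a < g := ZMod.val_lt _

theorem cuspR_coprime {g x a : ℕ} [NeZero g] (hx : Nat.Coprime x g) (ha : Nat.Coprime a g) :
    Nat.Coprime g (cuspR g x a) := by
  unfold cuspR
  have hu : IsUnit ((x : ZMod g) * (a : ZMod g)⁻¹) := by
    have h1 : IsUnit (x : ZMod g) := (ZMod.isUnit_iff_coprime x g).2 hx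
    have h2 : IsUnit (a : ZMod g) := (ZMod.isUnit_iff_coprime a g).2 ha
    have h3 : IsUnit ((a : ZMod g)⁻¹) := by
      have := ZMod.mul_inv_of_unit _ h2
      exact IsUnit.of_mul_eq_one _ (by rw [mul_comm]; exact this)
    exact h1.mul h3
  obtain ⟨u, hu⟩ := hu
  rw [← hu]
  exact (ZMod.val_coe_unit_coprime u).symm


/-! ### The action of powers of `T` on `P1` -/

open Matrix MatrixGroups

section Action

variable {R : Type*} [CommRing R]

theorem P1.matT_zpow_smul (k : ℤ) (c d : R) (h : IsCoprime c d) (h' : IsCoprime (c + k * d) d) :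
    (matT ^ k) • (P1.mk c d h) = P1.mk (c + k * d) d h' := by
  obtain ⟨h'', e⟩ := P1.int_smul_def (matT ^ k) c d h
  rw [e]
  refine (P1.mk_eq_mk _ _).2 ?_
  have hk : ((matT ^ k : SL(2, ℤ)) : Matrix (Fin 2) (Fin 2) ℤ) = !![1, k; 0, 1] := by
    rw [matT_eq]; exact ModularGroup.coe_T_zpow k
  simp [hk]

theorem isCoprime_add_zsmul (k : ℤ) {c d : R} (h : IsCoprime c d) : IsCoprime (c + k * d) d :=
  h.add_mul_right_left (k : R)

theorem P1.sameCycle_matT_iff (c d c' d' : R) (h : IsCoprime c d) (h' : IsCoprime c' d') :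
    (MulAction.toPerm matT : Equiv.Perm (P1 R)).SameCycle (P1.mk c d h) (P1.mk c' d' h') ↔
      ∃ k : ℤ, (c + k * d) * d' = c' * d := by
  have hpow : ∀ k : ℤ, (MulAction.toPerm matT : Equiv.Perm (P1 R)) ^ k
      = MulAction.toPerm (matT ^ k) := fun k =>
    (map_zpow (MulAction.toPermHom SL(2, ℤ) (P1 R)) matT k).symm
  unfold Equiv.Perm.SameCycle
  refine exists_congr fun k => ?_
  rw [hpow, MulAction.toPerm_apply, P1.matT_zpow_smul k c d h (isCoprime_add_zsmul k h),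
    P1.mk_eq_mk]

end Action

/-! ### The case `R = ZMod N` -/

section ZModPart

variable (N : ℕ) [NeZero N]

theorem zmod_cross_iff_dvd (x y x' y' : ZMod N) (k : ℤ) :
    (x + k * y) * y' = x' * y ↔
      (N : ℤ) ∣ ((x.val : ℤ) + k * y.val) * y'.val - x'.val * y.val := by
  rw [← ZMod.intCast_zmod_eq_zero_iff_dvd]
  push_cast
  simp only [ZMod.natCast_zmod_val]
  exact sub_eq_zero.symm

theorem coprime_val_of_isCoprime {x y : ZMod N} (h : IsCoprime x y) :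
    Nat.Coprime x.val (Nat.gcd y.val N) := by
  obtain ⟨s, t, hst⟩ := h
  have h1 : (N : ℤ) ∣ (s.val : ℤ) * x.val + t.val * y.val - 1 := by
    rw [← ZMod.intCast_zmod_eq_zero_iff_dvd]
    push_cast
    simp only [ZMod.natCast_zmod_val]
    rw [hst, sub_self]
  set e := Nat.gcd x.val (Nat.gcd y.val N) with he
  have hex : (e : ℤ) ∣ (x.val : ℤ) := Int.natCast_dvd_natCast.2 (Nat.gcd_dvd_left _ _)
  have hey : (e : ℤ) ∣ (y.val : ℤ) :=
    Int.natCast_dvd_natCast.2 ((Nat.gcd_dvd_right _ _).trans (Nat.gcd_dvd_left _ _))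
  have heN : (e : ℤ) ∣ (N : ℤ) :=
    Int.natCast_dvd_natCast.2 ((Nat.gcd_dvd_right _ _).trans (Nat.gcd_dvd_right _ _))
  have h2 : (e : ℤ) ∣ 1 := by
    have h3 : (1 : ℤ) = ((s.val : ℤ) * x.val + t.val * y.val)
        - ((s.val : ℤ) * x.val + t.val * y.val - 1) := by ring
    rw [h3]
    exact dvd_sub (dvd_add (Dvd.dvd.mul_left hex _) (Dvd.dvd.mul_left hey _)) (heN.trans h1)
  have h4 : e ∣ 1 := by exact_mod_cast h2
  exact Nat.dvd_one.1 h4

/-- The invariant of a primitive pair classifying its `T`-orbit. -/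
noncomputable def cuspInv (v : PrimPair (ZMod N)) : Σ _ : ℕ, ℕ :=
  ⟨Nat.gcd v.1.2.val N,
    cuspR (cuspG N (Nat.gcd v.1.2.val N)) v.1.1.val (v.1.2.val / Nat.gcd v.1.2.val N)⟩

theorem cuspG_pos {d : ℕ} (hd : d ∣ N) : 0 < cuspG N d :=
  Nat.gcd_pos_of_pos_left _ (Nat.pos_of_dvd_of_pos hd (Nat.pos_of_ne_zero (NeZero.ne N)))

theorem cuspInv_eq_iff (v w : PrimPair (ZMod N)) :
    cuspInv N v = cuspInv N w ↔
      (MulAction.toPerm matT : Equiv.Perm (P1 (ZMod N))).SameCycle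
        (P1.mk v.1.1 v.1.2 v.2) (P1.mk w.1.1 w.1.2 w.2) := by
  obtain ⟨⟨x, y⟩, hv⟩ := v
  obtain ⟨⟨x', y'⟩, hw⟩ := w
  have hN : 0 < N := Nat.pos_of_ne_zero (NeZero.ne N)
  have hx := coprime_val_of_isCoprime N hv
  have hx' := coprime_val_of_isCoprime N hw
  simp only at hx hx'
  rw [P1.sameCycle_matT_iff]
  simp only [zmod_cross_iff_dvd]
  rw [cusp_criterion hN hx hx']
  unfold cuspInv
  simp only [Sigma.mk.injEq, heq_eq_eq]
  refine and_congr_right fun hdd => ?_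
  rw [← hdd]
  have hd : 0 < Nat.gcd y.val N := Nat.gcd_pos_of_pos_right _ hN
  have hd' : 0 < Nat.gcd y'.val N := Nat.gcd_pos_of_pos_right _ hN
  have : NeZero (cuspG N (Nat.gcd y.val N)) := ⟨(cuspG_pos N (Nat.gcd_dvd_right _ _)).ne'⟩
  have hgm : cuspG N (Nat.gcd y.val N) ∣ N / Nat.gcd y.val N := Nat.gcd_dvd_right _ _
  have ha : Nat.Coprime (y.val / Nat.gcd y.val N) (cuspG N (Nat.gcd y.val N)) :=
    Nat.Coprime.coprime_dvd_right hgm (Nat.coprime_div_gcd_div_gcd hd)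
  have ha' : Nat.Coprime (y'.val / Nat.gcd y.val N) (cuspG N (Nat.gcd y.val N)) := by
    have := Nat.coprime_div_gcd_div_gcd hd'
    rw [← hdd] at this
    exact Nat.Coprime.coprime_dvd_right hgm this
  exact cuspR_eq_iff ha ha'

/-- The set of values of the invariant. -/
def cuspSet : Finset (Σ _ : ℕ, ℕ) :=
  N.divisors.sigma fun d => (Finset.range (cuspG N d)).filter fun r => (cuspG N d).Coprime r

omit [NeZero N] in
theorem card_cuspSet : (cuspSet N).card = ModularCurve.cuspCount N := by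
  unfold cuspSet ModularCurve.cuspCount
  rw [Finset.card_sigma]
  refine Finset.sum_congr rfl fun d _ => ?_
  rw [Nat.totient_eq_card_coprime]
  rfl

theorem cuspInv_mem (v : PrimPair (ZMod N)) : cuspInv N v ∈ cuspSet N := by
  obtain ⟨⟨x, y⟩, hv⟩ := v
  have hN : 0 < N := Nat.pos_of_ne_zero (NeZero.ne N)
  have hx := coprime_val_of_isCoprime N hv
  simp only at hx
  have hd : 0 < Nat.gcd y.val N := Nat.gcd_pos_of_pos_right _ hN
  have hdN : Nat.gcd y.val N ∣ N := Nat.gcd_dvd_right _ _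
  have : NeZero (cuspG N (Nat.gcd y.val N)) := ⟨(cuspG_pos N hdN).ne'⟩
  have hgm : cuspG N (Nat.gcd y.val N) ∣ N / Nat.gcd y.val N := Nat.gcd_dvd_right _ _
  have hgd : cuspG N (Nat.gcd y.val N) ∣ Nat.gcd y.val N := Nat.gcd_dvd_left _ _
  have ha : Nat.Coprime (y.val / Nat.gcd y.val N) (cuspG N (Nat.gcd y.val N)) :=
    Nat.Coprime.coprime_dvd_right hgm (Nat.coprime_div_gcd_div_gcd hd)
  have hxg : Nat.Coprime x.val (cuspG N (Nat.gcd y.val N)) :=
    Nat.Coprime.coprime_dvd_right hgd hx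
  unfold cuspInv cuspSet
  simp only [Finset.mem_sigma, Nat.mem_divisors, Finset.mem_filter, Finset.mem_range]
  exact ⟨⟨hdN, hN.ne'⟩, cuspR_lt _ _ _, cuspR_coprime hxg ha⟩

theorem exists_cuspInv_eq {p : Σ _ : ℕ, ℕ} (hp : p ∈ cuspSet N) :
    ∃ v : PrimPair (ZMod N), cuspInv N v = p := by
  obtain ⟨d, r⟩ := p
  have hN : 0 < N := Nat.pos_of_ne_zero (NeZero.ne N)
  unfold cuspSet at hp
  simp only [Finset.mem_sigma, Nat.mem_divisors, Finset.mem_filter, Finset.mem_range] at hp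
  obtain ⟨⟨hdN, -⟩, hr, hrg⟩ := hp
  have hd : 0 < d := Nat.pos_of_dvd_of_pos hdN hN
  have hgd : cuspG N d ∣ d := Nat.gcd_dvd_left _ _
  have hgN : cuspG N d ∣ N := hgd.trans hdN
  have : NeZero (cuspG N d) := ⟨(cuspG_pos N hdN).ne'⟩
  have : NeZero d := ⟨hd.ne'⟩
  -- lift the unit `r` mod `g` to a unit mod `d`
  obtain ⟨u, hu⟩ := ZMod.unitsMap_surjective hgd (ZMod.unitOfCoprime r hrg.symm)
  have hu' : ((u : ZMod d).val : ZMod (cuspG N d)) = (r : ZMod (cuspG N d)) := by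
    have := congrArg (fun w : (ZMod (cuspG N d))ˣ => (w : ZMod (cuspG N d))) hu
    simp only [ZMod.unitsMap_def, Units.coe_map, MonoidHom.coe_coe, ZMod.castHom_apply,
      ZMod.coe_unitOfCoprime] at this
    rw [← this, ZMod.natCast_val]
  set x0 : ℕ := (u : ZMod d).val with hx0
  have hx0d : Nat.Coprime x0 d := ZMod.val_coe_unit_coprime u
  -- the primitive pair `(x0 : d)`
  have hcop : IsCoprime ((x0 : ℕ) : ZMod N) ((d : ℕ) : ZMod N) := by
    have h1 : IsCoprime ((x0 : ℕ) : ℤ) ((d : ℕ) : ℤ) := Nat.isCoprime_iff_coprime.2 hx0d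
    have h2 := h1.map (Int.castRingHom (ZMod N))
    simpa using h2
  refine ⟨⟨((x0 : ZMod N), (d : ZMod N)), hcop⟩, ?_⟩
  unfold cuspInv
  simp only
  have hgcd : Nat.gcd (d : ZMod N).val N = d := by
    rw [ZMod.val_natCast, ← Nat.gcd_rec, Nat.gcd_comm]
    exact Nat.gcd_eq_left hdN
  rw [hgcd]
  refine Sigma.ext rfl (heq_of_eq ?_)
  simp only
  -- compute the residue
  rcases (Nat.le_of_dvd hN hdN).lt_or_eq with hlt | heq
  · have hval : (d : ZMod N).val = d := by rw [ZMod.val_natCast]; exact Nat.mod_eq_of_lt hlt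
    rw [hval, Nat.div_self hd]
    unfold cuspR
    have h3 : (((x0 : ZMod N).val : ℕ) : ZMod (cuspG N d)) = (r : ZMod (cuspG N d)) := by
      rw [ZMod.natCast_val, ZMod.cast_natCast hgN, hu']
    rw [h3]
    rw [Nat.cast_one, ZMod.inv_one, mul_one, ZMod.val_natCast]
    exact Nat.mod_eq_of_lt hr
  · have hg1 : cuspG N d = 1 := by
      unfold cuspG
      rw [heq, Nat.div_self hN, Nat.gcd_one_right]
    have hr0 : r = 0 := by rw [hg1] at hr; omega
    have : cuspR (cuspG N d) (x0 : ZMod N).val ((d : ZMod N).val / d) < cuspG N d :=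
      cuspR_lt _ _ _
    rw [hg1] at this ⊢
    omega

theorem range_cuspInv : Set.range (cuspInv N) = ↑(cuspSet N) := by
  ext p
  constructor
  · rintro ⟨v, rfl⟩
    exact cuspInv_mem N v
  · intro hp
    exact exists_cuspInv_eq N hp

/-- **(F3)** The number of orbits of `T = !![1, 1; 0, 1]` on `P1 (ZMod N)` is the number of cusps
`∑ d ∣ N, φ (gcd (d, N / d))`. -/
theorem orb_matT : orb (MulAction.toPerm matT : Equiv.Perm (P1 (ZMod N)))
    = ModularCurve.cuspCount N := by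
  set g : Equiv.Perm (P1 (ZMod N)) := MulAction.toPerm matT with hg
  let q : PrimPair (ZMod N) → Quotient (Equiv.Perm.SameCycle.setoid g) :=
    fun v => Quotient.mk _ (P1.mk v.1.1 v.1.2 v.2)
  have hq : Function.Surjective q := by
    intro c
    induction c using Quotient.inductionOn with
    | _ x =>
      induction x using P1.ind with
      | _ c d h => exact ⟨⟨(c, d), h⟩, rfl⟩
  have hker : Setoid.ker q = Setoid.ker (cuspInv N) := by
    ext v w
    rw [Setoid.ker_def, Setoid.ker_def, cuspInv_eq_iff]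
    exact Quotient.eq (r := Equiv.Perm.SameCycle.setoid g)
  unfold orb
  calc Nat.card (Quotient (Equiv.Perm.SameCycle.setoid g))
      = Nat.card (Quotient (Setoid.ker q)) :=
        Nat.card_congr (Setoid.quotientKerEquivOfSurjective q hq).symm
    _ = Nat.card (Quotient (Setoid.ker (cuspInv N))) := by rw [hker]
    _ = Nat.card (Set.range (cuspInv N)) :=
        Nat.card_congr (Setoid.quotientKerEquivRange (cuspInv N))
    _ = Nat.card (↑(cuspSet N) : Set (Σ _ : ℕ, ℕ)) := by rw [range_cuspInv]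
    _ = (cuspSet N).card := by
        rw [Nat.card_eq_fintype_card]; simp
    _ = ModularCurve.cuspCount N := card_cuspSet N

end ZModPart


end Fermat.Agent.S24
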