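import Fermat.Agent.S24.CombTransfer
import Fermat.Agent.S24.CombCusps

set_option autoImplicit false

/-!
# S24, layer (F): the final combinatorial product

For `I = P1 (ZMod N)` or `I = SL(2, ℤ) ⧸ Γ₀(N)` with `n = #I = ψ(N)` and
`d = n - #orbits(S) - #orbits(S * T) - #orbits(T)`:
`0 ≤ d + 2`, `d + 2` is even and `(d + 2).toNat / 2 = genusFormula N`.
-/

namespace Fermat.Agent.S24

open Matrix MatrixGroups Equiv

section Inv

variable {I : Type*}

/-- the orbit count of the inverse permutation. -/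
theorem orb_inv (g : Perm I) : orb g⁻¹ = orb g := by
  unfold orb
  have : Perm.SameCycle.setoid g⁻¹ = Perm.SameCycle.setoid g := by
    ext x y
    exact Perm.sameCycle_inv
  rw [this]

theorem fixedPoints_inv (g : Perm I) :
    Function.fixedPoints (⇑g⁻¹ : I → I) = Function.fixedPoints (⇑g : I → I) := by
  ext x
  simp only [Function.mem_fixedPoints, Function.IsFixedPt]
  rw [Perm.inv_eq_iff_eq]
  exact eq_comm

theorem orb_toPerm_inv {G : Type*} [Group G] [MulAction G I] (γ : G) :
    orb (MulAction.toPerm γ⁻¹ : Perm I) = orb (MulAction.toPerm γ : Perm I) := by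
  have : (MulAction.toPerm γ⁻¹ : Perm I) = (MulAction.toPerm γ : Perm I)⁻¹ :=
    map_inv (MulAction.toPermHom G I) γ
  rw [this, orb_inv]

end Inv

section Main

variable (N : ℕ) [NeZero N]

/-- **Final product of layer (F)** on `P1 (ZMod N)`. -/
theorem comb_main_P1 (d : ℤ)
    (hd : d = (Nat.card (P1 (ZMod N)) : ℤ)
      - orb (MulAction.toPerm matS : Perm (P1 (ZMod N)))
      - orb (MulAction.toPerm matST : Perm (P1 (ZMod N)))
      - orb (MulAction.toPerm matT : Perm (P1 (ZMod N)))) :
    0 ≤ d + 2 ∧ Even (d + 2) ∧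
      (((d + 2).toNat / 2 : ℕ) : ℚ) = ModularCurve.genusFormula N := by
  classical
  have : Fintype (P1 (ZMod N)) := Fintype.ofFinite _
  set a : Perm (P1 (ZMod N)) := MulAction.toPerm matS with ha_def
  set b : Perm (P1 (ZMod N)) := MulAction.toPerm matT with hb_def
  set s : Perm (P1 (ZMod N)) := MulAction.toPerm matST with hs_def
  have hab : a * b = s := by
    rw [ha_def, hb_def, hs_def, matST_eq]
    exact (map_mul (MulAction.toPermHom SL(2, ℤ) (P1 (ZMod N))) matS matT).symm
  have habc : a * b * s⁻¹ = 1 := by rw [hab, mul_inv_cancel]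
  have htrans : ∀ i j : P1 (ZMod N), ∃ g ∈ Subgroup.closure ({a, b} : Set (Perm (P1 (ZMod N)))),
      g i = j := exists_mem_closure_toPerm N
  have ha2 : a ^ 2 = 1 := toPerm_matS_sq
  have hc3 : s⁻¹ ^ 3 = 1 := by rw [inv_pow, toPerm_matST_cube, inv_one]
  have hcard : Fintype.card (P1 (ZMod N)) = ModularCurve.dedekindPsi N := by
    rw [← Nat.card_eq_fintype_card, card_P1_zmod]
  have hnu2 : Fintype.card (Function.fixedPoints a) = ModularCurve.nuTwo N := by
    rw [← Nat.card_eq_fintype_card, ← card_fixedBy_matS N]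
    rfl
  have hnu3 : Fintype.card (Function.fixedPoints (s⁻¹ : Perm (P1 (ZMod N))))
      = ModularCurve.nuThree N := by
    rw [← Nat.card_eq_fintype_card, ← card_fixedBy_matST N, fixedPoints_inv]
    rfl
  have hb : orb b = ModularCurve.cuspCount N := orb_matT N
  have hd' : d = (Fintype.card (P1 (ZMod N)) : ℤ) - orb a - orb b - orb s⁻¹ := by
    rw [hd, orb_inv, Nat.card_eq_fintype_card]
    ring
  obtain ⟨h0, hev, -⟩ := toNat_div_two_eq a b s⁻¹ habc htrans d hd'
  refine ⟨h0, hev, ?_⟩
  rw [genus_numeric_of_perm a b s⁻¹ habc htrans ha2 hc3 _ _ _ hnu2 hnu3 hb d hd', hcard]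
  rfl

/-- **Final product of layer (F)** on the coset space `SL(2, ℤ) ⧸ Γ₀(N)` (left action). -/
theorem comb_main_quotient (d : ℤ)
    (hd : d = (Nat.card (SL(2, ℤ) ⧸ CongruenceSubgroup.Gamma0 N) : ℤ)
      - orb (MulAction.toPerm ModularGroup.S : Perm (SL(2, ℤ) ⧸ CongruenceSubgroup.Gamma0 N))
      - orb (MulAction.toPerm (ModularGroup.S * ModularGroup.T) :
          Perm (SL(2, ℤ) ⧸ CongruenceSubgroup.Gamma0 N))
      - orb (MulAction.toPerm ModularGroup.T : Perm (SL(2, ℤ) ⧸ CongruenceSubgroup.Gamma0 N))) :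
    0 ≤ d + 2 ∧ Even (d + 2) ∧
      (((d + 2).toNat / 2 : ℕ) : ℚ) = ModularCurve.genusFormula N := by
  refine comb_main_P1 N d ?_
  rw [hd, orb_toPerm_quotient, orb_toPerm_quotient, orb_toPerm_quotient,
    Nat.card_congr (cosetEquiv N), ← matS_eq, ← matT_eq, ← matST_eq]

/-- The three orbit counts on the coset space, individually. -/
theorem orb_quotient_T :
    orb (MulAction.toPerm ModularGroup.T : Perm (SL(2, ℤ) ⧸ CongruenceSubgroup.Gamma0 N))
      = ModularCurve.cuspCount N := by
  rw [orb_toPerm_quotient, ← matT_eq, orb_matT]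

theorem two_mul_orb_quotient_S :
    2 * orb (MulAction.toPerm ModularGroup.S : Perm (SL(2, ℤ) ⧸ CongruenceSubgroup.Gamma0 N))
      = ModularCurve.dedekindPsi N + ModularCurve.nuTwo N := by
  classical
  have : Fintype (P1 (ZMod N)) := Fintype.ofFinite _
  rw [orb_toPerm_quotient, ← matS_eq]
  have h := prime_mul_orb Nat.prime_two (toPerm_matS_sq (R := ZMod N))
  have hcard : Fintype.card (P1 (ZMod N)) = ModularCurve.dedekindPsi N := by
    rw [← Nat.card_eq_fintype_card, card_P1_zmod]
  have hnu2 : Fintype.card (Function.fixedPoints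
      (MulAction.toPerm matS : Perm (P1 (ZMod N)))) = ModularCurve.nuTwo N := by
    rw [← Nat.card_eq_fintype_card, ← card_fixedBy_matS N]
    rfl
  rw [hcard, hnu2] at h
  simpa using h

theorem three_mul_orb_quotient_ST :
    3 * orb (MulAction.toPerm (ModularGroup.S * ModularGroup.T) :
        Perm (SL(2, ℤ) ⧸ CongruenceSubgroup.Gamma0 N))
      = ModularCurve.dedekindPsi N + 2 * ModularCurve.nuThree N := by
  classical
  have : Fintype (P1 (ZMod N)) := Fintype.ofFinite _
  rw [orb_toPerm_quotient, ← matS_eq, ← matT_eq, ← matST_eq]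
  have h := prime_mul_orb Nat.prime_three (toPerm_matST_cube (R := ZMod N))
  have hcard : Fintype.card (P1 (ZMod N)) = ModularCurve.dedekindPsi N := by
    rw [← Nat.card_eq_fintype_card, card_P1_zmod]
  have hnu3 : Fintype.card (Function.fixedPoints
      (MulAction.toPerm matST : Perm (P1 (ZMod N)))) = ModularCurve.nuThree N := by
    rw [← Nat.card_eq_fintype_card, ← card_fixedBy_matST N]
    rfl
  rw [hcard, hnu3] at h
  simpa using h

end Main

end Fermat.Agent.S24
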