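/-
S24 glue (owner: helper4): the packaged local lemma for Laurent series `C((t))` with the rotation
`rot ζ`, on top of helper3's `LocalLemmaCore` / `LocalLemmaLaurent`.
-/
import Mathlib
import Fermat.Agent.S24.Rot
import Fermat.Agent.S24.LocalLemma
import Fermat.Agent.S24.PermOrbits

set_option autoImplicit false

noncomputable section

namespace Fermat.Agent.S24

open HahnSeries AlgebraicCurve LocalLemma

variable {K F C : Type*} [Field K] [Field F] [Algebra K F] [Field C] [CharZero C] [Algebra K C]
variable {I : Type*} [Fintype I]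

/-- **Packaged local lemma for Laurent series.**  Pairwise distinct `K`-embeddings
`φ i : F → C((t))` with `φ i y = g` of order `k ≥ 1`, permuted by `ρ` up to the rotation by a
primitive `k`-th root of unity; if the zeros of `y` are finite, have trivial residue fields and total
multiplicity at most `card I`, then the zeros of `y` correspond to the cycles of `ρ`. -/
theorem laurent_local_lemma (φ : I → F →ₐ[K] LaurentSeries C) (hinj : Function.Injective φ)
    {y : F} (hy : y ≠ 0) {g : LaurentSeries C} (hg : ∀ i, φ i y = g) {k : ℕ} (hk : 0 < k)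
    (hord : g.order = k) (ρ : Equiv.Perm I) (ζ : Cˣ) (hζ : IsPrimitiveRoot ζ k)
    (hrot : ∀ i f, φ (ρ i) f = rot ζ (φ i f))
    (hfin : {v : Place K F | 0 < v.ord y}.Finite)
    (hres : ∀ v : Place K F, 0 < v.ord y → ResidueTrivial v)
    (hsum : ∑ v ∈ hfin.toFinset, v.ord y ≤ (Fintype.card I : ℤ)) :
    {v : Place K F | 0 < v.ord y}.ncard = orb ρ ∧
      ∑ v ∈ hfin.toFinset, v.ord y = (Fintype.card I : ℤ) ∧
      (k = 1 → ∀ v : Place K F, 0 < v.ord y → v.ord y = 1) := by
  have hE : EmbData (laurentLeadData K C) φ y g k :=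
    { inj := hinj, y_ne := hy, map_y := hg, k_pos := hk, ord_g := hord }
  have hζ' : IsPrimitiveRoot ((ζ : Cˣ) : C) k := hζ.map_of_injective Units.coeHom_injective
  have hR : RotData (laurentLeadData K C) φ k ρ (ζ : C) :=
    rotData_of_coeff hk hζ' (fun i f m => by
      rw [hrot, rot_coeff, Units.val_zpow_eq_zpow_val])
  refine ⟨?_, hE.sum_ord_eq_card hfin hres hsum, ?_⟩
  · have h1 := RotData.card_zeros_eq_card_cycles hE hR hfin hres hsum
    rw [← Nat.card_coe_set_eq]
    exact h1
  · intro hk1 v hv
    obtain ⟨i, hi⟩ := hE.exists_place_eq hfin hres hsum v hv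
    have h1 := hE.mult_mul_ord_y i
    have h3 := hE.ord_y_pos i
    rw [hi] at h1 h3
    subst hk1
    have h4 : hE.mult i * v.ord y = 1 := by exact_mod_cast h1
    have h5 : v.ord y ∣ 1 := Dvd.intro_left _ h4
    exact Int.eq_one_of_dvd_one h3.le h5

end Fermat.Agent.S24
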