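/-
S24 assembly, generic part (owner: helper4): from local embedding data at the branch points and at
infinity to the prelude genus, for an arbitrary function field in one variable over an
algebraically closed field of characteristic zero.
-/
import Mathlib
import Fermat.Agent.S24.FF.RH
import Fermat.Agent.S24.FF.PlaceA1
import Fermat.Agent.S24.FF.FundId
import Fermat.Agent.S24.LaurentLead

set_option autoImplicit false

noncomputable section

namespace Fermat.Agent.S24

open AlgebraicCurve IntermediateField FF LocalLemma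

variable {K F : Type*} [Field K] [IsAlgClosed K] [CharZero K] [Field F] [Algebra K F]

/-- **Local data** at a zero set: pairwise distinct embeddings of `F` into `C((t))` indexed by `I`,
all sending `y` to the same series of order `k ≥ 1`, and permuted by `ρ` up to the rotation by a
primitive `k`-th root of unity. -/
def HasLocalData (C : Type*) [Field C] [Algebra K C] (I : Type*) (y : F) (k : ℕ)
    (ρ : Equiv.Perm I) : Prop :=
  ∃ (φ : I → F →ₐ[K] LaurentSeries C) (g : LaurentSeries C) (ζ : Cˣ),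
    Function.Injective φ ∧ (∀ i, φ i y = g) ∧ 0 < k ∧ g.order = (k : ℤ) ∧ IsPrimitiveRoot ζ k ∧
      ∀ i f, φ (ρ i) f = rot ζ (φ i f)

theorem residueTrivial_of_isFF1 (hF : IsFF1 K F) (v : Place K F) : ResidueTrivial v := by
  intro f hf
  exact exists_const_sub_ord_pos hF v (LocalLemma.ord_nonneg_of_mem v hf)

/-- the local lemma in consumer form -/
theorem ncard_zerosOf_eq_orb (hF : IsFF1 K F) {C : Type*} [Field C] [CharZero C] [Algebra K C]
    {I : Type*} [Fintype I] {y : F} (hy : Transcendental K y) {k : ℕ} {ρ : Equiv.Perm I}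
    (hloc : HasLocalData (K := K) C I y k ρ)
    (hle : Module.finrank K⟮y⟯ F ≤ Fintype.card I) :
    (zerosOf K y).ncard = orb ρ ∧ Module.finrank K⟮y⟯ F = Fintype.card I ∧
      (k = 1 → ∀ v ∈ zerosOf K y, v.ord y = 1) := by
  obtain ⟨φ, g, ζ, hinj, hg, hk, hord, hζ, hrot⟩ := hloc
  have hy0 : y ≠ 0 := by
    rintro rfl
    exact hy (isAlgebraic_zero)
  have hfin : {v : Place K F | 0 < v.ord y}.Finite := zerosOf_finite hF hy0
  have hsumeq : ∑ v ∈ hfin.toFinset, v.ord y = (Module.finrank K⟮y⟯ F : ℤ) := by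
    rw [← sum_ord_zerosOf hF hy]
    exact (finsum_mem_eq_finite_toFinset_sum _ hfin).symm
  have hsum : ∑ v ∈ hfin.toFinset, v.ord y ≤ (Fintype.card I : ℤ) := by
    rw [hsumeq]; exact_mod_cast hle
  obtain ⟨h1, h2, h3⟩ := laurent_local_lemma φ hinj hy0 hg hk hord ρ ζ hζ hrot hfin
    (fun v _ => residueTrivial_of_isFF1 hF v) hsum
  refine ⟨h1, ?_, fun hk1 v hv => h3 hk1 v hv⟩
  rw [hsumeq] at h2
  exact_mod_cast h2

/-- **Generic assembly.** -/
theorem genus_eq_of_localData (hF : IsFF1 K F) [HasCanonicalDivisor (K := K) (F := F)]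
    {C : Type*} [Field C] [CharZero C] [Algebra K C] {I : Type*} [Fintype I]
    {x : F} (hx : Transcendental K x)
    (hle : Module.finrank K⟮x⟯ F ≤ Fintype.card I)
    (c₀ c₁ : K) (hc : c₀ ≠ c₁)
    (hgen : ∀ c : K, c ≠ c₀ → c ≠ c₁ →
      HasLocalData (K := K) C I (x - algebraMap K F c) 1 (1 : Equiv.Perm I))
    {k₀ k₁ kI : ℕ} {ρ₀ ρ₁ ρI : Equiv.Perm I}
    (h₀ : HasLocalData (K := K) C I (x - algebraMap K F c₀) k₀ ρ₀)
    (h₁ : HasLocalData (K := K) C I (x - algebraMap K F c₁) k₁ ρ₁)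
    (hinf : HasLocalData (K := K) C I x⁻¹ kI ρI)
    (g : ℕ)
    (hg : 2 * (g : ℤ) - 2 = (Fintype.card I : ℤ) - orb ρ₀ - orb ρ₁ - orb ρI) :
    genus K F = g := by
  classical
  have hxc : ∀ c : K, Transcendental K (x - algebraMap K F c) := by
    intro c h
    apply hx
    have h2 : IsAlgebraic K (algebraMap K F c) := isAlgebraic_algebraMap c
    have := h.add h2
    simpa using this
  have hxinv : Transcendental K x⁻¹ := fun h => hx (IsAlgebraic.inv_iff.mp h)
  have hlec : ∀ c : K, Module.finrank K⟮x - algebraMap K F c⟯ F ≤ Fintype.card I := by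
    intro c; rw [finrank_adjoin_sub_const]; exact hle
  have hleinv : Module.finrank K⟮x⁻¹⟯ F ≤ Fintype.card I := by
    rw [finrank_adjoin_inv]; exact hle
  obtain ⟨e0, n0, -⟩ := ncard_zerosOf_eq_orb hF (hxc c₀) h₀ (hlec c₀)
  obtain ⟨e1, -, -⟩ := ncard_zerosOf_eq_orb hF (hxc c₁) h₁ (hlec c₁)
  obtain ⟨einf, -, -⟩ := ncard_zerosOf_eq_orb hF hxinv hinf hleinv
  rw [finrank_adjoin_sub_const] at n0
  have hpoles : polesOf K x = zerosOf K x⁻¹ := by
    ext v
    show v.ord x < 0 ↔ 0 < v.ord x⁻¹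
    rw [Place.ord_inv]; omega
  have hunr : ∀ c : K, c ∉ ({c₀, c₁} : Finset K) →
      ∀ v ∈ zerosOf K (x - algebraMap K F c), v.ord (x - algebraMap K F c) = 1 := by
    intro c hcc v hv
    simp only [Finset.mem_insert, Finset.mem_singleton, not_or] at hcc
    exact (ncard_zerosOf_eq_orb hF (hxc c) (hgen c hcc.1 hcc.2) (hlec c)).2.2 rfl v hv
  refine genus_eq hF hx ({c₀, c₁} : Finset K) hunr g ?_
  rw [Finset.sum_pair hc, e0, e1, hpoles, einf, n0, hg]
  ring

end Fermat.Agent.S24
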