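/-
S24 assembly glue (owner: helper4): a family of ring embeddings `emb a : F →+* C((t))` indexed by a
group `G`, constant on left cosets of `H`, separating cosets, and equivariant for an element `σ` up to
a rotation, yields `HasLocalData` on the index set `G ⧸ H` with the permutation `toPerm σ`.
-/
import Mathlib
import Fermat.Agent.S24.Assembly

set_option autoImplicit false

noncomputable section

namespace Fermat.Agent.S24

open AlgebraicCurve

variable {K F C : Type*} [Field K] [Field F] [Algebra K F]
  [Field C] [Algebra K C]

/-- a ring hom `F →+* C((t))` which is the structure map on constants, as a `K`-algebra hom -/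
def algHomOfRingHom (e : F →+* LaurentSeries C)
    (he : ∀ c : K, e (algebraMap K F c) = HahnSeries.C (algebraMap K C c)) :
    F →ₐ[K] LaurentSeries C where
  toRingHom := e
  commutes' c := by
    show e (algebraMap K F c) = algebraMap K (LaurentSeries C) c
    rw [he, LocalLemma.laurent_algebraMap_eq]

@[simp] theorem algHomOfRingHom_apply (e : F →+* LaurentSeries C)
    (he : ∀ c : K, e (algebraMap K F c) = HahnSeries.C (algebraMap K C c)) (f : F) :
    algHomOfRingHom e he f = e f := rfl

theorem hasLocalData_of_emb {G : Type*} [Group G] (H : Subgroup G)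
    (emb : G → F →+* LaurentSeries C)
    (hconst : ∀ (a : G) (c : K), emb a (algebraMap K F c) = HahnSeries.C (algebraMap K C c))
    (hH : ∀ (a h : G), h ∈ H → emb (a * h) = emb a)
    (hsep : ∀ a b : G, emb a = emb b → a⁻¹ * b ∈ H)
    {y : F} {g : LaurentSeries C} (hy : ∀ a, emb a y = g) {k : ℕ} (hk : 0 < k)
    (hord : g.order = (k : ℤ))
    (σ : G) (ζ : Cˣ) (hζ : IsPrimitiveRoot ζ k)
    (hσ : ∀ (a : G) (f : F), emb (σ * a) f = rot ζ (emb a f)) :
    HasLocalData (K := K) C (G ⧸ H) y k (MulAction.toPerm σ : Equiv.Perm (G ⧸ H)) := by
  classical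
  let φ : G ⧸ H → F →ₐ[K] LaurentSeries C :=
    Quotient.lift (s := QuotientGroup.leftRel H)
      (fun a => algHomOfRingHom (K := K) (emb a) (hconst a))
      (by
        intro a b hab
        have hab' : a⁻¹ * b ∈ H := QuotientGroup.leftRel_apply.mp hab
        have hb : b = a * (a⁻¹ * b) := by group
        apply AlgHom.ext
        intro f
        show emb a f = emb b f
        rw [hb, hH a _ hab'])
  have hφ : ∀ a : G, φ (QuotientGroup.mk a) = algHomOfRingHom (K := K) (emb a) (hconst a) :=
    fun a => rfl
  refine ⟨φ, g, ζ, ?_, ?_, hk, hord, hζ, ?_⟩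
  · intro p q hpq
    induction p using QuotientGroup.induction_on with | _ a => ?_
    induction q using QuotientGroup.induction_on with | _ b => ?_
    rw [hφ, hφ] at hpq
    have hab : emb a = emb b := by
      ext f : 1
      have := congrArg (fun ψ : F →ₐ[K] LaurentSeries C => ψ f) hpq
      simpa using this
    exact QuotientGroup.eq.mpr (hsep a b hab)
  · intro p
    induction p using QuotientGroup.induction_on with | _ a => ?_
    rw [hφ]
    exact hy a
  · intro p f
    induction p using QuotientGroup.induction_on with | _ a => ?_
    have h1 : (MulAction.toPerm σ : Equiv.Perm (G ⧸ H)) (QuotientGroup.mk a)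
        = QuotientGroup.mk (σ * a) := rfl
    rw [h1, hφ, hφ]
    exact hσ a f

end Fermat.Agent.S24
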