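import Mathlib
import Fermat.Agent.S24.JOrder

set_option autoImplicit false

/-!
# S24, layer (B5): the analytic `j`-function is surjective

For `c : ℂ` the function `g = E₄³ - c Δ` is a level one modular form of weight `12` with value
`1` at `i∞`.  If `g` had no zero on `ℍ`, then `1/g` would be a non-zero level one modular form
of weight `-12`, which is impossible.  Hence `jFun τ = c` has a solution.
-/

namespace Fermat.Agent.S24

open UpperHalfPlane hiding I
open Complex Real Filter Topology Function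
open scoped Manifold MatrixGroups ModularForm
open ModularForm EisensteinSeries Derivative

local notation "Δ" => ModularForm.discriminant

/-- The weight `12` function `E₄³ - c Δ`. -/
noncomputable def jSurjAux (c : ℂ) (τ : ℍ) : ℂ := E₄ τ ^ 3 - c * Δ τ

theorem jSurjAux_smul (c : ℂ) (γ : SL(2, ℤ)) (τ : ℍ) :
    jSurjAux c (γ • τ) = denom γ τ ^ (12 : ℤ) * jSurjAux c τ := by
  rw [jSurjAux, jSurjAux, modularForm_smul_apply, discriminant_smul_apply, mul_pow, ← zpow_natCast,
    ← zpow_mul]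
  have : ((4 : ℤ) * (3 : ℕ)) = 12 := by norm_num
  rw [this]
  ring

theorem mdiff_jSurjAux (c : ℂ) : MDiff (jSurjAux c) := by
  have h4 : MDiff (E₄ : ℍ → ℂ) := E₄.holo'
  have h3 : MDiff (fun τ : ℍ => E₄ τ ^ 3) := by
    have : (fun τ : ℍ => E₄ τ ^ 3) = (E₄ : ℍ → ℂ) * E₄ * E₄ := by
      ext z; simp [pow_succ]
    rw [this]; exact (h4.mul h4).mul h4
  have hc : MDiff (fun τ : ℍ => c * Δ τ) := by
    have : (fun τ : ℍ => c * Δ τ) = (fun _ : ℍ => c) * (Δ : ℍ → ℂ) := by
      ext z; simp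
    rw [this]; exact mdifferentiable_const.mul mdiff_discriminant
  exact h3.sub hc

theorem tendsto_jSurjAux (c : ℂ) : Tendsto (jSurjAux c) atImInfty (𝓝 1) := by
  have h4 : Tendsto (E₄ : ℍ → ℂ) atImInfty (𝓝 1) := tendsto_E (by norm_num) ⟨2, rfl⟩
  have hΔ : Tendsto (Δ : ℍ → ℂ) atImInfty (𝓝 0) := discriminant_isZeroAtImInfty
  have := (h4.pow 3).sub (hΔ.const_mul c)
  have hfun : jSurjAux c = fun τ : ℍ => E₄ τ ^ 3 - c * Δ τ := rfl
  rw [hfun]
  simpa using this

/-- `E₄³ - c Δ` has a zero on the upper half plane. -/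
theorem exists_jSurjAux_eq_zero (c : ℂ) : ∃ τ : ℍ, jSurjAux c τ = 0 := by
  by_contra hcon
  have hcon : ∀ τ : ℍ, jSurjAux c τ ≠ 0 := fun τ h => hcon ⟨τ, h⟩
  -- the reciprocal is slash invariant of weight `-12`
  have hslash : ∀ γ : SL(2, ℤ),
      (fun τ : ℍ => (jSurjAux c τ)⁻¹) ∣[(-12 : ℤ)] γ = fun τ : ℍ => (jSurjAux c τ)⁻¹ := by
    intro γ
    ext τ
    rw [SL_slash_apply, jSurjAux_smul]
    have hd : denom γ τ ≠ 0 := denom_ne_zero γ τ
    have hd12 : denom γ τ ^ (12 : ℤ) ≠ 0 := zpow_ne_zero _ hd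
    rw [neg_neg, mul_inv]
    field_simp
  have hbdd : IsBoundedAtImInfty (fun τ : ℍ => (jSurjAux c τ)⁻¹) := by
    have : Tendsto (fun τ : ℍ => (jSurjAux c τ)⁻¹) atImInfty (𝓝 (1 : ℂ)⁻¹) :=
      (tendsto_jSurjAux c).inv₀ one_ne_zero
    exact this.isBigO_one ℝ
  have hmd : MDiff (fun τ : ℍ => (jSurjAux c τ)⁻¹) := by
    have h1 : MDiff (fun _ : ℍ => (1 : ℂ)) := mdifferentiable_const
    have := h1.div (mdiff_jSurjAux c) hcon
    have hfun : (fun τ : ℍ => (jSurjAux c τ)⁻¹) = (fun _ : ℍ => (1 : ℂ)) / jSurjAux c := by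
      ext τ
      simp
    rw [hfun]
    exact this
  let f : ModularForm 𝒮ℒ (-12) :=
    { toFun := fun τ : ℍ => (jSurjAux c τ)⁻¹
      slash_action_eq' := by
        rintro _ ⟨γ, rfl⟩
        exact hslash γ
      holo' := hmd
      bdd_at_cusps' := by
        intro cusp hc
        rw [Subgroup.IsArithmetic.isCusp_iff_isCusp_SL2Z] at hc
        rw [OnePoint.isBoundedAt_iff_forall_SL2Z hc]
        intro γ _
        rw [hslash γ]
        exact hbdd }
  have hzero : (f : ℍ → ℂ) = 0 := ModularFormClass.levelOne_neg_weight_eq_zero (by norm_num) f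
  have h1 := congrFun hzero UpperHalfPlane.I
  have h2 : (jSurjAux c UpperHalfPlane.I)⁻¹ = 0 := h1
  exact hcon UpperHalfPlane.I (inv_eq_zero.mp h2)

/-- **The analytic `j`-function is surjective.** -/
theorem jFun_surjective : Function.Surjective jFun := by
  intro c
  obtain ⟨τ, hτ⟩ := exists_jSurjAux_eq_zero c
  refine ⟨τ, ?_⟩
  have hne := discriminant_ne_zero τ
  rw [jFun, div_eq_iff hne]
  rw [jSurjAux] at hτ
  linear_combination hτ

/-- Pointwise form of `jFun_surjective`. -/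
theorem exists_jFun_eq (c : ℂ) : ∃ τ : ℍ, jFun τ = c := jFun_surjective c

end Fermat.Agent.S24
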