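/-
S24 final wiring, conditional form (owner: helper4): the genus formula for the modular function
field from the expansion embeddings of layer (R) (taken here as hypotheses in the shape of helper26's
skeleton), the generic assembly, the analytic facts on `jFun` and the combinatorics of layer (F).
-/
import Mathlib
import Fermat.Agent.S24.Basic
import Fermat.Agent.S24.EmbGlue
import Fermat.Agent.S24.CombMain
import Fermat.Agent.S24.JSurj
import Fermat.Agent.S24.Real.Taylor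
import Fermat.Agent.S24.Real.Generators

set_option autoImplicit false

noncomputable section

namespace Fermat.Agent.S24

open AlgebraicCurve IntermediateField FF UpperHalfPlane ModularCurve CongruenceSubgroup
open scoped Manifold MatrixGroups

/-! ### Orders of Laurent series coming from power series -/

theorem order_ofPowerSeries_of_order_eq {p : PowerSeries ℂ} {k : ℕ} (h : p.order = (k : ℕ∞)) :
    (HahnSeries.ofPowerSeries ℤ ℂ p).order = (k : ℤ) := by
  obtain ⟨hk, hlt⟩ := PowerSeries.order_eq_nat.mp h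
  have hcoeff : ∀ n : ℕ, (HahnSeries.ofPowerSeries ℤ ℂ p).coeff (n : ℤ) = PowerSeries.coeff n p :=
    fun n => HahnSeries.ofPowerSeries_apply_coeff p n
  have hne : HahnSeries.ofPowerSeries ℤ ℂ p ≠ 0 := by
    intro h0
    have := hcoeff k
    rw [h0, HahnSeries.coeff_zero] at this
    exact hk this.symm
  apply le_antisymm
  · exact HahnSeries.order_le_of_coeff_ne_zero (by rw [hcoeff]; exact hk)
  · rw [HahnSeries.le_order_iff_forall hne]
    intro j hj
    rcases lt_or_ge j 0 with hneg | hpos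
    · exact ModularCurve.ofPowerSeries_coeff_of_neg p hneg
    · obtain ⟨m, rfl⟩ := Int.eq_ofNat_of_zero_le hpos
      rw [hcoeff]
      exact hlt m (by exact_mod_cast hj)

theorem order_taylorL_sub_const {τ₀ : ℍ} {f : ℍ → ℂ} (hf : MDiff f) (c : ℂ) {k : ℕ}
    (hk : analyticOrderAt (fun z : ℂ => f (ofComplex z) - c) (τ₀ : ℂ) = (k : ℕ∞)) :
    (taylorL τ₀ f - HahnSeries.C c).order = (k : ℤ) := by
  have hc : MDiff (fun _ : ℍ => c) := mdifferentiable_const
  have hsub : MDiff (f + fun _ : ℍ => -c) := hf.add mdifferentiable_const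
  have h1 : taylorAt τ₀ (f + fun _ : ℍ => -c) = taylorAt τ₀ f - PowerSeries.C c := by
    rw [taylorAt_add τ₀ hf mdifferentiable_const, taylorAt_const, map_neg, sub_eq_add_neg]
  have h2 : taylorL τ₀ f - HahnSeries.C c
      = HahnSeries.ofPowerSeries ℤ ℂ (taylorAt τ₀ (f + fun _ : ℍ => -c)) := by
    rw [h1, map_sub, HahnSeries.ofPowerSeries_C]
    rfl
  rw [h2]
  apply order_ofPowerSeries_of_order_eq
  rw [order_taylorAt τ₀ hsub, ← hk]
  congr 1

/-! ### The series `j(t^N)` -/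

/-- the complex `q`-expansion of `j` -/
def jqC : LaurentSeries ℂ := coeffMap (algebraMap ℚ ℂ) jq

theorem order_qExpand_jqC (N : ℕ) [NeZero N] : (qExpand ℂ N jqC).order = -(N : ℤ) := by
  have hN : (0 : ℤ) < N := by exact_mod_cast Nat.pos_of_ne_zero (NeZero.ne N)
  have h1 : (qExpand ℂ N jqC).coeff (-(N : ℤ)) = 1 := by
    have : -(N : ℤ) = (N : ℤ) * (-1) := by ring
    rw [this, qExpand_coeff_mul, jqC, coeffMap_coeff, coeff_jq_neg_one, map_one]
  have hne : qExpand ℂ N jqC ≠ 0 := by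
    intro h0
    rw [h0, HahnSeries.coeff_zero] at h1
    exact zero_ne_one h1
  apply le_antisymm
  · exact HahnSeries.order_le_of_coeff_ne_zero (by rw [h1]; exact one_ne_zero)
  · rw [HahnSeries.le_order_iff_forall hne]
    intro j hj
    by_cases hdvd : (N : ℤ) ∣ j
    · obtain ⟨m, rfl⟩ := hdvd
      rw [qExpand_coeff_mul, jqC, coeffMap_coeff]
      have hm : m < -1 := by
        by_contra hcon
        have hcon' : -1 ≤ m := not_lt.mp hcon
        have : -(N : ℤ) ≤ (N : ℤ) * m := by nlinarith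
        omega
      rw [coeff_jq_of_lt hm, map_zero]
    · exact qExpand_coeff_of_not_dvd N _ hdvd

theorem order_inv_qExpand_jqC (N : ℕ) [NeZero N] : ((qExpand ℂ N jqC)⁻¹).order = (N : ℤ) := by
  have hne : qExpand ℂ N jqC ≠ 0 := by
    intro h0
    have := order_qExpand_jqC N
    rw [h0, HahnSeries.order_zero] at this
    have hN : (0 : ℤ) < N := by exact_mod_cast Nat.pos_of_ne_zero (NeZero.ne N)
    omega
  have h := HahnSeries.order_mul hne (inv_ne_zero hne)
  rw [mul_inv_cancel₀ hne, HahnSeries.order_one, order_qExpand_jqC] at h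
  omega

/-! ### The conditional final theorem -/

section Final

variable (N : ℕ) [NeZero N]

/-- the modular function field as a type -/
abbrev FFbar (N : ℕ) : Type := ↥(modularFunctionFieldBar N)

/-- **S24, conditional on the layer (R) embeddings.** -/
theorem genus_eq_genusFormula_of_emb
    [HasCanonicalDivisor (K := Kbar) (F := (FFbar N))]
    (ι : Kbar →+* ℂ) (x : (FFbar N))
    (hx : Transcendental Kbar x) (hfd : FiniteDimensional Kbar⟮x⟯ (FFbar N))
    (hle : Module.finrank Kbar⟮x⟯ (FFbar N) ≤ Nat.card (SL(2, ℤ) ⧸ Gamma0 N))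
    -- embeddings at finite points
    (embF : ℍ → SL(2, ℤ) → ((FFbar N) →+* LaurentSeries ℂ))
    (hF1 : ∀ τ₀ a (c : Kbar), embF τ₀ a (algebraMap Kbar (FFbar N) c) = HahnSeries.C (ι c))
    (hF2 : ∀ τ₀ a, embF τ₀ a x = taylorL τ₀ jFun)
    (hF3 : ∀ τ₀ a h, h ∈ Gamma0 N → embF τ₀ (a * h) = embF τ₀ a)
    (hF4 : ∀ τ₀ a b, embF τ₀ a = embF τ₀ b → a⁻¹ * b ∈ Gamma0 N)
    (hF5 : ∀ τ₀ a σ, σ • τ₀ = τ₀ → ∀ ζ : ℂˣ, (ζ : ℂ) = rotFactor σ⁻¹ τ₀ →
      ∀ f, embF τ₀ (σ * a) f = rot ζ (embF τ₀ a f))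
    -- embeddings at infinity
    (embI : SL(2, ℤ) → ((FFbar N) →+* LaurentSeries ℂ))
    (hI1 : ∀ a (c : Kbar), embI a (algebraMap Kbar (FFbar N) c) = HahnSeries.C (ι c))
    (hI2 : ∀ a, embI a x = qExpand ℂ N jqC)
    (hI3 : ∀ a h, h ∈ Gamma0 N → embI (a * h) = embI a)
    (hI4 : ∀ a b, embI a = embI b → a⁻¹ * b ∈ Gamma0 N)
    (σI : SL(2, ℤ)) (hσI : σI = ModularGroup.T ∨ σI = ModularGroup.T⁻¹)
    (ζI : ℂˣ) (hζI : IsPrimitiveRoot ζI N)
    (hI5 : ∀ a f, embI (σI * a) f = rot ζI (embI a f)) :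
    (genus Kbar (FFbar N) : ℚ) = genusFormula N := by
  classical
  letI : Algebra Kbar ℂ := ι.toAlgebra
  have hιalg : ∀ c : Kbar, algebraMap Kbar ℂ c = ι c := fun _ => rfl
  haveI : Finite (SL(2, ℤ) ⧸ Gamma0 N) := finite_quotient_gamma0 N
  letI : Fintype (SL(2, ℤ) ⧸ Gamma0 N) := Fintype.ofFinite _
  have hF : IsFF1 Kbar (FFbar N) := ⟨x, hx, hfd⟩
  have hle' : Module.finrank Kbar⟮x⟯ (FFbar N) ≤ Fintype.card (SL(2, ℤ) ⧸ Gamma0 N) := by
    rw [← Nat.card_eq_fintype_card]; exact hle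
  -- value of the embeddings on `x - c`
  have hval : ∀ τ₀ a (c : Kbar), embF τ₀ a (x - algebraMap Kbar (FFbar N) c)
      = taylorL τ₀ jFun - HahnSeries.C (ι c) := by
    intro τ₀ a c
    rw [map_sub, hF2, hF1]
  -- local data at a point `τ₀` with a stabilising element `σ`
  have hlocal : ∀ (τ₀ : ℍ) (c : Kbar) (k : ℕ), 0 < k →
      analyticOrderAt (fun z : ℂ => jFun (ofComplex z) - ι c) (τ₀ : ℂ) = (k : ℕ∞) →
      ∀ (σ : SL(2, ℤ)), σ • τ₀ = τ₀ → ∀ ζ : ℂˣ, (ζ : ℂ) = rotFactor σ⁻¹ τ₀ →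
      IsPrimitiveRoot ζ k →
      HasLocalData (K := Kbar) ℂ (SL(2, ℤ) ⧸ Gamma0 N) (x - algebraMap Kbar (FFbar N) c) k
        (MulAction.toPerm σ : Equiv.Perm (SL(2, ℤ) ⧸ Gamma0 N)) := by
    intro τ₀ c k hk hord σ hσ ζ hζ hprim
    exact hasLocalData_of_emb (K := Kbar) (Gamma0 N) (embF τ₀)
      (fun a c' => by rw [hF1, hιalg]) (hF3 τ₀) (hF4 τ₀)
      (fun a => hval τ₀ a c) hk (order_taylorL_sub_const mdiff_jFun (ι c) hord)
      σ ζ hprim (hF5 τ₀ · σ hσ ζ hζ)
  -- generic points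
  have hgen : ∀ c : Kbar, c ≠ 0 → c ≠ 1728 →
      HasLocalData (K := Kbar) ℂ (SL(2, ℤ) ⧸ Gamma0 N) (x - algebraMap Kbar (FFbar N) c) 1
        (1 : Equiv.Perm (SL(2, ℤ) ⧸ Gamma0 N)) := by
    intro c h0 h1
    obtain ⟨τ₀, hτ₀⟩ := jFun_surjective (ι c)
    have hc0 : ι c ≠ 0 := fun h => h0 ((map_eq_zero ι).mp h)
    have hc1 : ι c ≠ 1728 := by
      intro h
      apply h1
      apply ι.injective
      rw [h, map_ofNat]
    have hord := analyticOrderAt_jFun_sub_of_generic hτ₀ hc0 hc1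
    have h := hlocal τ₀ c 1 one_pos (by exact_mod_cast hord) 1 (one_smul _ _) 1
      (by
        simp only [Units.val_one, inv_one]
        unfold rotFactor
        rw [denom_eq_intCast]
        simp)
      (by simp)
    have hperm : (MulAction.toPerm (1 : SL(2, ℤ)) : Equiv.Perm (SL(2, ℤ) ⧸ Gamma0 N)) = 1 :=
      map_one (MulAction.toPermHom _ _)
    rwa [hperm] at h
  -- the point `ρ` over `c = 0`
  have h0 : HasLocalData (K := Kbar) ℂ (SL(2, ℤ) ⧸ Gamma0 N) (x - algebraMap Kbar (FFbar N) 0) 3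
      (MulAction.toPerm (ModularGroup.S * ModularGroup.T)⁻¹ :
        Equiv.Perm (SL(2, ℤ) ⧸ Gamma0 N)) := by
    have hfix : (ModularGroup.S * ModularGroup.T)⁻¹ • rhoPt = rhoPt := by
      rw [inv_smul_eq_iff, ST_smul_rhoPt]
    have hprim := rotFactor_ST_rho
    have hne : rotFactor (ModularGroup.S * ModularGroup.T) rhoPt ≠ 0 := rotFactor_ne_zero _ _
    refine hlocal rhoPt 0 3 (by norm_num) ?_ _ hfix (Units.mk0 _ hne) (by simp) ?_
    · have := analyticOrderAt_jFun_rhoPt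
      simpa using this
    · exact IsPrimitiveRoot.of_map_of_injective (f := Units.coeHom ℂ) (by simpa using hprim)
        Units.coeHom_injective
  -- the point `i` over `c = 1728`
  have h1 : HasLocalData (K := Kbar) ℂ (SL(2, ℤ) ⧸ Gamma0 N) (x - algebraMap Kbar (FFbar N) 1728) 2
      (MulAction.toPerm (ModularGroup.S)⁻¹ : Equiv.Perm (SL(2, ℤ) ⧸ Gamma0 N)) := by
    have hfix : (ModularGroup.S)⁻¹ • UpperHalfPlane.I = UpperHalfPlane.I := by
      rw [inv_smul_eq_iff, S_smul_I]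
    refine hlocal UpperHalfPlane.I 1728 2 (by norm_num) ?_ _ hfix (-1) ?_ ?_
    · have := analyticOrderAt_jFun_I
      simpa [map_ofNat] using this
    · simp [rotFactor_S_I]
    · have : IsPrimitiveRoot (-1 : ℂˣ) 2 := by
        rw [IsPrimitiveRoot.iff_def]
        refine ⟨by simp, fun l hl => ?_⟩
        by_contra hcon
        have hodd : Odd l := by
          rcases Nat.even_or_odd l with he | ho
          · exact absurd (even_iff_two_dvd.mp he) hcon
          · exact ho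
        rw [hodd.neg_one_pow] at hl
        have : ((-1 : ℂˣ) : ℂ) = ((1 : ℂˣ) : ℂ) := congrArg Units.val hl
        norm_num at this
      exact this
  -- infinity
  have hinf : HasLocalData (K := Kbar) ℂ (SL(2, ℤ) ⧸ Gamma0 N) x⁻¹ N
      (MulAction.toPerm σI : Equiv.Perm (SL(2, ℤ) ⧸ Gamma0 N)) := by
    exact hasLocalData_of_emb (K := Kbar) (Gamma0 N) embI
      (fun a c' => by rw [hI1, hιalg]) hI3 hI4
      (fun a => by rw [map_inv₀, hI2]) (Nat.pos_of_ne_zero (NeZero.ne N))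
      (order_inv_qExpand_jqC N) σI ζI hζI hI5
  -- combinatorics
  set d : ℤ := (Nat.card (SL(2, ℤ) ⧸ Gamma0 N) : ℤ)
      - orb (MulAction.toPerm ModularGroup.S : Equiv.Perm (SL(2, ℤ) ⧸ Gamma0 N))
      - orb (MulAction.toPerm (ModularGroup.S * ModularGroup.T) :
          Equiv.Perm (SL(2, ℤ) ⧸ Gamma0 N))
      - orb (MulAction.toPerm ModularGroup.T : Equiv.Perm (SL(2, ℤ) ⧸ Gamma0 N)) with hd
  obtain ⟨hnonneg, heven, hnum⟩ := comb_main_quotient N d hd
  have horbI : orb (MulAction.toPerm σI : Equiv.Perm (SL(2, ℤ) ⧸ Gamma0 N))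
      = orb (MulAction.toPerm ModularGroup.T : Equiv.Perm (SL(2, ℤ) ⧸ Gamma0 N)) := by
    rcases hσI with rfl | rfl
    · rfl
    · exact orb_toPerm_inv _
  set g : ℕ := (d + 2).toNat / 2 with hg
  have hg2 : 2 * (g : ℤ) - 2 = d := by
    obtain ⟨m, hm⟩ := heven
    have hm0 : 0 ≤ m := by omega
    have : (d + 2).toNat = 2 * m.toNat := by
      rw [hm]; omega
    rw [hg, this, Nat.mul_div_cancel_left _ (by norm_num : 0 < 2)]
    omega
  have hmain := genus_eq_of_localData (K := Kbar) (F := (FFbar N)) hF (C := ℂ)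
    (I := SL(2, ℤ) ⧸ Gamma0 N) hx hle' 0 1728 (by norm_num) hgen h0 h1 hinf g (by
      rw [hg2, hd, orb_toPerm_inv, orb_toPerm_inv, horbI, Nat.card_eq_fintype_card]
      ring)
  rw [hmain, hg]
  exact hnum

end Final

end Fermat.Agent.S24
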