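import Fermat.Agent.S24.CombP1

set_option autoImplicit false

/-!
# S24, layer (F0): `SL(2, ℤ) ⧸ Γ₀(N) ≃ P1 (ZMod N)`

`SL(2, ℤ)` acts transitively on `P1 (ZMod N)`, the stabiliser of `(1 : 0)` is `Γ₀(N)`, hence
`SL(2, ℤ) ⧸ Γ₀(N) ≃ P1 (ZMod N)` equivariantly (left cosets, left action).
-/

namespace Fermat.Agent.S24

open Matrix MatrixGroups

/-- The base point `(1 : 0)`. -/
def P1.base (R : Type*) [CommRing R] : P1 R := P1.mk 1 0 isCoprime_one_left

theorem P1.int_smul_base {R : Type*} [CommRing R] (g : SL(2, ℤ)) (h : IsCoprime ((g 0 0 : ℤ) : R) ((g 1 0 : ℤ) : R)) :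
    g • P1.base R = P1.mk ((g 0 0 : ℤ) : R) ((g 1 0 : ℤ) : R) h := by
  obtain ⟨h', e⟩ := P1.int_smul_def g (1 : R) 0 isCoprime_one_left
  unfold P1.base
  rw [e]
  refine (P1.mk_eq_mk _ _).2 ?_
  simp

theorem isCoprime_cast_of_sl2 {R : Type*} [CommRing R] (g : SL(2, ℤ)) :
    IsCoprime ((g 0 0 : ℤ) : R) ((g 1 0 : ℤ) : R) := by
  refine ⟨((g 1 1 : ℤ) : R), -((g 0 1 : ℤ) : R), ?_⟩
  have h := sl2_det_eq g
  have h2 : (((g 0 0 * g 1 1 - g 0 1 * g 1 0 : ℤ)) : R) = 1 := by rw [h]; simp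
  push_cast at h2
  linear_combination h2

/-- Integers `a`, `k` with `k ∣ N` whose images in `ZMod N` are coprime are coprime. -/
theorem int_isCoprime_of_zmod {N : ℕ} {a : ℤ} {k : ℕ} (hk : k ∣ N)
    (h : IsCoprime ((a : ℤ) : ZMod N) ((k : ℕ) : ZMod N)) : IsCoprime a (k : ℤ) := by
  obtain ⟨r, s, hrs⟩ := h
  obtain ⟨r0, rfl⟩ := ZMod.intCast_surjective r
  obtain ⟨s0, rfl⟩ := ZMod.intCast_surjective s
  have h1 : ((r0 * a + s0 * (k : ℤ) - 1 : ℤ) : ZMod N) = 0 := by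
    push_cast
    rw [hrs]
    ring
  rw [ZMod.intCast_zmod_eq_zero_iff_dvd] at h1
  obtain ⟨t, ht⟩ := h1
  obtain ⟨m, rfl⟩ := hk
  refine ⟨r0, s0 - (m : ℤ) * t, ?_⟩
  push_cast at ht
  linear_combination ht

/-- `SL(2, ℤ)` acts transitively on `P1 (ZMod N)`: every point is `g • (1 : 0)`. -/
theorem exists_smul_base_eq (N : ℕ) (x : P1 (ZMod N)) : ∃ g : SL(2, ℤ), g • P1.base (ZMod N) = x := by
  induction x using P1.ind with
  | _ c d h =>
    obtain ⟨k, hk, u, hu, hd⟩ := ZMod.eq_unit_mul_divisor d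
    obtain ⟨v, rfl⟩ := hu
    obtain ⟨a, ha⟩ := ZMod.intCast_surjective (((v⁻¹ : (ZMod N)ˣ) : ZMod N) * c)
    -- `(c : d) = (a : k)`
    have hcop : IsCoprime ((a : ℤ) : ZMod N) ((k : ℕ) : ZMod N) := by
      obtain ⟨r, s, hrs⟩ := h
      refine ⟨r * v, s * v, ?_⟩
      rw [ha, ← hrs, hd]
      have hv : ((v⁻¹ : (ZMod N)ˣ) : ZMod N) * (v : ZMod N) = 1 := by
        rw [← Units.val_mul, inv_mul_cancel, Units.val_one]
      linear_combination (r * c) * hv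
    have hak := int_isCoprime_of_zmod hk hcop
    obtain ⟨r, s, hrs⟩ := hak
    have hdet : (!![a, -s; (k : ℤ), r] : Matrix (Fin 2) (Fin 2) ℤ).det = 1 := by
      rw [Matrix.det_fin_two_of]
      linear_combination hrs
    let g : SL(2, ℤ) := ⟨!![a, -s; (k : ℤ), r], hdet⟩
    refine ⟨g, ?_⟩
    rw [P1.int_smul_base g (isCoprime_cast_of_sl2 g)]
    refine (P1.mk_eq_mk _ _).2 ?_
    have h00 : (g 0 0 : ℤ) = a := rfl
    have h10 : (g 1 0 : ℤ) = (k : ℤ) := rfl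
    rw [h00, h10, ha, hd]
    have hv : ((v⁻¹ : (ZMod N)ˣ) : ZMod N) * (v : ZMod N) = 1 := by
      rw [← Units.val_mul, inv_mul_cancel, Units.val_one]
    push_cast
    linear_combination (c * (k : ZMod N)) * hv

/-- The stabiliser of `(1 : 0)` in `SL(2, ℤ)` acting on `P1 (ZMod N)` is `Γ₀(N)`. -/
theorem stabilizer_base (N : ℕ) :
    MulAction.stabilizer SL(2, ℤ) (P1.base (ZMod N)) = CongruenceSubgroup.Gamma0 N := by
  ext g
  rw [MulAction.mem_stabilizer_iff, CongruenceSubgroup.Gamma0_mem,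
    P1.int_smul_base g (isCoprime_cast_of_sl2 g)]
  unfold P1.base
  rw [P1.mk_eq_mk]
  constructor
  · intro h
    simpa using h.symm
  · intro h
    simp [h]

/-- The equivariant bijection `SL(2, ℤ) ⧸ Γ₀(N) ≃ P1 (ZMod N)`, `g Γ₀(N) ↦ g • (1 : 0)`. -/
noncomputable def cosetEquiv (N : ℕ) : SL(2, ℤ) ⧸ CongruenceSubgroup.Gamma0 N ≃ P1 (ZMod N) :=
  (Subgroup.quotientEquivOfEq (stabilizer_base N).symm).trans
    (Equiv.ofBijective (MulAction.ofQuotientStabilizer SL(2, ℤ) (P1.base (ZMod N)))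
      ⟨MulAction.injective_ofQuotientStabilizer _ _, fun x => by
        obtain ⟨g, hg⟩ := exists_smul_base_eq N x
        exact ⟨QuotientGroup.mk g, hg⟩⟩)

theorem cosetEquiv_mk (N : ℕ) (g : SL(2, ℤ)) :
    cosetEquiv N (QuotientGroup.mk g) = g • P1.base (ZMod N) :=
  rfl

theorem cosetEquiv_smul (N : ℕ) (g : SL(2, ℤ)) (q : SL(2, ℤ) ⧸ CongruenceSubgroup.Gamma0 N) :
    cosetEquiv N (g • q) = g • cosetEquiv N q := by
  induction q using QuotientGroup.induction_on with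
  | _ g' =>
    change cosetEquiv N (QuotientGroup.mk (g * g')) = g • cosetEquiv N (QuotientGroup.mk g')
    rw [cosetEquiv_mk, cosetEquiv_mk, mul_smul]

theorem exists_smul_eq (N : ℕ) (x y : P1 (ZMod N)) : ∃ g : SL(2, ℤ), g • x = y := by
  obtain ⟨g, rfl⟩ := exists_smul_base_eq N x
  obtain ⟨g', rfl⟩ := exists_smul_base_eq N y
  exact ⟨g' * g⁻¹, by rw [← mul_smul, inv_mul_cancel_right]⟩

instance (N : ℕ) : MulAction.IsPretransitive SL(2, ℤ) (P1 (ZMod N)) :=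
  ⟨exists_smul_eq N⟩

/-- Transitivity of `⟨S, T⟩` on `P1 (ZMod N)`, in the shape used by Scott's lemma. -/
theorem exists_mem_closure_toPerm (N : ℕ) (x y : P1 (ZMod N)) :
    ∃ g ∈ Subgroup.closure ({MulAction.toPerm matS, MulAction.toPerm matT} :
      Set (Equiv.Perm (P1 (ZMod N)))), g x = y := by
  obtain ⟨γ, hγ⟩ := exists_smul_eq N x y
  refine ⟨MulAction.toPermHom SL(2, ℤ) (P1 (ZMod N)) γ, ?_, hγ⟩
  have hmem : γ ∈ Subgroup.closure ({matS, matT} : Set SL(2, ℤ)) := by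
    rw [matS_eq, matT_eq, SpecialLinearGroup.SL2Z_generators]
    exact Subgroup.mem_top γ
  have := Subgroup.mem_map_of_mem (MulAction.toPermHom SL(2, ℤ) (P1 (ZMod N))) hmem
  rw [MonoidHom.map_closure] at this
  simpa [Set.image_pair] using this

end Fermat.Agent.S24
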